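/-
P-GATEWAY, WP-DICT [E] (cut "CuspBound"): a nonzero holomorphic `N`-periodic function of moderate
growth has no zeros high up in the upper half plane, and quotients `a / b` of such functions which
are holomorphic have moderate growth.
-/
import Fermat.Agent.S24.CuspOrd
import Fermat.Agent.S24.Growth

set_option autoImplicit false

noncomputable section

open UpperHalfPlane Filter Function.Periodic Asymptotics Topology
open scoped Real Manifold

namespace Fermat.Agent.Gateway.Dict.CuspBound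

open Fermat.Agent.S24 Fermat.Agent.S24.CuspOrd

local notation "Δ" => (ModularForm.discriminant : ℍ → ℂ)

local notation "𝕢" => Function.Periodic.qParam

/-- The cusp function of `Δ ^ M * b` does not vanish identically near `0`. -/
theorem not_eventually_zero {N M : ℕ} (hN : 0 < N) {b : ℍ → ℂ} (hb : IsCuspFn N b)
    (hM : BddBy M b) (hb0 : b ≠ 0) :
    ¬ ∀ᶠ q in 𝓝 (0 : ℂ), cuspFunction (N : ℝ) (Δ ^ M * b) q = 0 := by
  intro h
  apply hb0
  rw [← qSeries_eq_zero_iff hN hb.mdiff hb.isPer hM]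
  ext n
  rw [qSeries, qExpansion_coeff, map_zero]
  have h2 : iteratedDeriv n (cuspFunction (N : ℝ) (Δ ^ M * b)) 0
      = iteratedDeriv n (fun _ : ℂ => (0 : ℂ)) 0 := Filter.EventuallyEq.iteratedDeriv_eq n h
  rw [h2]
  simp

/-- Lower bound for `Δ ^ M * b` near `i∞` by a power of `q_N`. -/
theorem exists_lower_bound {N M : ℕ} (hN : 0 < N) {b : ℍ → ℂ} (hb : IsCuspFn N b)
    (hM : BddBy M b) (hb0 : b ≠ 0) :
    ∃ (k : ℕ) (c : ℝ), 0 < c ∧
      ∀ᶠ z : ℍ in atImInfty, c * ‖𝕢 (N : ℝ) (z : ℂ)‖ ^ k ≤ ‖(Δ ^ M * b) z‖ := by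
  have hNR : (0 : ℝ) < N := by exact_mod_cast hN
  have han := analyticAt_cusp hN hb.mdiff hb.isPer hM
  obtain ⟨k, u, hu, hu0, hev⟩ :=
    (han.exists_eventuallyEq_pow_smul_nonzero_iff).mpr (not_eventually_zero hN hb hM hb0)
  have hupos : 0 < ‖u 0‖ := norm_pos_iff.mpr hu0
  have hcu : ∀ᶠ q in 𝓝 (0 : ℂ), ‖u 0‖ / 2 < ‖u q‖ := by
    have : Tendsto (fun q => ‖u q‖) (𝓝 0) (𝓝 ‖u 0‖) := hu.continuousAt.norm
    exact this.eventually (lt_mem_nhds (by linarith))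
  refine ⟨k, ‖u 0‖ / 2, by positivity, ?_⟩
  have hq : Tendsto (fun z : ℍ => 𝕢 (N : ℝ) (z : ℂ)) atImInfty (𝓝 0) :=
    qParam_tendsto_atImInfty hNR
  filter_upwards [hq.eventually hev, hq.eventually hcu] with z h1 h2
  have hper := (isPer_pow_mul hb.isPer M).periodic
  rw [← UpperHalfPlane.eq_cuspFunction z hNR.ne' hper, h1, sub_zero, norm_smul, norm_pow]
  have hqk : 0 ≤ ‖𝕢 (N : ℝ) (z : ℂ)‖ ^ k := by positivity
  nlinarith

/-- (1) A nonzero cusp function has no zeros high up. -/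
theorem exists_im_forall_ne_zero {N : ℕ} (hN : 0 < N) {b : ℍ → ℂ} (hb : IsCuspFn N b)
    (hb0 : b ≠ 0) : ∃ Y : ℝ, ∀ z : ℍ, Y ≤ z.im → b z ≠ 0 := by
  obtain ⟨M, hM⟩ := hb.growth
  obtain ⟨k, c, hc, hev⟩ := exists_lower_bound hN hb hM hb0
  obtain ⟨Y, hY⟩ := (atImInfty_mem _).mp hev
  refine ⟨Y, fun z hz hbz => ?_⟩
  have h1 : c * ‖𝕢 (N : ℝ) (z : ℂ)‖ ^ k ≤ ‖(Δ ^ M * b) z‖ := hY z hz
  rw [Pi.mul_apply, hbz, mul_zero, norm_zero] at h1
  have hq : 0 < ‖𝕢 (N : ℝ) (z : ℂ)‖ := norm_pos_iff.mpr (qParam_ne_zero' _ _)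
  have : 0 < c * ‖𝕢 (N : ℝ) (z : ℂ)‖ ^ k := by positivity
  linarith

/-- (2) A holomorphic quotient of cusp functions has moderate growth. -/
theorem modGrowth_of_mul_eq {N : ℕ} (hN : 0 < N) {f a b : ℍ → ℂ} (_hf : MDiff f)
    (ha : IsCuspFn N a) (hb : IsCuspFn N b) (hb0 : b ≠ 0) (h : ∀ z, f z * b z = a z) :
    ModGrowth f := by
  have hNR : (0 : ℝ) < N := by exact_mod_cast hN
  obtain ⟨Ma, hMa⟩ := ha.growth
  obtain ⟨Mb, hMb⟩ := hb.growth
  obtain ⟨k, c, hc, hev⟩ := exists_lower_bound hN hb hMb hb0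
  refine ⟨k + Ma, ?_⟩
  have h1 := discriminant_pow_isBigO_exp k
  have h2 : (fun z : ℍ => ((Δ ^ Mb * b) z)⁻¹) =O[atImInfty]
      (fun z : ℍ => Real.exp (2 * π * k * z.im)) := by
    refine IsBigO.of_bound c⁻¹ ?_
    filter_upwards [hev] with z hz
    have hq : 0 < ‖𝕢 (N : ℝ) (z : ℂ)‖ := norm_pos_iff.mpr (qParam_ne_zero' _ _)
    have hpos : 0 < c * ‖𝕢 (N : ℝ) (z : ℂ)‖ ^ k := by positivity
    rw [norm_inv, Real.norm_eq_abs, abs_of_pos (Real.exp_pos _)]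
    calc ‖(Δ ^ Mb * b) z‖⁻¹ ≤ (c * ‖𝕢 (N : ℝ) (z : ℂ)‖ ^ k)⁻¹ := inv_anti₀ hpos hz
      _ = c⁻¹ * (‖𝕢 (N : ℝ) (z : ℂ)‖ ^ k)⁻¹ := by rw [mul_inv]
      _ ≤ c⁻¹ * Real.exp (2 * π * k * z.im) := by
        refine mul_le_mul_of_nonneg_left ?_ (inv_pos.mpr hc).le
        rw [norm_qParam, ← Real.exp_nat_mul, ← Real.exp_neg]
        apply Real.exp_le_exp.mpr
        have hy : 0 < z.im := z.im_pos
        have hN1 : (1 : ℝ) ≤ N := by exact_mod_cast hN
        have hle : (z : ℂ).im / N ≤ z.im := by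
          rw [coe_im]
          exact div_le_self hy.le hN1
        have hk : (0 : ℝ) ≤ k := Nat.cast_nonneg k
        have h2π : 0 ≤ 2 * π := by positivity
        have e1 : -((k : ℝ) * (-2 * π * (z : ℂ).im / N)) = (2 * π * k) * ((z : ℂ).im / N) := by
          ring
        rw [e1]
        exact mul_le_mul_of_nonneg_left hle (by positivity)
  have h3 : (Δ ^ Ma * a) =O[atImInfty] (1 : ℍ → ℝ) := hMa
  have h4 : (fun z : ℍ => Δ z ^ Mb) =O[atImInfty] (1 : ℍ → ℝ) := isBounded_discriminant_pow Mb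
  have hprod := ((h1.mul h4).mul h3).mul h2
  have hne : ∀ᶠ z : ℍ in atImInfty, (Δ ^ Mb * b) z ≠ 0 := by
    filter_upwards [hev] with z hz h0
    have hq : 0 < ‖𝕢 (N : ℝ) (z : ℂ)‖ := norm_pos_iff.mpr (qParam_ne_zero' _ _)
    have hpos : 0 < c * ‖𝕢 (N : ℝ) (z : ℂ)‖ ^ k := by positivity
    rw [h0, norm_zero] at hz
    linarith
  show (fun z => Δ z ^ (k + Ma) * f z) =O[atImInfty] (1 : ℍ → ℝ)
  refine (hprod.congr' ?_ ?_)
  · filter_upwards [hne] with z hz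
    have hΔ : Δ z ≠ 0 := ModularForm.discriminant_ne_zero z
    have hbz : b z ≠ 0 := by
      intro h0
      apply hz
      rw [Pi.mul_apply, h0, mul_zero]
    simp only [Pi.mul_apply, Pi.pow_apply]
    rw [← h z, pow_add]
    field_simp
  · filter_upwards with z
    simp only [Pi.one_apply, mul_one]
    rw [← Real.exp_add]
    have : -(2 * π * (k : ℝ) * z.im) + 2 * π * k * z.im = 0 := by ring
    rw [this, Real.exp_zero]

end Fermat.Agent.Gateway.Dict.CuspBound
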