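/-
P-GATEWAY, WP-DICT (helper19).  Abstract version of `Fermat/Agent/S24/Conj.lean`:
for a field extension `F / K`, an element `x : F` ("`j`"), a subgroup `Γ` of `SL(2,ℤ)` and an
embedding `emb : F →+* MerFun` whose image is exactly fixed by `Γ`, the conjugate embeddings
`σ_b : F →+* MerFun`, `b ∈ SL(2,ℤ) ⧸ Γ`, degree and norm, and the valuations attached to the
points of `ℍ`.  The S24 file is the case `K = Kbar`, `F = FF N`, `Γ = Γ₀(N)`.
-/
import Fermat.Agent.S24.Conj

set_option autoImplicit false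

noncomputable section

open UpperHalfPlane IntermediateField
open scoped MatrixGroups

namespace Fermat.Agent.Gateway.Dict.ConjAbs

open Fermat.Agent.S24 Fermat.Agent.S24.Conj

/-- The analytic realisation of a function field `F / K`: an embedding into the meromorphic
functions on `ℍ` whose image is exactly fixed by `Γ`, sending `x` to `j`. -/
structure EmbData (K F : Type*) [Field K] [Field F] [Algebra K F] (ι : K →+* ℂ) (x : F)
    (Γ : Subgroup SL(2, ℤ)) where
  /-- the embedding -/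
  emb : F →+* MerFun
  emb_const : ∀ c : K, emb (algebraMap K F c) = const (ι c)
  emb_x : emb x = algebraMap HolFun MerFun jHol
  fixed : ∀ γ ∈ Γ, ∀ f, γ • emb f = emb f
  stab : ∀ γ : SL(2, ℤ), (∀ f, γ • emb f = emb f) → γ ∈ Γ

variable {K F : Type*} [Field K] [Field F] [Algebra K F] {ι : K →+* ℂ} {x : F}
  {Γ : Subgroup SL(2, ℤ)} (D : EmbData K F ι x Γ)

/-- The embedding twisted by `g ∈ SL(2,ℤ)`. -/
def tw (g : SL(2, ℤ)) : F →+* MerFun :=
  (MulSemiringAction.toRingHom SL(2, ℤ) MerFun g).comp D.emb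

@[simp] theorem tw_apply (g : SL(2, ℤ)) (f : F) : tw D g f = g • D.emb f := rfl

theorem tw_eq_of_rel {a c : SL(2, ℤ)} (h : a⁻¹ * c ∈ Γ) : tw D a = tw D c := by
  ext f
  rw [tw_apply, tw_apply]
  calc a • D.emb f = a • ((a⁻¹ * c) • D.emb f) := by rw [D.fixed _ h]
    _ = c • D.emb f := by rw [← mul_smul, mul_inv_cancel_left]

/-- The conjugate embeddings, indexed by the left cosets of `Γ`. -/
def sigma (b : SL(2, ℤ) ⧸ Γ) : F →+* MerFun :=
  Quotient.liftOn' b (tw D) fun _ _ hac => tw_eq_of_rel D (QuotientGroup.leftRel_apply.mp hac)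

@[simp] theorem sigma_mk (g : SL(2, ℤ)) : sigma D (QuotientGroup.mk g) = tw D g := rfl

theorem smul_sigma (g : SL(2, ℤ)) (b : SL(2, ℤ) ⧸ Γ) (f : F) :
    g • sigma D b f = sigma D (g • b) f := by
  induction b using QuotientGroup.induction_on with
  | H a =>
    rw [sigma_mk, tw_apply, ← mul_smul]
    rfl

theorem sigma_const (b : SL(2, ℤ) ⧸ Γ) (c : K) :
    sigma D b (algebraMap K F c) = const (ι c) := by
  induction b using QuotientGroup.induction_on with
  | H a => rw [sigma_mk, tw_apply, D.emb_const, sl_smul_const]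

theorem sigma_x (b : SL(2, ℤ) ⧸ Γ) :
    sigma D b x = algebraMap HolFun MerFun jHol := by
  induction b using QuotientGroup.induction_on with
  | H a => rw [sigma_mk, tw_apply, D.emb_x, MerFun.sl_smul_algebraMap, sl_smul_jHol]

theorem sigma_injective : Function.Injective (sigma D) := by
  intro b b' h
  induction b using QuotientGroup.induction_on with
  | H a =>
  induction b' using QuotientGroup.induction_on with
  | H c =>
    rw [sigma_mk, sigma_mk] at h
    rw [QuotientGroup.eq]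
    refine D.stab _ fun f => ?_
    have hx := DFunLike.congr_fun h f
    rw [tw_apply, tw_apply] at hx
    rw [mul_smul, ← hx, ← mul_smul, inv_mul_cancel, one_smul]

theorem sigma_agree (b b' : SL(2, ℤ) ⧸ Γ) (e : K⟮x⟯) :
    sigma D b (algebraMap K⟮x⟯ F e) = sigma D b' (algebraMap K⟮x⟯ F e) := by
  have h := ringHom_eq_of_adjoin (K := K) {x}
    ((sigma D b).comp (algebraMap K⟮x⟯ F))
    ((sigma D b').comp (algebraMap K⟮x⟯ F))
    (fun c => by
      show sigma D b (algebraMap K F c) = sigma D b' (algebraMap K F c)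
      rw [sigma_const, sigma_const])
    (fun y hy => by
      rw [Set.mem_singleton_iff] at hy
      subst hy
      show sigma D b y = sigma D b' y
      rw [sigma_x, sigma_x])
  exact DFunLike.congr_fun h e

theorem sigma_ne_zero (b : SL(2, ℤ) ⧸ Γ) {f : F} (hf : f ≠ 0) : sigma D b f ≠ 0 :=
  (map_ne_zero_iff _ (sigma D b).injective).mpr hf

/-! ### Degree and norm -/

/-- **Degree and norm.** Given a generation statement `hgen` and the degree bound `hdeg`,
the function field has degree `[SL(2,ℤ) : Γ]` over `K(x)` and the norm is the product of the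
conjugates. -/
theorem finrank_and_norm [CharZero K] [Fintype (SL(2, ℤ) ⧸ Γ)] (A : Set F)
    (hgen : ∀ f : F, ∃ a ∈ A, ∃ e : K⟮x⟯, e ≠ 0 ∧ f = a / algebraMap K⟮x⟯ F e)
    (hdeg : ∀ a ∈ A, ∃ p : Polynomial K⟮x⟯, p ≠ 0 ∧ p.natDegree ≤ Fintype.card (SL(2, ℤ) ⧸ Γ) ∧
        Polynomial.aeval a p = 0) :
    FiniteDimensional K⟮x⟯ F ∧
      Module.finrank K⟮x⟯ F = Fintype.card (SL(2, ℤ) ⧸ Γ) ∧
      ∀ (b0 : SL(2, ℤ) ⧸ Γ) (f : F),
        sigma D b0 (algebraMap K⟮x⟯ F (Algebra.norm K⟮x⟯ f)) = ∏ b, sigma D b f :=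
  haveI : CharZero K⟮x⟯ := charZero_of_injective_algebraMap (algebraMap K K⟮x⟯).injective
  NormProd.finrank_eq_card_and_norm_eq_prod_of_charZero (E0 := K⟮x⟯)
    (F := F) (M := MerFun) (sigma D) (sigma_injective D) (sigma_agree D) A hgen hdeg

/-! ### The valuations attached to a point of `ℍ` -/

/-- The order at `τ` of the conjugate `σ_b f`. -/
def wFin (τ : ℍ) (b : SL(2, ℤ) ⧸ Γ) (f : F) : ℤ := MerFun.ordMer τ (sigma D b f)

theorem isAddVal_wFin (τ : ℍ) (b : SL(2, ℤ) ⧸ Γ) : IsAddVal K (wFin D τ b) where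
  map_mul f g hf hg := by
    simp only [wFin]
    rw [map_mul, MerFun.ordMer_mul τ (sigma_ne_zero D b hf) (sigma_ne_zero D b hg)]
  map_add f g hf hg hfg := by
    simp only [wFin]
    rw [map_add]
    exact MerFun.ordMer_add_ge τ (sigma_ne_zero D b hf) (sigma_ne_zero D b hg)
      (by rw [← map_add]; exact sigma_ne_zero D b hfg)
  map_const c _ := by
    simp only [wFin]
    rw [sigma_const, ordMer_const]

theorem wFin_smul (τ : ℍ) (g : SL(2, ℤ)) (hg : g • τ = τ) (b : SL(2, ℤ) ⧸ Γ) (f : F) :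
    wFin D τ (g • b) f = wFin D τ b f := by
  rw [wFin, ← smul_sigma, MerFun.ordMer_sl_smul]
  have : g⁻¹ • τ = τ := by
    conv_lhs => rw [← hg]
    rw [← mul_smul, inv_mul_cancel, one_smul]
  rw [this]
  rfl

/-- `wFin` at the coset of `g` is the order of `emb f` at `g⁻¹ • τ`. -/
theorem wFin_mk (τ : ℍ) (g : SL(2, ℤ)) (f : F) :
    wFin D τ (QuotientGroup.mk g) f = MerFun.ordMer (g⁻¹ • τ) (D.emb f) := by
  rw [wFin, sigma_mk, tw_apply, MerFun.ordMer_sl_smul]

/-- Compatibility of the valuations with the norm. -/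
theorem sum_wFin [Fintype (SL(2, ℤ) ⧸ Γ)] [FiniteDimensional K⟮x⟯ F]
    (hnorm : ∀ (b0 : SL(2, ℤ) ⧸ Γ) (f : F),
        sigma D b0 (algebraMap K⟮x⟯ F (Algebra.norm K⟮x⟯ f)) = ∏ b, sigma D b f)
    (τ : ℍ) (b0 : SL(2, ℤ) ⧸ Γ) (f : F) (hf : f ≠ 0) :
    ∑ b, wFin D τ b f = wFin D τ b0 (algebraMap K⟮x⟯ F (Algebra.norm K⟮x⟯ f)) := by
  rw [wFin, hnorm b0 f, ordMer_prod τ _ _ fun b _ => sigma_ne_zero D b hf]
  rfl

end Fermat.Agent.Gateway.Dict.ConjAbs
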