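import Mathlib
import Fermat.Prelude.Def_ModularCurve_ArithmeticGalois
import Fermat.Agent.S24.EmbedAbs
import Fermat.Agent.S24.EmbedGen
import Fermat.Agent.S24.Embed

/-!
helper46 (P-GATEWAY, WP-DICT, piece D1-emb).  The analytic embedding of the function field
`F_L(N) = laurentBaseChange L (modularFunctionFieldFull N)` into `MerFun`, for an arbitrary
field `L` of constants with an embedding `ι : L →+* ℂ` (e.g. `L = ℂ`, `ι = id`, or
`L = AlgebraicClosure ℚ`).  This is the generic version of `S24/EmbedGen`, `S24/Embed` and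
`S24/EmbedTheta`; nothing in the `S24` closure is modified.

* `FL L N`, `jL L d`, `genL L N hd`, `jFL L N`, `genSetFL L N`.
* `structure EmbDataL ι N` : an embedding `FL L N →+* MerFun` sending constants to constants, the
  generators `genL d` to `jd d`, with values in `Frac (PN N)` compatibly with `q`-expansions.
* `exists_embDataL ι N : Nonempty (EmbDataL ι N)`.
* consequences: `EmbDataL.fixed`, `EmbDataL.stab`, `EmbDataL.isCuspMer_smul`, `EmbDataL.emb_jFL`,
  `EmbDataL.emb_eq_of_qLaurent_eq`, `EmbDataL.qLaurent_eq_of_emb_eq`, `hasThetaL_of_mem_adjoin`,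
  `EmbDataL.emb_eq_theta`.
-/

set_option autoImplicit false

open ModularCurve
open UpperHalfPlane hiding I
open scoped MatrixGroups

namespace Fermat.Agent.Gateway.Dict.EmbedL

open Fermat.Agent.S24
open Fermat.Agent.S24.JLevel Fermat.Agent.S24.JD Fermat.Agent.S24.QExp Fermat.Agent.S24.SymmFn
open Fermat.Agent.S24.CuspOrd Fermat.Agent.S24.Embed Fermat.Agent.S24.EmbedGen

/-! ### Algebraic setup over a general field of constants -/

section Setup

variable (L : Type*) [Field L] [Algebra ℚ L]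

/-- The function field of `X₀(N)` over `L`, as a type. -/
abbrev FL (N : ℕ) : Type _ := ↥(laurentBaseChange L (modularFunctionFieldFull N))

/-- The `q`-expansion of `j(d z)` with coefficients in `L`. -/
noncomputable def jL (d : ℕ) [NeZero d] : LaurentSeries L := coeffEmb L (qExpand ℚ d jq)

theorem coeffMap_jL (ι : L →+* ℂ) (d : ℕ) [NeZero d] :
    coeffMap ι (jL L d) = coeffMap (algebraMap ℚ ℂ) (qExpand ℚ d jq) := by
  rw [jL, coeffEmb, coeffMap_coeffMap]
  exact coeffMap_congr (RingHom.ext_rat _ _) _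

theorem coeffMap_coeffEmb_eq (ι : L →+* ℂ) (x : LaurentSeries ℚ) :
    coeffMap ι (coeffEmb L x) = coeffMap (algebraMap ℚ ℂ) x := by
  rw [coeffEmb, coeffMap_coeffMap]
  exact coeffMap_congr (RingHom.ext_rat _ _) x

variable (N : ℕ)

theorem jL_mem {d : ℕ} [NeZero d] (hd : d ∣ N) :
    jL L d ∈ laurentBaseChange L (modularFunctionFieldFull N) :=
  coeffEmb_mem_laurentBaseChange L (jqd_mem_full N hd)

/-- The generator `j(d z)` of the function field, `d ∣ N`. -/
noncomputable def genL {d : ℕ} [NeZero d] (hd : d ∣ N) : FL L N := ⟨jL L d, jL_mem L N hd⟩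

@[simp] theorem coe_genL {d : ℕ} [NeZero d] (hd : d ∣ N) :
    ((genL L N hd : FL L N) : LaurentSeries L) = jL L d := rfl

/-- The function `j` in the function field. -/
noncomputable def jFL : FL L N := genL L N (one_dvd N)

/-- The set of generators of the function field. -/
def genSetFL : Set (FL L N) := {x | ∃ (d : ℕ) (_ : NeZero d) (hd : d ∣ N), x = genL L N hd}

theorem genL_mem_genSetFL {d : ℕ} [NeZero d] (hd : d ∣ N) : genL L N hd ∈ genSetFL L N :=
  ⟨d, ‹_›, hd, rfl⟩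

theorem coe_algebraMap_FL (c : L) :
    ((algebraMap L (FL L N) c : FL L N) : LaurentSeries L) = algebraMap L (LaurentSeries L) c :=
  rfl

end Setup

/-! ### The generic embedding -/

section Main

variable {L : Type*} [Field L] [Algebra ℚ L] (ι : L →+* ℂ) {N : ℕ}
  {P : Subalgebra ℂ HolFun} {ψ₀ : P →+* LaurentSeries ℂ} (hinj : Function.Injective ψ₀)

/-- The generic embedding into `Frac(P)`, compatible with `q`-expansions. -/
theorem exists_embFracL (hconst : ∀ c : ℂ, ψ₀ (algebraMap ℂ P c) = HahnSeries.C c)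
    (hgen : GenHyp N ψ₀) :
    ∃ emb₀ : FL L N →+* FracP P,
      ∀ x, qFrac ψ₀ hinj (emb₀ x) = coeffMap ι (x : LaurentSeries L) := by
  have h1 : ∀ c : L, coeffMap ι (algebraMap L (LaurentSeries L) c) ∈
      (qFrac ψ₀ hinj).fieldRange := by
    intro c
    rw [coeffMap_algebraMap_eq_C]
    exact rat_mem_fieldRange hinj hconst _
  have h2 : ∀ g ∈ (⇑(coeffEmb L) '' (modularFunctionFieldFull N : Set (LaurentSeries ℚ))),
      coeffMap ι g ∈ (qFrac ψ₀ hinj).fieldRange := by
    rintro g ⟨x, hx, rfl⟩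
    rw [coeffMap_coeffEmb_eq]
    exact coeffMap_mem_fieldRange_of_mem_full hinj hconst hgen hx
  exact EmbedAbs.exists_ringHom_of_generators (K := L) (L := LaurentSeries L)
    (coeffMap ι) (qFrac ψ₀ hinj)
    (⇑(coeffEmb L) '' (modularFunctionFieldFull N : Set (LaurentSeries ℚ))) h1 h2

include hinj in
/-- The generic analytic embedding `F_L(N) → MerFun`, with all its properties. -/
theorem exists_embL (hconst : ∀ c : ℂ, ψ₀ (algebraMap ℂ P c) = HahnSeries.C c)
    (hgen : GenHyp N ψ₀) :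
    ∃ emb : FL L N →+* MerFun,
      (∀ c : L, emb (algebraMap L (FL L N) c) =
        algebraMap HolFun MerFun (algebraMap ℂ HolFun (ι c))) ∧
      (∀ (d : ℕ) [NeZero d] (hd : d ∣ N),
        emb (genL L N hd) = algebraMap HolFun MerFun (JLevel.jd d)) ∧
      (∀ x : FL L N, ∃ a b : P, b ≠ 0 ∧
        emb x = algebraMap HolFun MerFun (a : HolFun) / algebraMap HolFun MerFun (b : HolFun) ∧
        coeffMap ι (x : LaurentSeries L) * ψ₀ b = ψ₀ a) := by
  obtain ⟨emb₀, hemb₀⟩ := exists_embFracL ι hinj hconst hgen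
  have hqinj : Function.Injective (qFrac ψ₀ hinj) := (qFrac ψ₀ hinj).injective
  refine ⟨(toMer P).comp emb₀, ?_, ?_, ?_⟩
  · intro c
    have h1 : emb₀ (algebraMap L (FL L N) c) =
        algebraMap P (FracP P) (algebraMap ℂ P (ι c)) := by
      apply hqinj
      rw [hemb₀, qFrac_algebraMap, hconst]
      exact coeffMap_algebraMap_eq_C ι c
    rw [RingHom.comp_apply, h1, toMer_algebraMap]
    rfl
  · intro d hd0 hd
    obtain ⟨h, hh⟩ := @hgen d hd0 hd
    have h1 : emb₀ (genL L N hd) = algebraMap P (FracP P) ⟨JLevel.jd d, h⟩ := by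
      apply hqinj
      rw [hemb₀, qFrac_algebraMap, hh]
      exact coeffMap_coeffEmb_eq L ι _
    rw [RingHom.comp_apply, h1, toMer_algebraMap]
  · intro x
    obtain ⟨a, b, hb, hab⟩ := IsFractionRing.div_surjective P (emb₀ x)
    have hb0 : b ≠ 0 := nonZeroDivisors.ne_zero hb
    refine ⟨a, b, hb0, ?_, ?_⟩
    · rw [RingHom.comp_apply, ← hab, toMer_div]
    · have h2 := hemb₀ x
      rw [← hab, qFrac_div] at h2
      have hψb : ψ₀ b ≠ 0 := fun h0 => hb0 (hinj (by rw [h0, map_zero]))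
      rw [← h2, div_mul_cancel₀ _ hψb]

end Main

/-! ### The embedding data -/

section Data

variable {L : Type*} [Field L] [Algebra ℚ L]

/-- Constant functions as elements of `MerFun`. -/
noncomputable def cst (c : ℂ) : MerFun := algebraMap HolFun MerFun (algebraMap ℂ HolFun c)

/-- The analytic realisation of the function field of `X₀(N)` over `L`. -/
structure EmbDataL (ι : L →+* ℂ) (N : ℕ) where
  /-- the embedding -/
  emb : FL L N →+* MerFun
  emb_const : ∀ c : L, emb (algebraMap L (FL L N) c) = cst (ι c)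
  emb_gen : ∀ (d : ℕ) [NeZero d] (hd : d ∣ N),
    emb (genL L N hd) = algebraMap HolFun MerFun (jd d)
  emb_frac : ∀ x : FL L N, ∃ a b : HolFun, ∃ (ha : a ∈ PN N) (hb : b ∈ PN N), b ≠ 0 ∧
    emb x = algebraMap HolFun MerFun a / algebraMap HolFun MerFun b ∧
    coeffMap ι (x : LaurentSeries L) * qLaurent ⟨b, PN_le_PerFun N hb⟩ =
      qLaurent ⟨a, PN_le_PerFun N ha⟩

/-- Existence of the analytic embedding over any field of constants embedded in `ℂ`. -/
theorem exists_embDataL (ι : L →+* ℂ) (N : ℕ) : Nonempty (EmbDataL ι N) := by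
  obtain ⟨emb, h1, h2, h3⟩ :=
    exists_embL (L := L) (N := N) ι (psiN_injective N) (psiN_algebraMap N) (genHyp_psiN N)
  refine ⟨⟨emb, h1, fun d _ hd => h2 d hd, ?_⟩⟩
  intro x
  obtain ⟨a, b, hb0, hx, hq⟩ := h3 x
  exact ⟨a, b, a.2, b.2, fun h0 => hb0 (Subtype.ext h0), hx, hq⟩

namespace EmbDataL

variable {ι : L →+* ℂ} {N : ℕ} (D : EmbDataL ι N)

theorem emb_jFL : D.emb (jFL L N) = algebraMap HolFun MerFun jHol := by
  have := D.emb_gen 1 (one_dvd N)
  rw [jd_one_eq_jHol] at this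
  exact this

/-- The image of the embedding is fixed by `Γ₀(N)`. -/
theorem fixed {γ : SL(2, ℤ)} (hγ : γ ∈ CongruenceSubgroup.Gamma0 N) (x : FL L N) :
    γ • D.emb x = D.emb x := by
  obtain ⟨a, b, ha, hb, -, hx, -⟩ := D.emb_frac x
  rw [hx, smul_div₀', MerFun.sl_smul_algebraMap, MerFun.sl_smul_algebraMap,
    smul_eq_of_mem_PN ha hγ, smul_eq_of_mem_PN hb hγ]

/-- The stabilizer of the image of the embedding is exactly `Γ₀(N)`. -/
theorem stab [NeZero N] (γ : SL(2, ℤ)) (hγ : ∀ x, γ • D.emb x = D.emb x) :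
    γ ∈ CongruenceSubgroup.Gamma0 N := by
  have h := hγ (genL L N (dvd_refl N))
  rw [D.emb_gen N (dvd_refl N), MerFun.sl_smul_algebraMap] at h
  exact mem_Gamma0_of_smul_jd_eq (IsFractionRing.injective HolFun MerFun h)

/-- Every translate of every value of the embedding is a quotient of cusp functions of level
`N`. -/
theorem isCuspMer_smul (x : FL L N) (g : SL(2, ℤ)) : IsCuspMer N (g • D.emb x) := by
  obtain ⟨a, b, ha, hb, hb0, hx, -⟩ := D.emb_frac x
  obtain ⟨a', e', ha', he', he0, h⟩ :=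
    exists_smul_div_eq (PN_le_cuspAlg N ha) (PN_le_cuspAlg N hb) hb0 g
  exact ⟨a', e', isCuspFn_of_mem_cuspAlg ha', isCuspFn_of_mem_cuspAlg he', he0, by rw [hx, h]⟩

theorem isCuspMer_emb (x : FL L N) : IsCuspMer N (D.emb x) := by
  have := D.isCuspMer_smul x 1
  rwa [one_smul] at this

/-- If `θ ∈ PN N` has `q`-expansion `coeffMap ι a` then `emb a = θ`. -/
theorem emb_eq_of_qLaurent_eq (a : FL L N) {θ : HolFun} (hθ : θ ∈ PN N)
    (hq : qLaurent ⟨θ, PN_le_PerFun N hθ⟩ = coeffMap ι (a : LaurentSeries L)) :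
    D.emb a = algebraMap HolFun MerFun θ := by
  obtain ⟨a', b', ha', hb', hb0, hx, hq'⟩ := D.emb_frac a
  rw [← hq] at hq'
  have h1 : (⟨θ, PN_le_PerFun N hθ⟩ : PerFun) * ⟨b', PN_le_PerFun N hb'⟩ =
      ⟨a', PN_le_PerFun N ha'⟩ := by
    apply qLaurent_injective
    rw [map_mul]
    exact hq'
  have h2 : θ * b' = a' := congrArg (fun f : PerFun => (f : HolFun)) h1
  have hb0' : algebraMap HolFun MerFun b' ≠ 0 := fun h0 =>
    hb0 (IsFractionRing.injective HolFun MerFun (by rw [h0, map_zero]))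
  rw [hx, ← h2, map_mul, mul_div_assoc, div_self hb0', mul_one]

/-- Conversely, if `emb a = θ` with `θ ∈ PerFun` then the `q`-expansion of `θ` is
`coeffMap ι a`. -/
theorem qLaurent_eq_of_emb_eq (a : FL L N) {θ : HolFun} (hθ : θ ∈ PerFun)
    (h : D.emb a = algebraMap HolFun MerFun θ) :
    qLaurent ⟨θ, hθ⟩ = coeffMap ι (a : LaurentSeries L) := by
  obtain ⟨a', b', ha', hb', hb0, hx, hq'⟩ := D.emb_frac a
  have hb0' : algebraMap HolFun MerFun b' ≠ 0 := fun h0 =>
    hb0 (IsFractionRing.injective HolFun MerFun (by rw [h0, map_zero]))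
  have h1 : θ * b' = a' := by
    apply IsFractionRing.injective HolFun MerFun
    rw [map_mul, ← h, hx, div_mul_cancel₀ _ hb0']
  have h2 : (⟨θ, hθ⟩ : PerFun) * ⟨b', PN_le_PerFun N hb'⟩ = ⟨a', PN_le_PerFun N ha'⟩ :=
    Subtype.ext h1
  have hqb : qLaurent ⟨b', PN_le_PerFun N hb'⟩ ≠ 0 := fun h0 =>
    hb0 (congrArg (fun f : PerFun => (f : HolFun))
      (qLaurent_injective (by rw [h0, map_zero]) : (⟨b', PN_le_PerFun N hb'⟩ : PerFun) = 0))
  have h3 : qLaurent ⟨θ, hθ⟩ * qLaurent ⟨b', PN_le_PerFun N hb'⟩ =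
      coeffMap ι (a : LaurentSeries L) * qLaurent ⟨b', PN_le_PerFun N hb'⟩ := by
    rw [← map_mul, h2, hq']
  exact mul_right_cancel₀ hqb h3

end EmbDataL

/-! ### Analytic counterparts of polynomial expressions in the generators -/

variable (L)

/-- The predicate: `a` has an analytic counterpart in `PN N` (with respect to `ι`). -/
def HasThetaL (ι : L →+* ℂ) (N : ℕ) (a : FL L N) : Prop :=
  ∃ θ : HolFun, ∃ hθ : θ ∈ PN N,
    qLaurent ⟨θ, PN_le_PerFun N hθ⟩ = coeffMap ι (a : LaurentSeries L)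

variable {L}

theorem hasThetaL_genL (ι : L →+* ℂ) (N : ℕ) {d : ℕ} [NeZero d] (hd : d ∣ N) :
    HasThetaL L ι N (genL L N hd) := by
  refine ⟨jd d, jd_mem_PN hd, ?_⟩
  rw [coe_genL, coeffMap_jL, ← qLaurent_jdPer d]
  congr 1

theorem hasThetaL_algebraMap (ι : L →+* ℂ) (N : ℕ) (c : L) :
    HasThetaL L ι N (algebraMap L (FL L N) c) := by
  refine ⟨algebraMap ℂ HolFun (ι c), Subalgebra.algebraMap_mem _ _, ?_⟩
  have h1 : (⟨algebraMap ℂ HolFun (ι c),
      PN_le_PerFun N (Subalgebra.algebraMap_mem _ _)⟩ : PerFun) =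
      algebraMap ℂ PerFun (ι c) := rfl
  rw [h1, AlgHom.commutes, coe_algebraMap_FL, coeffMap_algebraMap_eq_C,
    algebraMap_laurentSeries_eq_single]
  rfl

theorem HasThetaL.add {ι : L →+* ℂ} {N : ℕ} {a b : FL L N} (ha : HasThetaL L ι N a)
    (hb : HasThetaL L ι N b) : HasThetaL L ι N (a + b) := by
  obtain ⟨θ, hθ, h1⟩ := ha
  obtain ⟨η, hη, h2⟩ := hb
  refine ⟨θ + η, add_mem hθ hη, ?_⟩
  have h3 : (⟨θ + η, PN_le_PerFun N (add_mem hθ hη)⟩ : PerFun) =
      ⟨θ, PN_le_PerFun N hθ⟩ + ⟨η, PN_le_PerFun N hη⟩ := rfl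
  rw [h3, map_add, h1, h2]
  exact (map_add (coeffMap ι) _ _).symm

theorem HasThetaL.mul {ι : L →+* ℂ} {N : ℕ} {a b : FL L N} (ha : HasThetaL L ι N a)
    (hb : HasThetaL L ι N b) : HasThetaL L ι N (a * b) := by
  obtain ⟨θ, hθ, h1⟩ := ha
  obtain ⟨η, hη, h2⟩ := hb
  refine ⟨θ * η, mul_mem hθ hη, ?_⟩
  have h3 : (⟨θ * η, PN_le_PerFun N (mul_mem hθ hη)⟩ : PerFun) =
      ⟨θ, PN_le_PerFun N hθ⟩ * ⟨η, PN_le_PerFun N hη⟩ := rfl
  rw [h3, map_mul, h1, h2]
  exact (map_mul (coeffMap ι) _ _).symm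

/-- Every element of the `L`-algebra generated by the `genL d` has an analytic counterpart. -/
theorem hasThetaL_of_mem_adjoin (ι : L →+* ℂ) (N : ℕ) {a : FL L N}
    (ha : a ∈ Algebra.adjoin L (genSetFL L N)) : HasThetaL L ι N a := by
  induction ha using Algebra.adjoin_induction with
  | mem x hx =>
    obtain ⟨d, hd0, hd, rfl⟩ := hx
    exact hasThetaL_genL ι N hd
  | algebraMap c => exact hasThetaL_algebraMap ι N c
  | add x y _ _ hx hy => exact hx.add hy
  | mul x y _ _ hx hy => exact hx.mul hy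

/-- The four properties of the analytic counterpart. -/
theorem exists_thetaL (ι : L →+* ℂ) (N : ℕ) {a : FL L N}
    (ha : a ∈ Algebra.adjoin L (genSetFL L N)) :
    ∃ θ : HolFun, (∀ γ ∈ CongruenceSubgroup.Gamma0 N, γ • θ = θ) ∧ θ ∈ growthAlg ∧
      ∃ hper : θ ∈ PerFun, qLaurent ⟨θ, hper⟩ = coeffMap ι (a : LaurentSeries L) := by
  obtain ⟨θ, hθ, hq⟩ := hasThetaL_of_mem_adjoin ι N ha
  exact ⟨θ, fun γ hγ => smul_eq_of_mem_PN hθ hγ, PN_le_growthAlg N hθ, PN_le_PerFun N hθ, hq⟩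

/-- The embedding sends `a` to its analytic counterpart. -/
theorem EmbDataL.emb_eq_theta {ι : L →+* ℂ} {N : ℕ} (D : EmbDataL ι N) {a : FL L N}
    (ha : a ∈ Algebra.adjoin L (genSetFL L N)) :
    ∃ θ : HolFun, θ ∈ PN N ∧ D.emb a = algebraMap HolFun MerFun θ := by
  obtain ⟨θ, hθ, hq⟩ := hasThetaL_of_mem_adjoin ι N ha
  exact ⟨θ, hθ, D.emb_eq_of_qLaurent_eq a hθ hq⟩

end Data

end Fermat.Agent.Gateway.Dict.EmbedL
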