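/-
P-GATEWAY, WP-DICT (helper19): the level `N` function field over `ℂ`,
`FC N = laurentBaseChange ℂ (modularFunctionFieldFull N)`, its generators `gen d` (`d ∣ N`)
and `jF`.  This is `Fermat/Agent/S24/Setup.lean` with `Kbar` replaced by `ℂ` and `iota` by the
identity.
-/
import Fermat.Prelude.Def_ModularCurve_ArithmeticGalois
import Mathlib

set_option autoImplicit false

noncomputable section

open ModularCurve

namespace Fermat.Agent.Gateway.Dict.SetupC

/-- The `q`-expansion of `j(d z)` with coefficients in `ℂ`. -/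
def jC (d : ℕ) [NeZero d] : LaurentSeries ℂ := coeffEmb ℂ (qExpand ℚ d jq)

theorem jC_eq (d : ℕ) [NeZero d] : jC d = coeffMap (algebraMap ℚ ℂ) (qExpand ℚ d jq) := rfl

variable (N : ℕ)

/-- The function field of `X₀(N)` over `ℂ`, as a type. -/
abbrev FC : Type := ↥(laurentBaseChange ℂ (modularFunctionFieldFull N))

theorem jC_mem {d : ℕ} [NeZero d] (hd : d ∣ N) :
    jC d ∈ laurentBaseChange ℂ (modularFunctionFieldFull N) :=
  coeffEmb_mem_laurentBaseChange ℂ (jqd_mem_full N hd)

/-- The generator `j(d z)` of the function field, `d ∣ N`. -/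
def gen {d : ℕ} [NeZero d] (hd : d ∣ N) : FC N := ⟨jC d, jC_mem N hd⟩

@[simp] theorem coe_gen {d : ℕ} [NeZero d] (hd : d ∣ N) :
    ((gen N hd : FC N) : LaurentSeries ℂ) = jC d := rfl

/-- The function `j` in the function field. -/
def jF : FC N := gen N (one_dvd N)

@[simp] theorem coe_jF : ((jF N : FC N) : LaurentSeries ℂ) = jC 1 := rfl

/-- The set of generators of the function field, as elements of the field. -/
def genSetF : Set (FC N) :=
  {x | ∃ (d : ℕ) (_ : NeZero d) (hd : d ∣ N), x = gen N hd}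

theorem gen_mem_genSetF {d : ℕ} [NeZero d] (hd : d ∣ N) : gen N hd ∈ genSetF N :=
  ⟨d, ‹_›, hd, rfl⟩

theorem jF_mem_genSetF : jF N ∈ genSetF N := gen_mem_genSetF N (one_dvd N)

/-- The tautological `q`-expansion map `FC N → LaurentSeries ℂ`. -/
def phi : FC N →+* LaurentSeries ℂ :=
  (laurentBaseChange ℂ (modularFunctionFieldFull N)).val.toRingHom

@[simp] theorem phi_apply (x : FC N) : phi N x = (x : LaurentSeries ℂ) := rfl

theorem phi_gen {d : ℕ} [NeZero d] (hd : d ∣ N) :
    phi N (gen N hd) = coeffMap (algebraMap ℚ ℂ) (qExpand ℚ d jq) := rfl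

theorem phi_algebraMap (c : ℂ) :
    phi N (algebraMap ℂ (FC N) c) = algebraMap ℂ (LaurentSeries ℂ) c := rfl

end Fermat.Agent.Gateway.Dict.SetupC
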