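/-
P-GATEWAY, WP-DICT [B]: degree and norm for the function field of `X₀(N)` over `ℂ`.

* generic-`L` generation statements `adjoin_genSetFL`, `exists_divL` (ports of `S24/GenRing`);
* over `ℂ`: the degree bound `exists_poly_of_theta` (no descent needed: the relation produced by
  `SymmFn.exists_relation` is pulled back through the injective embedding);
* `finrank_and_norm`.
-/
import Fermat.Agent.Gateway.Dict.SetupC
import Fermat.Agent.Gateway.Dict.ConjAbs
import Fermat.Agent.Gateway.Dict.EmbedL
import Fermat.Agent.S24.GenRing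

set_option autoImplicit false

noncomputable section

open ModularCurve IntermediateField CongruenceSubgroup
open scoped MatrixGroups

namespace Fermat.Agent.Gateway.Dict.DegreeC

open Fermat.Agent.S24 Fermat.Agent.S24.Conj Fermat.Agent.S24.SymmFn
open Fermat.Agent.Gateway.Dict.ConjAbs Fermat.Agent.Gateway.Dict.EmbedL

/-! ### Generation, over a general field of constants -/

section Gen

variable (L : Type*) [Field L] [Algebra ℚ L] (N : ℕ)

theorem coeffEmb_algebraMapL (c : ℚ) :
    coeffEmb L (algebraMap ℚ (LaurentSeries ℚ) c)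
      = algebraMap L (LaurentSeries L) (algebraMap ℚ L c) := by
  rw [algebraMap_laurentSeries_eq_single, algebraMap_laurentSeries_eq_single, coeffEmb,
    coeffMap_single]

/-- The set of generators inside `LaurentSeries L`. -/
def genSetL : Set (LaurentSeries L) := {x | ∃ (d : ℕ) (_ : NeZero d), d ∣ N ∧ x = jL L d}

/-- `F_L(N) = L(j(d z) : d ∣ N)`. -/
theorem adjoin_genSetL :
    IntermediateField.adjoin L (genSetL L N) = laurentBaseChange L (modularFunctionFieldFull N) := by
  apply le_antisymm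
  · rw [IntermediateField.adjoin_le_iff]
    rintro x ⟨d, hd, hdN, rfl⟩
    exact jL_mem L N hdN
  · show IntermediateField.adjoin L
      (⇑(coeffEmb L) '' (modularFunctionFieldFull N : Set (LaurentSeries ℚ))) ≤ _
    rw [IntermediateField.adjoin_le_iff]
    have key : ∀ y, y ∈ IntermediateField.adjoin ℚ (divisorExpansions N) →
        coeffEmb L y ∈ IntermediateField.adjoin L (genSetL L N) := by
      intro y hy
      induction hy using IntermediateField.adjoin_induction with
      | mem y hy =>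
        obtain ⟨d, hd, hdN, rfl⟩ := hy
        exact subset_adjoin _ _ ⟨d, hd, hdN, rfl⟩
      | algebraMap c =>
        rw [coeffEmb_algebraMapL]
        exact IntermediateField.algebraMap_mem _ _
      | add y z _ _ h1 h2 =>
        rw [map_add]
        exact add_mem h1 h2
      | inv y _ h1 =>
        rw [map_inv₀]
        exact inv_mem h1
      | mul y z _ _ h1 h2 =>
        rw [map_mul]
        exact mul_mem h1 h2
    rintro _ ⟨y, hy, rfl⟩
    exact key y hy

/-- The generators generate `F_L(N)` as a field over `L` (statement inside `F_L(N)`). -/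
theorem adjoin_genSetFL : IntermediateField.adjoin L (genSetFL L N) = ⊤ := by
  rw [eq_top_iff]
  rintro ⟨x, hx⟩ _
  have hx' : x ∈ IntermediateField.adjoin L (genSetL L N) := by rw [adjoin_genSetL]; exact hx
  have hle : ∀ {y}, y ∈ IntermediateField.adjoin L (genSetL L N) →
      y ∈ laurentBaseChange L (modularFunctionFieldFull N) := fun h => by
    rw [← adjoin_genSetL]; exact h
  have key : ∀ y (hy : y ∈ IntermediateField.adjoin L (genSetL L N)),
      (⟨y, hle hy⟩ : FL L N) ∈ IntermediateField.adjoin L (genSetFL L N) := by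
    intro y hy
    induction hy using IntermediateField.adjoin_induction with
    | mem y hy =>
      obtain ⟨d, hd, hdN, rfl⟩ := hy
      exact subset_adjoin _ _ ⟨d, hd, hdN, rfl⟩
    | algebraMap c => exact IntermediateField.algebraMap_mem _ c
    | add y z hy hz h1 h2 =>
      have : (⟨y + z, hle (add_mem hy hz)⟩ : FL L N) = ⟨y, hle hy⟩ + ⟨z, hle hz⟩ := rfl
      rw [this]
      exact add_mem h1 h2
    | inv y hy h1 =>
      have : (⟨y⁻¹, hle (inv_mem hy)⟩ : FL L N) = (⟨y, hle hy⟩)⁻¹ := rfl
      rw [this]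
      exact inv_mem h1
    | mul y z hy hz h1 h2 =>
      have : (⟨y * z, hle (mul_mem hy hz)⟩ : FL L N) = ⟨y, hle hy⟩ * ⟨z, hle hz⟩ := rfl
      rw [this]
      exact mul_mem h1 h2
  exact key x hx'

theorem jFL_mem_genSetFL : jFL L N ∈ genSetFL L N := genL_mem_genSetFL L N (one_dvd N)

/-- **Generation up to denominators in `L(j)`.** -/
theorem exists_divL (halg : ∀ g ∈ genSetFL L N, IsAlgebraic L⟮jFL L N⟯ g) (x : FL L N) :
    ∃ a ∈ (Algebra.adjoin L (genSetFL L N) : Set (FL L N)), ∃ e : L⟮jFL L N⟯,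
      e ≠ 0 ∧ x = a / algebraMap L⟮jFL L N⟯ (FL L N) e :=
  GenRing.exists_div_of_algebraic (jFL L N) (genSetFL L N) (jFL_mem_genSetFL L N)
    (adjoin_genSetFL L N) halg x

end Gen

/-! ### The degree bound over `ℂ` -/

section Abstract

variable {F : Type*} [Field F] [Algebra ℂ F] {x : F} {Γ : Subgroup SL(2, ℤ)}
  (D : EmbData ℂ F (RingHom.id ℂ) x Γ)

/-- The embedding is compatible with polynomials in `x` resp. `j`. -/
theorem emb_aeval (q : Polynomial ℂ) :
    D.emb (Polynomial.aeval x q) = algebraMap HolFun MerFun (Polynomial.aeval jHol q) := by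
  induction q using Polynomial.induction_on' with
  | add p q hp hq => rw [map_add, map_add, map_add, map_add, hp, hq]
  | monomial n c =>
    rw [Polynomial.aeval_monomial, Polynomial.aeval_monomial, map_mul, map_mul, map_pow, map_pow,
      D.emb_const, D.emb_x]
    rfl

/-- **Degree bound over `ℂ`.** If `D.emb a` is a holomorphic function `θ` fixed by `Γ` all of
whose translates have moderate growth, then `a` is a root of a nonzero polynomial of degree at
most `[SL(2,ℤ) : Γ]` over `ℂ(x)`. -/
theorem exists_poly_of_theta [Γ.FiniteIndex] (a : F) (θ : HolFun)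
    (hfix : ∀ γ ∈ Γ, γ • θ = θ) (hgr : θ ∈ growthAlg)
    (ha : D.emb a = algebraMap HolFun MerFun θ) :
    ∃ p : Polynomial ℂ⟮x⟯, p ≠ 0 ∧ p.natDegree ≤ Γ.index ∧ Polynomial.aeval a p = 0 := by
  classical
  set n := Γ.index with hn
  obtain ⟨p, hp1, hrel⟩ := SymmFn.exists_relation Γ θ hfix hgr
  -- pull back the relation to `F`
  have hrelF : ∑ i ∈ Finset.range (n + 1), Polynomial.aeval x (p i) * a ^ i = 0 := by
    apply D.emb.injective
    rw [map_zero, map_sum]
    have := congrArg (algebraMap HolFun MerFun) hrel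
    rw [map_zero, map_sum] at this
    rw [← this]
    refine Finset.sum_congr rfl fun i _ => ?_
    rw [map_mul, map_mul, map_pow, map_pow, emb_aeval, ha]
  have hlead : Polynomial.aeval x (p n) = 1 := by
    apply D.emb.injective
    rw [emb_aeval, hp1, map_one, map_one]
  -- the generator of `ℂ(x)`
  set xG : ℂ⟮x⟯ := ⟨x, mem_adjoin_simple_self ℂ x⟩ with hxG
  have haevG : ∀ q : Polynomial ℂ,
      algebraMap ℂ⟮x⟯ F (Polynomial.aeval xG q) = Polynomial.aeval x q := by
    intro q
    exact (Polynomial.aeval_algebraMap_apply F xG q).symm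
  refine ⟨∑ i ∈ Finset.range (n + 1),
    Polynomial.C (Polynomial.aeval xG (p i)) * Polynomial.X ^ i, ?_, ?_, ?_⟩
  · intro h
    have hc := congrArg (fun P => Polynomial.coeff P n) h
    simp only [Polynomial.finsetSum_coeff, Polynomial.coeff_C_mul, Polynomial.coeff_X_pow,
      Polynomial.coeff_zero] at hc
    rw [Finset.sum_eq_single n] at hc
    · simp only [if_true, mul_one] at hc
      have h2 := haevG (p n)
      rw [hc, map_zero, hlead] at h2
      exact zero_ne_one h2
    · intro b _ hb
      rw [if_neg (Ne.symm hb), mul_zero]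
    · intro h'
      exact absurd (Finset.mem_range.mpr (Nat.lt_succ_self n)) h'
  · refine Polynomial.natDegree_sum_le_of_forall_le _ _ fun i hi => ?_
    refine (Polynomial.natDegree_C_mul_X_pow_le _ _).trans ?_
    exact Nat.lt_succ_iff.mp (Finset.mem_range.mp hi)
  · rw [map_sum, ← hrelF]
    refine Finset.sum_congr rfl fun i _ => ?_
    rw [map_mul, Polynomial.aeval_C, map_pow, Polynomial.aeval_X, haevG]

end Abstract

/-! ### Degree and norm for `FC N` -/

section Level

open SetupC

variable (N : ℕ) [NeZero N]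
  (D : EmbData ℂ (FC N) (RingHom.id ℂ) (jF N) (Gamma0 N))

theorem card_quotient : Fintype.card (SL(2, ℤ) ⧸ Gamma0 N) = (Gamma0 N).index := by
  rw [Subgroup.index, Nat.card_eq_fintype_card]

/-- The degree bound for the `ℂ`-algebra generated by the `j(d z)`. -/
theorem hdeg
    (hθ : ∀ a ∈ Algebra.adjoin ℂ (genSetF N), ∃ θ : HolFun,
      (∀ γ ∈ Gamma0 N, γ • θ = θ) ∧ θ ∈ growthAlg ∧ D.emb a = algebraMap HolFun MerFun θ) :
    ∀ a ∈ (Algebra.adjoin ℂ (genSetF N) : Set (FC N)),
      ∃ p : Polynomial ℂ⟮jF N⟯, p ≠ 0 ∧ p.natDegree ≤ (Gamma0 N).index ∧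
        Polynomial.aeval a p = 0 := by
  intro a ha
  obtain ⟨θ, hfix, hgr, hemb⟩ := hθ a ha
  exact exists_poly_of_theta D a θ hfix hgr hemb

omit [NeZero N] in
/-- Generation up to denominators, for `FC N`. -/
theorem hgen (halg : ∀ g ∈ genSetF N, IsAlgebraic ℂ⟮jF N⟯ g) (f : FC N) :
    ∃ a ∈ (Algebra.adjoin ℂ (genSetF N) : Set (FC N)), ∃ e : ℂ⟮jF N⟯,
      e ≠ 0 ∧ f = a / algebraMap ℂ⟮jF N⟯ (FC N) e :=
  exists_divL ℂ N halg f

/-- **Degree and norm over `ℂ`.** -/
theorem finrank_and_norm
    (hθ : ∀ a ∈ Algebra.adjoin ℂ (genSetF N), ∃ θ : HolFun,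
      (∀ γ ∈ Gamma0 N, γ • θ = θ) ∧ θ ∈ growthAlg ∧ D.emb a = algebraMap HolFun MerFun θ) :
    FiniteDimensional ℂ⟮jF N⟯ (FC N) ∧
      Module.finrank ℂ⟮jF N⟯ (FC N) = (Gamma0 N).index ∧
      ∀ (b0 : SL(2, ℤ) ⧸ Gamma0 N) (f : FC N),
        sigma D b0 (algebraMap ℂ⟮jF N⟯ (FC N) (Algebra.norm ℂ⟮jF N⟯ f)) = ∏ b, sigma D b f := by
  have hd := hdeg N D hθ
  have halg : ∀ g ∈ genSetF N, IsAlgebraic ℂ⟮jF N⟯ g := by
    intro g hg
    obtain ⟨p, hp0, -, hpa⟩ := hd g (Algebra.subset_adjoin hg)
    exact ⟨p, hp0, hpa⟩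
  have h := ConjAbs.finrank_and_norm D (Algebra.adjoin ℂ (genSetF N) : Set (FC N))
    (hgen N halg) (fun a ha => by
      obtain ⟨p, hp0, hpn, hpa⟩ := hd a ha
      exact ⟨p, hp0, by rw [card_quotient]; exact hpn, hpa⟩)
  rw [card_quotient] at h
  exact h

end Level

end Fermat.Agent.Gateway.Dict.DegreeC
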