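import Mathlib
import Fermat.Agent.Gateway.Dict.SetupC
import Fermat.Agent.Gateway.Dict.ConjAbs
import Fermat.Agent.Gateway.Dict.EmbedL

/-!
helper46 (P-GATEWAY, WP-DICT, piece [A] of note 310).  The analytic embedding
`embC N : FC N →+* MerFun` of the function field of `X₀(N)` over `ℂ`, packaged as a
`ConjAbs.EmbData ℂ (FC N) (RingHom.id ℂ) (jF N) (Gamma0 N)`.

This is an adapter: the generic construction is `EmbedL.exists_embDataL` (for any field of
constants `L` with `ι : L →+* ℂ`); here `L = ℂ`, `ι = id`, and `EmbedL.FL ℂ N`, `EmbedL.genL`,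
`EmbedL.jFL` are definitionally `SetupC.FC N`, `SetupC.gen`, `SetupC.jF`.

Main declarations:
* `exists_embData N` : the statement [A] of note 310.
* `embData N`, `embC N`, with `embC_const`, `embC_jF`, `embC_gen`, `embC_fixed`, `embC_stab`,
  `isCuspMer_smul_embC`, `isCuspMer_embC`, `embC_frac`, `embC_frac_PN`,
  `embC_eq_of_qLaurent_eq`, `qLaurent_eq_of_embC_eq`, `exists_theta`, `embC_eq_theta`.
-/

set_option autoImplicit false

open ModularCurve
open UpperHalfPlane hiding I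
open scoped MatrixGroups

namespace Fermat.Agent.Gateway.Dict.EmbedC

open Fermat.Agent.S24
open Fermat.Agent.S24.JLevel Fermat.Agent.S24.JD Fermat.Agent.S24.QExp Fermat.Agent.S24.SymmFn
open Fermat.Agent.S24.CuspOrd Fermat.Agent.S24.Embed
open Fermat.Agent.Gateway.Dict.SetupC Fermat.Agent.Gateway.Dict.ConjAbs
open Fermat.Agent.Gateway.Dict.EmbedL

/-! ### Dictionary between the `EmbedL` names at `L = ℂ` and the `SetupC` names -/

theorem FL_eq_FC (N : ℕ) : FL ℂ N = FC N := rfl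

theorem genL_eq_gen (N : ℕ) {d : ℕ} [NeZero d] (hd : d ∣ N) :
    (genL ℂ N hd : FC N) = gen N hd := rfl

theorem jFL_eq_jF (N : ℕ) : (jFL ℂ N : FC N) = jF N := rfl

theorem genSetFL_eq_genSetF (N : ℕ) : (genSetFL ℂ N : Set (FC N)) = genSetF N := rfl

theorem coeffMap_id (x : LaurentSeries ℂ) : coeffMap (RingHom.id ℂ) x = x := by
  ext n
  rfl

/-! ### The embedding data -/

/-- Conversion of an `EmbDataL (RingHom.id ℂ) N` into a `ConjAbs.EmbData`. -/
noncomputable def toEmbData {N : ℕ} [NeZero N] (D : EmbDataL (RingHom.id ℂ) N) :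
    EmbData ℂ (FC N) (RingHom.id ℂ) (jF N) (CongruenceSubgroup.Gamma0 N) where
  emb := D.emb
  emb_const := D.emb_const
  emb_x := D.emb_jFL
  fixed := fun _ hγ f => D.fixed hγ f
  stab := fun γ h => D.stab γ h

/-- **[A] of note 310.** Existence of the analytic realisation of the function field of `X₀(N)`
over `ℂ`. -/
theorem exists_embData (N : ℕ) [NeZero N] :
    ∃ D : EmbData ℂ (FC N) (RingHom.id ℂ) (jF N) (CongruenceSubgroup.Gamma0 N),
      (∀ (d : ℕ) [NeZero d] (hd : d ∣ N),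
        D.emb (gen N hd) = algebraMap HolFun MerFun (JLevel.jd d)) ∧
      (∀ (f : FC N) (g : SL(2, ℤ)), CuspOrd.IsCuspMer N (g • D.emb f)) ∧
      (∀ f : FC N, ∃ a b : QExp.PerFun, b ≠ 0 ∧
        D.emb f = algebraMap HolFun MerFun (a : HolFun) / algebraMap HolFun MerFun (b : HolFun) ∧
        (f : LaurentSeries ℂ) * QExp.qLaurent b = QExp.qLaurent a) ∧
      (∀ f : FC N, ∃ a b : HolFun, ∃ (ha : a ∈ PN N) (hb : b ∈ PN N), b ≠ 0 ∧
        D.emb f = algebraMap HolFun MerFun a / algebraMap HolFun MerFun b ∧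
        (f : LaurentSeries ℂ) * qLaurent ⟨b, PN_le_PerFun N hb⟩ =
          qLaurent ⟨a, PN_le_PerFun N ha⟩) := by
  obtain ⟨D⟩ := exists_embDataL (RingHom.id ℂ) N
  have hPN : ∀ f : FC N, ∃ a b : HolFun, ∃ (ha : a ∈ PN N) (hb : b ∈ PN N), b ≠ 0 ∧
        D.emb f = algebraMap HolFun MerFun a / algebraMap HolFun MerFun b ∧
        (f : LaurentSeries ℂ) * qLaurent ⟨b, PN_le_PerFun N hb⟩ =
          qLaurent ⟨a, PN_le_PerFun N ha⟩ := by
    intro f
    obtain ⟨a, b, ha, hb, hb0, hx, hq⟩ := D.emb_frac f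
    rw [coeffMap_id] at hq
    exact ⟨a, b, ha, hb, hb0, hx, hq⟩
  refine ⟨toEmbData D, fun d _ hd => D.emb_gen d hd, fun f g => D.isCuspMer_smul f g, ?_, hPN⟩
  intro f
  obtain ⟨a, b, ha, hb, hb0, hx, hq⟩ := hPN f
  exact ⟨⟨a, PN_le_PerFun N ha⟩, ⟨b, PN_le_PerFun N hb⟩,
    fun h0 => hb0 (congrArg (fun p : PerFun => (p : HolFun)) h0), hx, hq⟩

variable (N : ℕ) [NeZero N]

/-- The chosen analytic realisation of the function field of `X₀(N)` over `ℂ`. -/
noncomputable def embData : EmbData ℂ (FC N) (RingHom.id ℂ) (jF N) (CongruenceSubgroup.Gamma0 N) :=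
  Classical.choose (exists_embData N)

/-- The analytic embedding `ℂ(X₀(N)) → MerFun`. -/
noncomputable def embC : FC N →+* MerFun := (embData N).emb

theorem embData_emb : (embData N).emb = embC N := rfl

theorem embC_injective : Function.Injective (embC N) := (embC N).injective

theorem embC_const (c : ℂ) : embC N (algebraMap ℂ (FC N) c) = Conj.const c :=
  (embData N).emb_const c

theorem embC_jF : embC N (jF N) = algebraMap HolFun MerFun jHol := (embData N).emb_x

theorem embC_gen {d : ℕ} [NeZero d] (hd : d ∣ N) :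
    embC N (gen N hd) = algebraMap HolFun MerFun (JLevel.jd d) :=
  (Classical.choose_spec (exists_embData N)).1 d hd

theorem embC_fixed {γ : SL(2, ℤ)} (hγ : γ ∈ CongruenceSubgroup.Gamma0 N) (f : FC N) :
    γ • embC N f = embC N f := (embData N).fixed γ hγ f

theorem embC_stab (γ : SL(2, ℤ)) (h : ∀ f, γ • embC N f = embC N f) :
    γ ∈ CongruenceSubgroup.Gamma0 N := (embData N).stab γ h

theorem isCuspMer_smul_embC (f : FC N) (g : SL(2, ℤ)) : CuspOrd.IsCuspMer N (g • embC N f) :=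
  (Classical.choose_spec (exists_embData N)).2.1 f g

theorem isCuspMer_embC (f : FC N) : CuspOrd.IsCuspMer N (embC N f) := by
  have := isCuspMer_smul_embC N f 1
  rwa [one_smul] at this

/-- Every value of `embC` is a quotient of two periodic holomorphic functions, compatibly with
`q`-expansions. -/
theorem embC_frac (f : FC N) : ∃ a b : QExp.PerFun, b ≠ 0 ∧
    embC N f = algebraMap HolFun MerFun (a : HolFun) / algebraMap HolFun MerFun (b : HolFun) ∧
    (f : LaurentSeries ℂ) * QExp.qLaurent b = QExp.qLaurent a :=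
  (Classical.choose_spec (exists_embData N)).2.2.1 f

/-- Every value of `embC` is a quotient of two elements of `PN N = ℂ[j(dz) : d ∣ N]`, compatibly
with `q`-expansions. -/
theorem embC_frac_PN (f : FC N) : ∃ a b : HolFun, ∃ (ha : a ∈ PN N) (hb : b ∈ PN N), b ≠ 0 ∧
    embC N f = algebraMap HolFun MerFun a / algebraMap HolFun MerFun b ∧
    (f : LaurentSeries ℂ) * qLaurent ⟨b, PN_le_PerFun N hb⟩ = qLaurent ⟨a, PN_le_PerFun N ha⟩ :=
  (Classical.choose_spec (exists_embData N)).2.2.2 f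

/-- If `θ ∈ PerFun` has `q`-expansion `f` then `embC f = θ`. -/
theorem embC_eq_of_qLaurent_eq (f : FC N) {θ : HolFun} (hθ : θ ∈ PerFun)
    (hq : qLaurent ⟨θ, hθ⟩ = (f : LaurentSeries ℂ)) :
    embC N f = algebraMap HolFun MerFun θ := by
  obtain ⟨a, b, hb0, hx, hq'⟩ := embC_frac N f
  rw [← hq, ← map_mul] at hq'
  have h1 : (⟨θ, hθ⟩ : PerFun) * b = a := qLaurent_injective hq'
  have h2 : θ * (b : HolFun) = (a : HolFun) := congrArg (fun p : PerFun => (p : HolFun)) h1
  have hb0' : algebraMap HolFun MerFun (b : HolFun) ≠ 0 := fun h0 =>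
    hb0 (Subtype.ext (IsFractionRing.injective HolFun MerFun
      (by rw [h0, ZeroMemClass.coe_zero, map_zero])))
  rw [hx, ← h2, map_mul, mul_div_assoc, div_self hb0', mul_one]

/-- Conversely, if `embC f = θ` with `θ ∈ PerFun` then the `q`-expansion of `θ` is `f`. -/
theorem qLaurent_eq_of_embC_eq (f : FC N) {θ : HolFun} (hθ : θ ∈ PerFun)
    (h : embC N f = algebraMap HolFun MerFun θ) :
    qLaurent ⟨θ, hθ⟩ = (f : LaurentSeries ℂ) := by
  obtain ⟨a, b, hb0, hx, hq'⟩ := embC_frac N f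
  have hb0' : algebraMap HolFun MerFun (b : HolFun) ≠ 0 := fun h0 =>
    hb0 (Subtype.ext (IsFractionRing.injective HolFun MerFun
      (by rw [h0, ZeroMemClass.coe_zero, map_zero])))
  have h1 : θ * (b : HolFun) = (a : HolFun) := by
    apply IsFractionRing.injective HolFun MerFun
    rw [map_mul, ← h, hx, div_mul_cancel₀ _ hb0']
  have h2 : (⟨θ, hθ⟩ : PerFun) * b = a := Subtype.ext h1
  have hqb : qLaurent b ≠ 0 := fun h0 => hb0 (qLaurent_injective (by rw [h0, map_zero]))
  have h3 : qLaurent ⟨θ, hθ⟩ * qLaurent b = (f : LaurentSeries ℂ) * qLaurent b := by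
    rw [← map_mul, h2, hq']
  exact mul_right_cancel₀ hqb h3

/-- Every element `a` of the `ℂ`-algebra generated by the `gen d` has an analytic counterpart
`θ ∈ PN N`: holomorphic, `Γ₀(N)`-invariant, of moderate growth at all cusps, periodic with
`q`-expansion `a`. -/
theorem exists_theta {a : FC N} (ha : a ∈ Algebra.adjoin ℂ (genSetF N)) :
    ∃ θ : HolFun, θ ∈ PN N ∧ (∀ γ ∈ CongruenceSubgroup.Gamma0 N, γ • θ = θ) ∧ θ ∈ growthAlg ∧
      (∃ hper : θ ∈ PerFun, qLaurent ⟨θ, hper⟩ = (a : LaurentSeries ℂ)) ∧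
      embC N a = algebraMap HolFun MerFun θ := by
  obtain ⟨θ, hθ, hq⟩ := hasThetaL_of_mem_adjoin (RingHom.id ℂ) N (a := a) ha
  rw [coeffMap_id] at hq
  exact ⟨θ, hθ, fun γ hγ => smul_eq_of_mem_PN hθ hγ, PN_le_growthAlg N hθ,
    ⟨PN_le_PerFun N hθ, hq⟩, embC_eq_of_qLaurent_eq N a (PN_le_PerFun N hθ) hq⟩

/-- The embedding sends `a ∈ ℂ[gen d : d ∣ N]` to an element of `PN N`. -/
theorem embC_eq_theta {a : FC N} (ha : a ∈ Algebra.adjoin ℂ (genSetF N)) :
    ∃ θ : HolFun, θ ∈ PN N ∧ embC N a = algebraMap HolFun MerFun θ := by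
  obtain ⟨θ, hθ, -, -, -, h⟩ := exists_theta N ha
  exact ⟨θ, hθ, h⟩

end Fermat.Agent.Gateway.Dict.EmbedC
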