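/-
P-GATEWAY, WP-DICT (helper19), piece [F1]: two abstract lemmas for the range characterisation of
the analytic embedding.

* `ProdPoly`: for a group `G` acting on a commutative ring `R` by ring automorphisms, a subgroup
  `Γ` of finite index and `θ : R` fixed by `Γ`, the polynomial `∏_{b ∈ G ⧸ Γ} (X - b • θ)` is monic
  of degree `[G : Γ]`, kills `θ`, and has `G`-invariant coefficients lying in every subring
  containing the conjugates of `θ`.  (Generic version of `Fermat/Agent/S24/SymmFn.lean`.)
* `mem_range_of_degree_le`: if `F / E0` is finite of degree `n` in characteristic zero,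
  `φ : F →+* M` is a ring homomorphism into a field and `S` is a subfield of `M` containing the
  range of `φ`, all of whose elements satisfy polynomials of degree `≤ n` over `φ(E0)`, then
  `S` is the range of `φ`.
-/
import Fermat.Agent.S24.NormProd

set_option autoImplicit false

noncomputable section

open Polynomial

namespace Fermat.Agent.Gateway.Dict.RangeAbs

/-! ### The characteristic polynomial of the conjugates -/

section ProdPoly

variable {G R : Type*} [Group G] [CommRing R] [MulSemiringAction G R]
  (Γ : Subgroup G) (θ : R) (hθ : ∀ γ ∈ Γ, γ • θ = θ)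

/-- The conjugates `g • θ`, indexed by the left cosets `g Γ`. -/
def conj (hθ : ∀ γ ∈ Γ, γ • θ = θ) (b : G ⧸ Γ) : R :=
  Quotient.liftOn' b (fun g => g • θ) (fun a c hac => by
    have h : a⁻¹ * c ∈ Γ := QuotientGroup.leftRel_apply.mp hac
    have h2 := hθ _ h
    show a • θ = c • θ
    calc a • θ = a • ((a⁻¹ * c) • θ) := by rw [h2]
      _ = c • θ := by rw [← mul_smul, mul_inv_cancel_left])

@[simp] theorem conj_mk (g : G) : conj Γ θ hθ (QuotientGroup.mk g) = g • θ := rfl

theorem smul_conj (γ : G) (b : G ⧸ Γ) : γ • conj Γ θ hθ b = conj Γ θ hθ (γ • b) := by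
  induction b using QuotientGroup.induction_on with
  | H g =>
    rw [conj_mk, ← mul_smul]
    rfl

variable [Fintype (G ⧸ Γ)]

/-- The characteristic polynomial `∏ (X - g • θ)` over the cosets. -/
def prodPoly : R[X] := ∏ b : G ⧸ Γ, (X - C (conj Γ θ hθ b))

theorem prodPoly_monic : (prodPoly Γ θ hθ).Monic :=
  monic_prod_of_monic _ _ fun _ _ => monic_X_sub_C _

theorem prodPoly_natDegree [Nontrivial R] :
    (prodPoly Γ θ hθ).natDegree = Fintype.card (G ⧸ Γ) := by
  rw [prodPoly, natDegree_prod_of_monic _ _ fun b _ => monic_X_sub_C _]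
  simp

theorem prodPoly_eval_self : (prodPoly Γ θ hθ).eval θ = 0 := by
  rw [prodPoly, eval_prod]
  refine Finset.prod_eq_zero (Finset.mem_univ (QuotientGroup.mk (1 : G))) ?_
  simp

theorem prodPoly_map_smul (γ : G) :
    (prodPoly Γ θ hθ).map (MulSemiringAction.toRingHom G R γ) = prodPoly Γ θ hθ := by
  rw [prodPoly, Polynomial.map_prod]
  have h : ∀ b : G ⧸ Γ,
      (X - C (conj Γ θ hθ b)).map (MulSemiringAction.toRingHom G R γ)
        = X - C (conj Γ θ hθ (γ • b)) := by
    intro b
    rw [Polynomial.map_sub, Polynomial.map_X, Polynomial.map_C]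
    congr 2
    exact smul_conj Γ θ hθ γ b
  simp_rw [h]
  exact Equiv.prod_comp (MulAction.toPerm γ : (G ⧸ Γ) ≃ (G ⧸ Γ))
    (fun b => X - C (conj Γ θ hθ b))

theorem smul_coeff_prodPoly (γ : G) (i : ℕ) :
    γ • (prodPoly Γ θ hθ).coeff i = (prodPoly Γ θ hθ).coeff i := by
  have h := congrArg (fun P => Polynomial.coeff P i) (prodPoly_map_smul Γ θ hθ γ)
  simpa [Polynomial.coeff_map] using h

theorem coeff_prod_mem_subring (S : Subring R) {ι : Type*}
    (s : Finset ι) (f : ι → R[X]) (h : ∀ b ∈ s, ∀ i, (f b).coeff i ∈ S) :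
    ∀ i, (∏ b ∈ s, f b).coeff i ∈ S := by
  classical
  induction s using Finset.induction_on with
  | empty =>
    intro i
    rw [Finset.prod_empty, Polynomial.coeff_one]
    split_ifs
    · exact S.one_mem
    · exact S.zero_mem
  | insert a s ha ih =>
    intro i
    rw [Finset.prod_insert ha, Polynomial.coeff_mul]
    refine S.sum_mem fun x _ => S.mul_mem (h a (Finset.mem_insert_self _ _) _) ?_
    exact ih (fun b hb => h b (Finset.mem_insert_of_mem hb)) _

/-- The coefficients of `prodPoly` lie in every subring containing all translates of `θ`. -/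
theorem coeff_prodPoly_mem (S : Subring R) (hS : ∀ g : G, g • θ ∈ S) (i : ℕ) :
    (prodPoly Γ θ hθ).coeff i ∈ S := by
  refine coeff_prod_mem_subring S Finset.univ
    (fun b : G ⧸ Γ => X - C (conj Γ θ hθ b)) (fun b _ k => ?_) i
  rw [Polynomial.coeff_sub, Polynomial.coeff_X, Polynomial.coeff_C]
  refine Subring.sub_mem _ ?_ ?_
  · split_ifs
    · exact Subring.one_mem _
    · exact Subring.zero_mem _
  · split_ifs
    · induction b using QuotientGroup.induction_on with
      | H g => exact hS g
    · exact Subring.zero_mem _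

end ProdPoly

/-! ### A subfield of bounded degree containing the range is the range -/

section Range

variable {E0 F M : Type*} [Field E0] [Field F] [Field M] [Algebra E0 F] [CharZero E0]
  [FiniteDimensional E0 F]

/-- If every element of the subfield `S ⊇ range φ` satisfies a nonzero polynomial of degree
at most `[F : E0]` with coefficients in `φ(E0)`, then `S = range φ`. -/
theorem mem_range_of_degree_le (φ : F →+* M) (S : Subfield M) (hφS : ∀ f : F, φ f ∈ S)
    (hdeg : ∀ x ∈ S, ∃ q : E0[X], q ≠ 0 ∧ q.natDegree ≤ Module.finrank E0 F ∧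
      q.eval₂ (φ.comp (algebraMap E0 F)) x = 0)
    {x : M} (hx : x ∈ S) : x ∈ φ.range := by
  -- `S` as an `E0`-algebra
  let ψ : E0 →+* S := (φ.comp (algebraMap E0 F)).codRestrict S fun e => hφS _
  let _ : Algebra E0 S := ψ.toAlgebra
  -- the induced algebra homomorphism `F →ₐ[E0] S`
  let φS : F →+* S := φ.codRestrict S hφS
  let φA : F →ₐ[E0] S := { φS with commutes' := fun e => rfl }
  -- every element of `S` has a minimal polynomial of degree `≤ n`
  have hint : ∀ y : S, IsIntegral E0 y ∧ (minpoly E0 y).natDegree ≤ Module.finrank E0 F := by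
    intro y
    obtain ⟨q, hq0, hqn, hqy⟩ := hdeg y.1 y.2
    have hy : aeval y q = 0 := by
      apply Subtype.ext
      have h1 : ((aeval y q : S) : M) = q.eval₂ (φ.comp (algebraMap E0 F)) y.1 := by
        rw [aeval_def, ← Subfield.coe_subtype, Polynomial.hom_eval₂]
        rfl
      rw [h1, hqy]
      rfl
    have halg : IsIntegral E0 y := IsAlgebraic.isIntegral ⟨q, hq0, hy⟩
    exact ⟨halg, le_trans (Polynomial.natDegree_le_of_dvd (minpoly.dvd E0 y hy) hq0) hqn⟩
  have halgS : Algebra.IsAlgebraic E0 S := ⟨fun y => (hint y).1.isAlgebraic⟩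
  have : Algebra.IsSeparable E0 S := Algebra.IsAlgebraic.isSeparable_of_perfectField
  obtain ⟨hfd, hle⟩ := Fermat.Agent.S24.NormProd.finiteDimensional_and_finrank_le_of_natDegree_minpoly_le
    (E0 := E0) (F := S) (fun y => (hint y).2)
  -- `φA` is injective, hence bijective by dimension count
  have hinj : Function.Injective φA.toLinearMap := φA.toRingHom.injective
  have hge : Module.finrank E0 F ≤ Module.finrank E0 S :=
    LinearMap.finrank_le_finrank_of_injective hinj
  have heq : Module.finrank E0 F = Module.finrank E0 S := le_antisymm hge hle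
  have hsurj : Function.Surjective φA.toLinearMap :=
    (LinearMap.injective_iff_surjective_of_finrank_eq_finrank heq).mp hinj
  obtain ⟨f, hf⟩ := hsurj ⟨x, hx⟩
  exact ⟨f, congrArg Subtype.val hf⟩

end Range

end Fermat.Agent.Gateway.Dict.RangeAbs
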