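/-
P-GATEWAY, WP-DICT (helper19), pieces [E] (final form) and [F]:

* `exists_ratfunc_of_invariant`: an `SL(2,ℤ)`-invariant element of `MerFun` which is a quotient of
  cusp functions is a rational function of `j`;
* `mem_range_embC_iff`: the range of the analytic embedding `embC N : FC N →+* MerFun` consists
  exactly of the `Γ₀(N)`-invariant elements all of whose `SL(2,ℤ)`-translates are quotients of
  cusp functions of level `N`  (D1 of the blueprint).
-/
import Fermat.Agent.Gateway.Dict.MerInvJ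
import Fermat.Agent.Gateway.Dict.CuspBound
import Fermat.Agent.Gateway.Dict.RangeAbs
import Fermat.Agent.Gateway.Dict.EmbedC
import Fermat.Agent.Gateway.Dict.DegreeC

set_option autoImplicit false

noncomputable section

open UpperHalfPlane CongruenceSubgroup IntermediateField Polynomial
open scoped MatrixGroups

namespace Fermat.Agent.Gateway.Dict.RangeC

open Fermat.Agent.S24 Fermat.Agent.S24.MerFun Fermat.Agent.S24.CuspOrd SetupC ConjAbs EmbedC

/-- **Meromorphic invariants are rational functions of `j`.** -/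
theorem exists_ratfunc_of_invariant {N : ℕ} (hN : 0 < N) (h : MerFun)
    (hinv : ∀ γ : SL(2, ℤ), γ • h = h) (hcusp : IsCuspMer N h) :
    ∃ P Q : Polynomial ℂ, Q ≠ 0 ∧
      h * algebraMap HolFun MerFun (Polynomial.aeval jHol Q) =
        algebraMap HolFun MerFun (Polynomial.aeval jHol P) :=
  MerInvJ.exists_ratfunc_of_invariant_aux h hinv hcusp
    (fun _ hb hb0 => CuspBound.exists_im_forall_ne_zero hN hb hb0)
    (fun _ _ _ hf ha hb hb0 hfab => CuspBound.modGrowth_of_mul_eq hN hf ha hb hb0 hfab)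

variable (N : ℕ) [NeZero N]

/-- The subfield of `MerFun` of `Γ₀(N)`-invariant elements all of whose translates are quotients of
cusp functions of level `N`. -/
def modField : Subfield MerFun where
  carrier := {h | (∀ γ ∈ Gamma0 N, γ • h = h) ∧ ∀ g : SL(2, ℤ), IsCuspMer N (g • h)}
  mul_mem' {x y} hx hy :=
    ⟨fun γ hγ => by rw [smul_mul', hx.1 γ hγ, hy.1 γ hγ],
      fun g => by rw [smul_mul']; exact (hx.2 g).mul (hy.2 g)⟩
  one_mem' := ⟨fun γ _ => smul_one γ, fun g => by rw [smul_one]; exact isCuspMer_one N⟩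
  add_mem' {x y} hx hy :=
    ⟨fun γ hγ => by rw [smul_add, hx.1 γ hγ, hy.1 γ hγ],
      fun g => by rw [smul_add]; exact (hx.2 g).add (hy.2 g)⟩
  zero_mem' := ⟨fun γ _ => smul_zero γ, fun g => by rw [smul_zero]; exact isCuspMer_zero N⟩
  neg_mem' {x} hx :=
    ⟨fun γ hγ => by rw [smul_neg, hx.1 γ hγ], fun g => by rw [smul_neg]; exact (hx.2 g).neg⟩
  inv_mem' x hx :=
    ⟨fun γ hγ => by rw [smul_inv'', hx.1 γ hγ], fun g => by rw [smul_inv'']; exact (hx.2 g).inv⟩

omit [NeZero N] in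
theorem mem_modField {h : MerFun} :
    h ∈ modField N ↔ (∀ γ ∈ Gamma0 N, γ • h = h) ∧ ∀ g : SL(2, ℤ), IsCuspMer N (g • h) :=
  Iff.rfl

theorem embC_mem_modField (f : FC N) : embC N f ∈ modField N :=
  ⟨fun _ hγ => embC_fixed N hγ f, fun g => isCuspMer_smul_embC N f g⟩

/-- The hypothesis `hθ` of `DegreeC.finrank_and_norm` for `embData N`. -/
theorem hθ_embData : ∀ a ∈ Algebra.adjoin ℂ (genSetF N), ∃ θ : HolFun,
    (∀ γ ∈ Gamma0 N, γ • θ = θ) ∧ θ ∈ SymmFn.growthAlg ∧
      (embData N).emb a = algebraMap HolFun MerFun θ := by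
  intro a ha
  obtain ⟨θ, -, h1, h2, -, h3⟩ := exists_theta N ha
  exact ⟨θ, h1, h2, h3⟩

/-- **Degree and norm over `ℂ`** ([B] in its final form). -/
theorem finrank_and_norm :
    FiniteDimensional ℂ⟮jF N⟯ (FC N) ∧
      Module.finrank ℂ⟮jF N⟯ (FC N) = (Gamma0 N).index ∧
      ∀ (b0 : SL(2, ℤ) ⧸ Gamma0 N) (f : FC N),
        sigma (embData N) b0 (algebraMap ℂ⟮jF N⟯ (FC N) (Algebra.norm ℂ⟮jF N⟯ f))
          = ∏ b, sigma (embData N) b f :=
  DegreeC.finrank_and_norm N (embData N) (hθ_embData N)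

/-- Every rational function of `j` is the image of an element of `ℂ(j) ⊆ FC N`. -/
theorem exists_adjoin_of_ratfunc {c : MerFun} {P Q : Polynomial ℂ} (hQ : Q ≠ 0)
    (h : c * algebraMap HolFun MerFun (Polynomial.aeval jHol Q) =
      algebraMap HolFun MerFun (Polynomial.aeval jHol P)) :
    ∃ e : ℂ⟮jF N⟯, embC N (algebraMap ℂ⟮jF N⟯ (FC N) e) = c := by
  set x : ℂ⟮jF N⟯ := AdjoinSimple.gen ℂ (jF N) with hx
  have hgen : algebraMap ℂ⟮jF N⟯ (FC N) x = jF N := AdjoinSimple.algebraMap_gen ℂ (jF N)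
  have hae : ∀ R : Polynomial ℂ, embC N (algebraMap ℂ⟮jF N⟯ (FC N) (Polynomial.aeval x R)) =
      algebraMap HolFun MerFun (Polynomial.aeval jHol R) := by
    intro R
    rw [← Polynomial.aeval_algebraMap_apply, hgen]
    exact DegreeC.emb_aeval (embData N) R
  have hQJ : algebraMap HolFun MerFun (Polynomial.aeval jHol Q) ≠ 0 :=
    algebraMap_ne_zero (MerInvJ.aeval_jHol_ne_zero hQ)
  refine ⟨Polynomial.aeval x P / Polynomial.aeval x Q, ?_⟩
  rw [map_div₀, map_div₀, hae, hae, ← h, mul_div_assoc, div_self hQJ, mul_one]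

/-- **D1, the range of the analytic embedding.** -/
theorem mem_range_embC_iff (h : MerFun) :
    h ∈ (embC N).range ↔
      (∀ γ ∈ Gamma0 N, γ • h = h) ∧ ∀ g : SL(2, ℤ), IsCuspMer N (g • h) := by
  constructor
  · rintro ⟨f, rfl⟩
    exact embC_mem_modField N f
  · intro hh
    obtain ⟨hfd, hfr, -⟩ := finrank_and_norm N
    have hN : 0 < N := Nat.pos_of_ne_zero (NeZero.ne N)
    refine RangeAbs.mem_range_of_degree_le (E0 := ℂ⟮jF N⟯) (F := FC N) (embC N) (modField N)
      (embC_mem_modField N) ?_ (x := h) hh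
    intro x hx
    -- the characteristic polynomial of the conjugates of `x`
    set p : Polynomial MerFun := RangeAbs.prodPoly (Gamma0 N) x hx.1 with hp
    have hcoeff : ∀ i : ℕ, p.coeff i ∈
        Set.range ((embC N).comp (algebraMap ℂ⟮jF N⟯ (FC N))) := by
      intro i
      have hinv : ∀ γ : SL(2, ℤ), γ • p.coeff i = p.coeff i :=
        fun γ => RangeAbs.smul_coeff_prodPoly (Gamma0 N) x hx.1 γ i
      have hcusp : IsCuspMer N (p.coeff i) :=
        RangeAbs.coeff_prodPoly_mem (Gamma0 N) x hx.1 (cuspMerField N).toSubring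
          (fun g => hx.2 g) i
      obtain ⟨P, Q, hQ, hPQ⟩ := exists_ratfunc_of_invariant hN (p.coeff i) hinv hcusp
      obtain ⟨e, he⟩ := exists_adjoin_of_ratfunc N hQ hPQ
      exact ⟨e, he⟩
    have hlift : p ∈ Polynomial.lifts ((embC N).comp (algebraMap ℂ⟮jF N⟯ (FC N))) :=
      (Polynomial.lifts_iff_coeff_lifts p).mpr hcoeff
    have hmonic : p.Monic := RangeAbs.prodPoly_monic (Gamma0 N) x hx.1
    obtain ⟨q, hq, hqd, hqm⟩ := Polynomial.lifts_and_natDegree_eq_and_monic hlift hmonic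
    refine ⟨q, hqm.ne_zero, ?_, ?_⟩
    · rw [hqd, hp, RangeAbs.prodPoly_natDegree, hfr, DegreeC.card_quotient]
    · rw [Polynomial.eval₂_eq_eval_map, hq, hp]
      exact RangeAbs.prodPoly_eval_self (Gamma0 N) x hx.1

end Fermat.Agent.Gateway.Dict.RangeC
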