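import Mathlib
import Fermat.Agent.S24.Ord
import Fermat.Agent.S24.Bridge

/-!
helper46 (P-GATEWAY, WP-DICT).  Holomorphy criteria for elements of `MerFun = Frac(HolFun)`.

* `exists_holFun_of_ordMer_nonneg` : an element of `MerFun` all of whose orders are `≥ 0` is
  (the image of) a holomorphic function.
* `ordMer_nonneg_of_isIntegral` : an element of `MerFun` integral over `HolFun` has all orders
  `≥ 0`; hence `exists_holFun_of_isIntegral` : `HolFun` is integrally closed in `MerFun`.
-/

set_option autoImplicit false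

open UpperHalfPlane hiding I
open Complex Filter Topology
open scoped Manifold MatrixGroups

namespace Fermat.Agent.Gateway.Dict.HolOfOrd

open Fermat.Agent.S24 Fermat.Agent.S24.MerFun Fermat.Agent.S24.Bridge

local notation "ℍₒ" => UpperHalfPlane.upperHalfPlaneSet

/-! ### Nonnegative orders imply holomorphy -/

theorem meromorphicOn_quotFun (a e : HolFun) : MeromorphicOn (quotFun a e) ℍₒ := by
  intro z hz
  exact meromorphicAt_quotFun ⟨z, hz⟩ a e

theorem ordAt_nat_le_of_ordMer_nonneg {a e : HolFun} (ha : a ≠ 0) (he : e ≠ 0) (τ : ℍ)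
    (h : 0 ≤ ordMer τ (algebraMap HolFun MerFun a / algebraMap HolFun MerFun e)) :
    (HolFun.ordAt τ).nat e ≤ (HolFun.ordAt τ).nat a := by
  rw [ordMer_div_holFun τ ha he] at h
  omega

/-- If all orders of `a / e` are nonnegative then `a = f * e` for a holomorphic `f`. -/
theorem exists_holFun_mul_eq {a e : HolFun} (ha : a ≠ 0) (he : e ≠ 0)
    (h : ∀ τ : ℍ, 0 ≤ ordMer τ (algebraMap HolFun MerFun a / algebraMap HolFun MerFun e)) :
    ∃ f : HolFun, f * e = a := by
  set F : ℂ → ℂ := quotFun a e with hF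
  have hFmer : MeromorphicOn F ℍₒ := meromorphicOn_quotFun a e
  set G : ℂ → ℂ := toMeromorphicNFOn F ℍₒ with hG
  -- `G` is analytic on the upper half plane
  have hGan : ∀ z ∈ ℍₒ, AnalyticAt ℂ G z := by
    intro z hz
    have hNF : MeromorphicNFAt G z := meromorphicNFOn_toMeromorphicNFOn F ℍₒ hz
    rw [← hNF.meromorphicOrderAt_nonneg_iff_analyticAt, hG,
      meromorphicOrderAt_toMeromorphicNFOn hFmer hz]
    have h1 := ordMer_div_eq_meromorphicOrderAt ⟨z, hz⟩ ha he
    have h2 : meromorphicOrderAt F z =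
        ((ordMer ⟨z, hz⟩ (algebraMap HolFun MerFun a / algebraMap HolFun MerFun e) : ℤ) :
          WithTop ℤ) := h1.symm
    rw [h2]
    exact_mod_cast h ⟨z, hz⟩
  -- the holomorphic function
  have hmd : MDiff (fun τ : ℍ => G τ) := by
    rw [UpperHalfPlane.mdifferentiable_iff]
    have hdiff : DifferentiableOn ℂ G ℍₒ := fun z hz =>
      (hGan z hz).differentiableAt.differentiableWithinAt
    refine hdiff.congr ?_
    intro z hz
    simp only [Function.comp_apply]
    rw [ofComplex_apply_of_im_pos hz]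
  refine ⟨HolFun.mk (fun τ : ℍ => G τ) hmd, ?_⟩
  apply HolFun.ext
  intro τ
  rw [HolFun.coe_mul_apply, HolFun.mk_apply]
  -- compare the analytic functions `G * (e ∘ ofComplex)` and `a ∘ ofComplex` near `τ`
  have hean := HolFun.analyticAt_comp_ofComplex e τ
  have haan := HolFun.analyticAt_comp_ofComplex a τ
  have hGτ := hGan τ τ.im_pos
  have hfreq : ∃ᶠ z in 𝓝[≠] (τ : ℂ),
      (fun z => G z * ((e : ℍ → ℂ) ∘ ofComplex) z) z = ((a : ℍ → ℂ) ∘ ofComplex) z := by
    apply Eventually.frequently
    have h1 : G =ᶠ[𝓝[≠] (τ : ℂ)] F := hFmer.toMeromorphicNFOn_eq_self_on_nhdsNE τ.im_pos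
    filter_upwards [h1, eventually_ne_zero τ he] with z hz1 hz2
    simp only [Function.comp_apply]
    rw [hz1, hF, quotFun, div_mul_cancel₀ _ hz2]
  have hev := ((hGτ.mul hean).frequently_eq_iff_eventually_eq haan).mp hfreq
  have := hev.self_of_nhds
  simpa using this

/-- An element of `MerFun` all of whose orders are nonnegative is holomorphic. -/
theorem exists_holFun_of_ordMer_nonneg (h : MerFun) (hh : ∀ τ : ℍ, 0 ≤ ordMer τ h) :
    ∃ f : HolFun, algebraMap HolFun MerFun f = h := by
  by_cases h0 : h = 0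
  · exact ⟨0, by rw [map_zero, h0]⟩
  obtain ⟨a, e, he, hae⟩ := IsFractionRing.div_surjective HolFun h
  have he0 : e ≠ 0 := nonZeroDivisors.ne_zero he
  have he0' : algebraMap HolFun MerFun e ≠ 0 := fun h1 =>
    he0 (IsFractionRing.injective HolFun MerFun (by rw [h1, map_zero]))
  have ha0 : a ≠ 0 := by
    rintro rfl
    rw [map_zero, zero_div] at hae
    exact h0 hae.symm
  obtain ⟨f, hf⟩ := exists_holFun_mul_eq ha0 he0 (fun τ => by rw [hae]; exact hh τ)
  refine ⟨f, ?_⟩
  rw [← hae, ← hf, map_mul, mul_div_assoc, div_self he0', mul_one]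

/-! ### Integral elements -/

/-- The order of a finite sum is at least the minimum of the orders. -/
theorem ordAt_sum_ge (τ : ℍ) {ι : Type*} (s : Finset ι) (t : ι → HolFun) (n : ℕ∞)
    (h : ∀ i ∈ s, n ≤ HolFun.ordAt τ (t i)) : n ≤ HolFun.ordAt τ (∑ i ∈ s, t i) := by
  classical
  induction s using Finset.induction_on with
  | empty =>
    rw [Finset.sum_empty]
    have : HolFun.ordAt τ (0 : HolFun) = ⊤ := ((HolFun.ordAt τ).eq_top_iff 0).mpr rfl
    rw [this]
    exact le_top
  | insert i s hi ih =>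
    rw [Finset.sum_insert hi]
    refine le_trans ?_ ((HolFun.ordAt τ).map_add _ _)
    exact le_min (h i (Finset.mem_insert_self i s))
      (ih fun j hj => h j (Finset.mem_insert_of_mem hj))

theorem ordAt_pow (τ : ℍ) (a : HolFun) (n : ℕ) :
    HolFun.ordAt τ (a ^ n) = n • HolFun.ordAt τ a := by
  induction n with
  | zero =>
    rw [pow_zero, zero_smul]
    exact (HolFun.ordAt τ).map_one
  | succ n ih => rw [pow_succ, (HolFun.ordAt τ).map_mul, ih, succ_nsmul]

/-- If `a ^ m + ∑_{i < m} c i * a ^ i * e ^ (m - i) = 0` in `HolFun` with `e ≠ 0`, then the order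
of `e` at every point is at most the order of `a`. -/
theorem ordAt_le_of_monic_relation {a e : HolFun} (ha : a ≠ 0) (he : e ≠ 0) (m : ℕ)
    (c : ℕ → HolFun)
    (hrel : a ^ m + ∑ i ∈ Finset.range m, c i * a ^ i * e ^ (m - i) = 0) (τ : ℍ) :
    HolFun.ordAt τ e ≤ HolFun.ordAt τ a := by
  by_contra hlt
  rw [not_le] at hlt
  -- natural number orders
  set α := (HolFun.ordAt τ).nat a with hα
  set ε := (HolFun.ordAt τ).nat e with hε
  have hαc : ((α : ℕ) : ℕ∞) = HolFun.ordAt τ a := (HolFun.ordAt τ).coe_nat ha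
  have hεc : ((ε : ℕ) : ℕ∞) = HolFun.ordAt τ e := (HolFun.ordAt τ).coe_nat he
  rw [← hαc, ← hεc] at hlt
  have hlt' : α < ε := by exact_mod_cast hlt
  -- the sum has order `> m * α`
  have hsum : ((m * α + 1 : ℕ) : ℕ∞) ≤
      HolFun.ordAt τ (∑ i ∈ Finset.range m, c i * a ^ i * e ^ (m - i)) := by
    apply ordAt_sum_ge
    intro i hi
    have him : i < m := Finset.mem_range.mp hi
    rw [(HolFun.ordAt τ).map_mul, (HolFun.ordAt τ).map_mul, ordAt_pow, ordAt_pow, ← hαc, ← hεc]
    have h1 : ((m * α + 1 : ℕ) : ℕ∞) ≤ ((i * α + (m - i) * ε : ℕ) : ℕ∞) := by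
      have : m * α + 1 ≤ i * α + (m - i) * ε := by
        have h2 : m * α = i * α + (m - i) * α := by
          rw [← add_mul, Nat.add_sub_cancel' him.le]
        have h3 : (m - i) * α + 1 ≤ (m - i) * ε := by
          have h4 : 1 ≤ m - i := by omega
          calc (m - i) * α + 1 ≤ (m - i) * α + (m - i) := by omega
            _ = (m - i) * (α + 1) := by ring
            _ ≤ (m - i) * ε := Nat.mul_le_mul_left _ hlt'
        omega
      exact_mod_cast this
    refine le_trans h1 ?_
    have h5 : ((i * α + (m - i) * ε : ℕ) : ℕ∞) = i • (α : ℕ∞) + (m - i) • (ε : ℕ∞) := by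
      push_cast
      simp [nsmul_eq_mul]
    rw [h5, add_assoc]
    exact le_add_self
  -- but `a ^ m` has order exactly `m * α`
  have hpow : HolFun.ordAt τ (a ^ m) = ((m * α : ℕ) : ℕ∞) := by
    rw [ordAt_pow, ← hαc]
    push_cast
    simp [nsmul_eq_mul]
  have hneg : a ^ m = -∑ i ∈ Finset.range m, c i * a ^ i * e ^ (m - i) :=
    eq_neg_of_add_eq_zero_left hrel
  have hordneg : ∀ x : HolFun, HolFun.ordAt τ (-x) = HolFun.ordAt τ x := by
    intro x
    have h1 : -x = (-1 : HolFun) * x := by ring
    have h2 : HolFun.ordAt τ (-1 : HolFun) = 0 := by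
      have h3 : HolFun.ordAt τ ((-1 : HolFun) * (-1)) = 0 := by
        have : (-1 : HolFun) * (-1) = 1 := by ring
        rw [this]
        exact (HolFun.ordAt τ).map_one
      rw [(HolFun.ordAt τ).map_mul] at h3
      exact (add_eq_zero.mp h3).1
    rw [h1, (HolFun.ordAt τ).map_mul, h2, zero_add]
  rw [hneg, hordneg] at hpow
  rw [hpow] at hsum
  have : m * α + 1 ≤ m * α := by exact_mod_cast hsum
  omega

/-- An element of `MerFun` integral over `HolFun` is holomorphic: `HolFun` is integrally closed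
in `MerFun`. -/
theorem exists_holFun_of_isIntegral (h : MerFun) (hint : IsIntegral HolFun h) :
    ∃ f : HolFun, algebraMap HolFun MerFun f = h := by
  by_cases h0 : h = 0
  · exact ⟨0, by rw [map_zero, h0]⟩
  obtain ⟨a, e, he, hae⟩ := IsFractionRing.div_surjective HolFun h
  have he0 : e ≠ 0 := nonZeroDivisors.ne_zero he
  have he0' : algebraMap HolFun MerFun e ≠ 0 := fun h1 =>
    he0 (IsFractionRing.injective HolFun MerFun (by rw [h1, map_zero]))
  have ha0 : a ≠ 0 := by
    rintro rfl
    rw [map_zero, zero_div] at hae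
    exact h0 hae.symm
  obtain ⟨p, hpm, hp⟩ := hint
  set m := p.natDegree with hm
  -- the relation in `HolFun`
  have hrel : a ^ m + ∑ i ∈ Finset.range m, p.coeff i * a ^ i * e ^ (m - i) = 0 := by
    apply IsFractionRing.injective HolFun MerFun
    rw [map_zero, map_add, map_sum, map_pow]
    have hev : Polynomial.eval₂ (algebraMap HolFun MerFun) h p = 0 := hp
    rw [Polynomial.eval₂_eq_sum_range, Finset.sum_range_succ, ← hm, hpm.coeff_natDegree,
      map_one, one_mul] at hev
    have hA : algebraMap HolFun MerFun a = h * algebraMap HolFun MerFun e := by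
      rw [← hae, div_mul_cancel₀ _ he0']
    have key : algebraMap HolFun MerFun a ^ m +
        ∑ i ∈ Finset.range m, algebraMap HolFun MerFun (p.coeff i * a ^ i * e ^ (m - i)) =
        algebraMap HolFun MerFun e ^ m *
          (∑ i ∈ Finset.range m, algebraMap HolFun MerFun (p.coeff i) * h ^ i + h ^ m) := by
      rw [mul_add, Finset.mul_sum, hA, mul_pow, add_comm]
      congr 1
      · apply Finset.sum_congr rfl
        intro i hi
        have him : i < m := Finset.mem_range.mp hi
        rw [map_mul, map_mul, map_pow, map_pow, hA, mul_pow]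
        have : algebraMap HolFun MerFun e ^ m =
            algebraMap HolFun MerFun e ^ i * algebraMap HolFun MerFun e ^ (m - i) := by
          rw [← pow_add, Nat.add_sub_cancel' him.le]
        rw [this]
        ring
      · ring
    rw [key, hev, mul_zero]
  have hord : ∀ τ : ℍ, 0 ≤ ordMer τ (algebraMap HolFun MerFun a / algebraMap HolFun MerFun e) := by
    intro τ
    rw [ordMer_div_holFun τ ha0 he0]
    have hle := ordAt_le_of_monic_relation ha0 he0 m (fun i => p.coeff i) hrel τ
    rw [← (HolFun.ordAt τ).coe_nat ha0, ← (HolFun.ordAt τ).coe_nat he0] at hle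
    have : (HolFun.ordAt τ).nat e ≤ (HolFun.ordAt τ).nat a := by exact_mod_cast hle
    omega
  obtain ⟨f, hf⟩ := exists_holFun_mul_eq ha0 he0 hord
  refine ⟨f, ?_⟩
  rw [← hae, ← hf, map_mul, mul_div_assoc, div_self he0', mul_one]

end Fermat.Agent.Gateway.Dict.HolOfOrd
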