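import Fermat.Agent.Gateway.Dict.EmbedC
import Fermat.Agent.Gateway.Dict.DegreeC
import Fermat.Agent.Gateway.Dict.PlaceCountRel
import Fermat.Agent.S24.Bridge
import Fermat.Agent.S24.Periods
import Fermat.Agent.S24.CuspOrdMer
import Fermat.Agent.S24.AssembleInf
import Fermat.Agent.S24.JFun.Surj
import Fermat.Agent.S24.ZP.ZeroPlaces
import Fermat.Agent.S24.PrincipalDiv
import Fermat.Agent.S24.TransJ
import Fermat.Agent.S24.FinalAbs

/-!
# P-GATEWAY, WP-DICT [C] (helper24): places of `ℂ(X₀(N))` versus points of `ℍ` and cusps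

`FC N` is the function field of `X₀(N)` over `ℂ`, `embC N : FC N →+* MerFun` its analytic
realisation (EmbedC.lean).  We re-run the place counting of S24 (AssembleFin / AssembleInf) over
`ℂ` with `placeCountRel` and obtain:

* `place_cases` (D2): every place `v` of `FC N` is either "a point `z` of `ℍ`"
  (`e * v.ord f = ordMer z (embC N f)` with `e` the order of the stabiliser) or "a cusp"
  (`(N / w) * v.ord f = ordInfMer N (g • embC N f)` with `w` the width);
* `exists_place_of_point`, `exists_place_of_cusp` (D3, weak form).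
-/

set_option autoImplicit false
set_option linter.unusedSectionVars false

noncomputable section

open UpperHalfPlane ModularCurve CongruenceSubgroup IntermediateField ModularGroup AlgebraicCurve
open scoped MatrixGroups

namespace Fermat.Agent.Gateway.Dict.PlacesC

open Fermat.Agent.S24 Fermat.Agent.S24.CuspOrd
open Fermat.Agent.Gateway.Dict.SetupC Fermat.Agent.Gateway.Dict.ConjAbs
open Fermat.Agent.Gateway.Dict.EmbedC Fermat.Agent.Gateway.Dict.PlaceCountRel

variable (N : ℕ) [NeZero N]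

/-! ### Generalities over `ℂ` -/

theorem transcendental_jF : Transcendental ℂ (jF N) := by
  have h : Transcendental ℂ (jC 1) := by
    refine TransJ.transcendental_of_coeff_ne_zero _ (n := -1) (by norm_num) ?_
    rw [jC, coeffEmb_coeff, qExpand_one_apply, coeff_jq_neg_one, map_one]
    exact one_ne_zero
  rw [← coe_jF N] at h
  exact (transcendental_algebraMap_iff
    (algebraMap (FC N) (LaurentSeries ℂ)).injective).mp h

/-- Degree and norm for the chosen analytic realisation. -/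
theorem finrank_and_norm :
    FiniteDimensional ℂ⟮jF N⟯ (FC N) ∧
      Module.finrank ℂ⟮jF N⟯ (FC N) = (Gamma0 N).index ∧
      ∀ (b0 : SL(2, ℤ) ⧸ Gamma0 N) (f : FC N),
        sigma (embData N) b0 (algebraMap ℂ⟮jF N⟯ (FC N) (Algebra.norm ℂ⟮jF N⟯ f))
          = ∏ b, sigma (embData N) b f :=
  DegreeC.finrank_and_norm N (embData N) (fun a ha => by
    obtain ⟨θ, -, hfix, hgr, -, h⟩ := EmbedC.exists_theta N ha
    exact ⟨θ, hfix, hgr, h⟩)

instance finiteDimensional_jF : FiniteDimensional ℂ⟮jF N⟯ (FC N) := (finrank_and_norm N).1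

theorem hnorm (b0 : SL(2, ℤ) ⧸ Gamma0 N) (f : FC N) :
    sigma (embData N) b0 (algebraMap ℂ⟮jF N⟯ (FC N) (Algebra.norm ℂ⟮jF N⟯ f))
      = ∏ b, sigma (embData N) b f := (finrank_and_norm N).2.2 b0 f

theorem sigma_mk_apply (g : SL(2, ℤ)) (f : FC N) :
    sigma (embData N) (QuotientGroup.mk g) f = g • embC N f := rfl

/-- conjugation does not change the trace. -/
theorem trace_conj (g γ : SL(2, ℤ)) :
    ((g⁻¹ * γ * g : SL(2, ℤ)) : Matrix (Fin 2) (Fin 2) ℤ).trace
      = (γ : Matrix (Fin 2) (Fin 2) ℤ).trace := by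
  rw [Matrix.SpecialLinearGroup.coe_mul, Matrix.SpecialLinearGroup.coe_mul,
    Matrix.trace_mul_cycle, ← Matrix.SpecialLinearGroup.coe_mul, mul_inv_cancel,
    Matrix.SpecialLinearGroup.coe_one, Matrix.one_mul]

theorem pow_smul_fixed {γ : SL(2, ℤ)} {τ : ℍ} (hγ : γ • τ = τ) (k : ℕ) : γ ^ k • τ = τ := by
  induction k with
  | zero => simp
  | succ k ih => rw [pow_succ, mul_smul, hγ, ih]

/-- the coset of `g` is fixed by `γ ^ k` iff `g⁻¹ γ ^ k g ∈ Γ₀(N)`. -/
theorem conj_mem_of_smul_eq {γ g : SL(2, ℤ)}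
    (h : γ • (QuotientGroup.mk g : SL(2, ℤ) ⧸ Gamma0 N) = QuotientGroup.mk g) :
    g⁻¹ * γ * g ∈ Gamma0 N := by
  have h1 : (QuotientGroup.mk g : SL(2, ℤ) ⧸ Gamma0 N) = QuotientGroup.mk (γ * g) := h.symm
  rw [QuotientGroup.eq] at h1
  rw [mul_assoc]
  exact h1

/-! ### The finite points -/

/-- The value of the valuations `wFin` on `j - a`. -/
theorem wFin_jF_sub_const (τ : ℍ) (a : ℂ) (hτ : jFn τ = a) (b : SL(2, ℤ) ⧸ Gamma0 N) :
    wFin (embData N) τ b (jF N - algebraMap ℂ (FC N) a) =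
      MerFun.ordMer τ (algebraMap HolFun MerFun (jHol - algebraMap ℂ HolFun (jFn τ))) := by
  rw [wFin, map_sub, sigma_x, sigma_const, Conj.const, ← map_sub, hτ]
  rfl

/-- **Finite places, general form.** Let `τ` be a point over `a`, fixed by `γ`, with
`m = ord_τ (j - a)` equal to `1` or a prime, `γ ^ m` acting trivially on the cosets and
`m ∣ ord_τ h` for `γ`-invariant `h`.  Then every zero `v` of `j - a` is a point of `ℍ`. -/
theorem exists_point_of_zero (a : ℂ) (τ : ℍ) (hτ : jFn τ = a) (γ : SL(2, ℤ)) (hγ : γ • τ = τ)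
    (m : ℕ) (hm : 0 < m) (hmp : m = 1 ∨ m.Prime)
    (hord : MerFun.ordMer τ (algebraMap HolFun MerFun (jHol - algebraMap ℂ HolFun (jFn τ))) = m)
    (hper : ∀ b : SL(2, ℤ) ⧸ Gamma0 N, γ ^ m • b = b)
    (hdiv : ∀ h : MerFun, γ • h = h → (m : ℤ) ∣ MerFun.ordMer τ h)
    (htr1 : |(γ : Matrix (Fin 2) (Fin 2) ℤ).trace| ≤ 2)
    (htrm : |((γ ^ m : SL(2, ℤ)) : Matrix (Fin 2) (Fin 2) ℤ).trace| ≤ 2)
    (v : Place ℂ (FC N)) (hv : 0 < v.ord (jF N - algebraMap ℂ (FC N) a)) :
    ∃ (z : ℍ) (δ : SL(2, ℤ)) (e : ℕ), δ ∈ Gamma0 N ∧ δ • z = z ∧ 0 < e ∧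
      |(δ : Matrix (Fin 2) (Fin 2) ℤ).trace| ≤ 2 ∧
      (∀ h : MerFun, δ • h = h → (e : ℤ) ∣ MerFun.ordMer z h) ∧
      ∀ f, (e : ℤ) * v.ord f = MerFun.ordMer z (embC N f) := by
  set D := embData N with hD
  set y : FC N := jF N - algebraMap ℂ (FC N) a with hy
  have hx := transcendental_jF N
  have hty : Transcendental ℂ y := RH.transcendental_sub_const hx a
  have hy0 : y ≠ 0 := fun h0 => hty (h0 ▸ isAlgebraic_zero)
  have hxy : ℂ⟮y⟯ = ℂ⟮jF N⟯ := RH.adjoin_sub_const (jF N) a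
  have hfd : FiniteDimensional ℂ⟮y⟯ (FC N) :=
    Final.finiteDimensional_congr hxy.symm (finiteDimensional_jF N)
  have P : ZeroPlacesData ℂ y := ZP.zeroPlacesData y hty
  have hperpt : ∀ b : SL(2, ℤ) ⧸ Gamma0 N,
      Function.minimalPeriod (MulAction.toPerm γ : Equiv.Perm (SL(2, ℤ) ⧸ Gamma0 N)) b ∣ m :=
    fun b => Periods.minimalPeriod_toPerm_dvd (hper b)
  have hcases : ∀ b : SL(2, ℤ) ⧸ Gamma0 N,
      Function.minimalPeriod (MulAction.toPerm γ : Equiv.Perm (SL(2, ℤ) ⧸ Gamma0 N)) b = 1 ∨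
      Function.minimalPeriod (MulAction.toPerm γ : Equiv.Perm (SL(2, ℤ) ⧸ Gamma0 N)) b = m := by
    intro b
    rcases hmp with h1 | hp
    · left
      have := hperpt b
      rw [h1] at this
      exact Nat.dvd_one.mp this
    · exact (Nat.dvd_prime hp).mp (hperpt b)
  obtain ⟨β, hsurj, -, -, -, hrel⟩ := placeCountRel (K := ℂ) y hy0 P
    (MulAction.toPerm γ : Equiv.Perm (SL(2, ℤ) ⧸ Gamma0 N)) m hm
    (fun b f => wFin D τ b f) (fun b => isAddVal_wFin D τ b)
    (fun b => by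
      show wFin D τ b y = m
      rw [wFin_jF_sub_const N τ a hτ b, hord])
    (QuotientGroup.mk 1)
    (fun f hf => by
      show ∑ b, wFin D τ b f = wFin D τ _ _
      rw [sum_wFin D (hnorm N) τ (QuotientGroup.mk 1) f hf,
        Final.algebraMap_norm_congr hxy.symm f])
    (fun b f => wFin_smul D τ γ hγ b f) hperpt
    (fun b f hf => by
      show ((m / Function.minimalPeriod
        (MulAction.toPerm γ : Equiv.Perm (SL(2, ℤ) ⧸ Gamma0 N)) b : ℕ) : ℤ) ∣ wFin D τ b f
      rcases hcases b with h1 | h1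
      · rw [h1, Nat.div_one]
        have hfix : γ • b = b := Periods.smul_eq_of_minimalPeriod_eq_one h1
        apply hdiv
        rw [smul_sigma, hfix]
      · rw [h1, Nat.div_self hm]
        simp)
  obtain ⟨b, hb⟩ := hsurj ⟨v, hv⟩
  have hbv : (β b).1 = v := congrArg Subtype.val hb
  induction b using QuotientGroup.induction_on with
  | H g0 =>
  set k := Function.minimalPeriod
    (MulAction.toPerm γ : Equiv.Perm (SL(2, ℤ) ⧸ Gamma0 N)) (QuotientGroup.mk g0) with hk
  have hkm : k ∣ m := hperpt _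
  have hk0 : 0 < k := Nat.pos_of_dvd_of_pos hkm hm
  have hfixk : γ ^ k • (QuotientGroup.mk g0 : SL(2, ℤ) ⧸ Gamma0 N) = QuotientGroup.mk g0 :=
    Periods.pow_minimalPeriod_smul γ _
  refine ⟨g0⁻¹ • τ, g0⁻¹ * γ ^ k * g0, m / k, conj_mem_of_smul_eq N hfixk, ?_,
    Nat.div_pos (Nat.le_of_dvd hm hkm) hk0, ?_, ?_, ?_⟩
  · rw [mul_smul, mul_smul, smul_inv_smul, pow_smul_fixed hγ]
  · rw [trace_conj]
    rcases hcases (QuotientGroup.mk g0) with h1 | h1
    · rw [← hk] at h1
      rw [h1, pow_one]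
      exact htr1
    · rw [← hk] at h1
      rw [h1]
      exact htrm
  · intro h hh
    rcases hcases (QuotientGroup.mk g0) with h1 | h1
    · rw [← hk] at h1
      rw [h1, Nat.div_one]
      rw [h1, pow_one] at hh
      have hinv : γ • (g0 • h) = g0 • h := by
        have : γ * g0 = g0 * (g0⁻¹ * γ * g0) := by group
        rw [← mul_smul, this, mul_smul, hh]
      have := hdiv (g0 • h) hinv
      rwa [MerFun.ordMer_sl_smul] at this
    · rw [← hk] at h1
      rw [h1, Nat.div_self hm]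
      simp
  · intro f
    rcases eq_or_ne f 0 with rfl | hf
    · rw [v.ord_zero, mul_zero, map_zero, MerFun.ordMer_zero]
    · have h := hrel (QuotientGroup.mk g0) f hf
      rw [hbv] at h
      rw [← hk] at h
      rw [h]
      exact wFin_mk D τ g0 f

/-! ### Traces of the elliptic generators -/

theorem trace_S : (S : Matrix (Fin 2) (Fin 2) ℤ).trace = 0 := by
  rw [ModularGroup.coe_S, Matrix.trace_fin_two]
  simp

theorem trace_ST : ((S * T : SL(2, ℤ)) : Matrix (Fin 2) (Fin 2) ℤ).trace = 1 := by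
  rw [Matrix.SpecialLinearGroup.coe_mul, ModularGroup.coe_S, ModularGroup.coe_T,
    Matrix.trace_fin_two]
  simp [Matrix.mul_apply, Fin.sum_univ_two]

theorem trace_neg_one : ((-1 : SL(2, ℤ)) : Matrix (Fin 2) (Fin 2) ℤ).trace = -2 := by
  rw [Matrix.SpecialLinearGroup.coe_neg, Matrix.SpecialLinearGroup.coe_one, Matrix.trace_neg,
    Matrix.trace_one]
  simp

theorem trace_one : ((1 : SL(2, ℤ)) : Matrix (Fin 2) (Fin 2) ℤ).trace = 2 := by
  rw [Matrix.SpecialLinearGroup.coe_one, Matrix.trace_one]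
  simp

/-- The finite places: every place which is not a pole of `j` is a point of `ℍ`. -/
theorem exists_point_of_ord_nonneg (v : Place ℂ (FC N)) (a : ℂ)
    (hv : 0 < v.ord (jF N - algebraMap ℂ (FC N) a)) :
    ∃ (z : ℍ) (δ : SL(2, ℤ)) (e : ℕ), δ ∈ Gamma0 N ∧ δ • z = z ∧ 0 < e ∧
      |(δ : Matrix (Fin 2) (Fin 2) ℤ).trace| ≤ 2 ∧
      (∀ h : MerFun, δ • h = h → (e : ℤ) ∣ MerFun.ordMer z h) ∧
      ∀ f, (e : ℤ) * v.ord f = MerFun.ordMer z (embC N f) := by
  by_cases ha0 : a = 0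
  · subst ha0
    refine exists_point_of_zero N 0 JFun.rho JFun.jFn_rho (S * T) JFun.ST_smul_rho 3
      (by norm_num) (Or.inr Nat.prime_three) ?_ (fun b => Periods.ST_pow_three_smul b)
      (fun h hh => Bridge.three_dvd_ordMer_of_ST h JFun.rho JFun.ST_smul_rho hh) ?_ ?_ v hv
    · rw [Bridge.ordMer_jHol_sub_const, if_pos JFun.jFn_rho]
      rfl
    · rw [trace_ST]; norm_num
    · rw [Comb.ST_cube, trace_neg_one]; norm_num
  · by_cases ha1 : a = 1728
    · subst ha1
      have h1728 : (1728 : ℂ) ≠ 0 := by norm_num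
      refine exists_point_of_zero N 1728 UpperHalfPlane.I JFun.jFn_I S JFun.S_smul_I 2
        (by norm_num) (Or.inr Nat.prime_two) ?_ (fun b => Periods.S_pow_two_smul b)
        (fun h hh => Bridge.two_dvd_ordMer_of_S h UpperHalfPlane.I JFun.S_smul_I hh) ?_ ?_ v hv
      · rw [Bridge.ordMer_jHol_sub_const, JFun.jFn_I, if_neg h1728, if_pos rfl]
        rfl
      · rw [trace_S]; norm_num
      · rw [Comb.S_sq, trace_neg_one]; norm_num
    · obtain ⟨τ, hτ⟩ := JFun.jFn_surjective a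
      have h0 : jFn τ ≠ 0 := by rw [hτ]; exact ha0
      have h1 : jFn τ ≠ 1728 := by rw [hτ]; exact ha1
      refine exists_point_of_zero N a τ hτ 1 (one_smul _ τ) 1 one_pos (Or.inl rfl) ?_
        (fun b => by rw [pow_one, one_smul]) (fun h _ => one_dvd _) ?_ ?_ v hv
      · rw [Bridge.ordMer_jHol_sub_const, if_neg h0, if_neg h1]
        rfl
      · rw [trace_one]; norm_num
      · rw [pow_one, trace_one]; norm_num

/-! ### The cusps -/

theorem isCuspMer_sigma (b : SL(2, ℤ) ⧸ Gamma0 N) (f : FC N) :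
    IsCuspMer N (sigma (embData N) b f) := by
  induction b using QuotientGroup.induction_on with
  | H g =>
    rw [sigma_mk_apply]
    exact isCuspMer_smul_embC N f g

/-- The poles of `j` are cusps. -/
theorem exists_cusp_of_pole (v : Place ℂ (FC N)) (hv : v.ord (jF N) < 0) :
    ∃ (g : SL(2, ℤ)) (w : ℕ), 0 < w ∧ w ∣ N ∧ g⁻¹ * T ^ w * g ∈ Gamma0 N ∧
      ∀ f, ((N / w : ℕ) : ℤ) * v.ord f = ordInfMer N (g • embC N f) := by
  set D := embData N with hD
  have hN : 0 < N := Nat.pos_of_ne_zero (NeZero.ne N)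
  set y : FC N := (jF N)⁻¹ with hy
  have hx := transcendental_jF N
  have hty : Transcendental ℂ y := RH.transcendental_inv hx
  have hy0 : y ≠ 0 := fun h0 => hty (h0 ▸ isAlgebraic_zero)
  have hvy : 0 < v.ord y := by
    rw [hy, v.ord_inv]
    omega
  have hxy : ℂ⟮y⟯ = ℂ⟮jF N⟯ := RH.adjoin_inv (jF N)
  have hfd : FiniteDimensional ℂ⟮y⟯ (FC N) :=
    Final.finiteDimensional_congr hxy.symm (finiteDimensional_jF N)
  have P : ZeroPlacesData ℂ y := ZP.zeroPlacesData y hty
  have hperpt : ∀ b : SL(2, ℤ) ⧸ Gamma0 N,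
      Function.minimalPeriod (MulAction.toPerm T : Equiv.Perm (SL(2, ℤ) ⧸ Gamma0 N)) b ∣ N :=
    fun b => Periods.minimalPeriod_T_dvd b
  obtain ⟨β, hsurj, -, -, -, hrel⟩ := placeCountRel (K := ℂ) y hy0 P
    (MulAction.toPerm T : Equiv.Perm (SL(2, ℤ) ⧸ Gamma0 N)) N hN
    (fun b f => ordInfMer N (sigma D b f))
    (fun b => isAddVal_ordInfMer_comp hN (sigma D b) (fun c : ℂ => c)
      (fun f => isCuspMer_sigma N b f) (fun c => sigma_const D b c))
    (fun b => by
      show ordInfMer N (sigma D b (jF N)⁻¹) = N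
      rw [map_inv₀, sigma_x]
      exact ordInfMer_jHol_inv hN)
    (QuotientGroup.mk 1)
    (fun f hf => by
      show ∑ b, ordInfMer N (sigma D b f) = ordInfMer N (sigma D _ _)
      rw [← Final.algebraMap_norm_congr hxy.symm f, hnorm N _ f,
        AssembleInf.ordInfMer_prod hN _ _ (fun b _ => isCuspMer_sigma N b f)
          (fun b _ => sigma_ne_zero D b hf)])
    (fun b f => by
      show ordInfMer N (sigma D (T • b) f) = ordInfMer N (sigma D b f)
      rw [← smul_sigma, ordInfMer_T_smul hN (isCuspMer_sigma N b f)])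
    hperpt
    (fun b f hf => by
      show ((N / Function.minimalPeriod
        (MulAction.toPerm T : Equiv.Perm (SL(2, ℤ) ⧸ Gamma0 N)) b : ℕ) : ℤ) ∣
          ordInfMer N (sigma D b f)
      refine dvd_ordInfMer hN (hperpt b) (isCuspMer_sigma N b f) ?_
      rw [smul_sigma, Periods.pow_minimalPeriod_smul])
  obtain ⟨b, hb⟩ := hsurj ⟨v, hvy⟩
  have hbv : (β b).1 = v := congrArg Subtype.val hb
  induction b using QuotientGroup.induction_on with
  | H g0 =>
  set w := Function.minimalPeriod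
    (MulAction.toPerm T : Equiv.Perm (SL(2, ℤ) ⧸ Gamma0 N)) (QuotientGroup.mk g0) with hw
  have hwN : w ∣ N := hperpt _
  have hw0 : 0 < w := Nat.pos_of_dvd_of_pos hwN hN
  have hfixw : T ^ w • (QuotientGroup.mk g0 : SL(2, ℤ) ⧸ Gamma0 N) = QuotientGroup.mk g0 :=
    Periods.pow_minimalPeriod_smul T _
  refine ⟨g0, w, hw0, hwN, conj_mem_of_smul_eq N hfixw, ?_⟩
  intro f
  rcases eq_or_ne f 0 with rfl | hf
  · rw [v.ord_zero, mul_zero, map_zero, smul_zero, ordInfMer_zero]
  · have h := hrel (QuotientGroup.mk g0) f hf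
    rw [hbv] at h
    rw [← hw] at h
    rw [h]
    rfl

/-! ### D2: every place is a point of `ℍ` or a cusp -/

/-- **D2.** Every place of the function field of `X₀(N)` over `ℂ` is either a point of `ℍ`
(with `e` the order of its stabiliser in `Γ₀(N) / ±1`) or a cusp (of width `w`). -/
theorem place_cases (v : Place ℂ (FC N)) :
    (∃ (z : ℍ) (δ : SL(2, ℤ)) (e : ℕ), δ ∈ Gamma0 N ∧ δ • z = z ∧ 0 < e ∧
      |(δ : Matrix (Fin 2) (Fin 2) ℤ).trace| ≤ 2 ∧
      (∀ h : MerFun, δ • h = h → (e : ℤ) ∣ MerFun.ordMer z h) ∧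
      ∀ f, (e : ℤ) * v.ord f = MerFun.ordMer z (embC N f)) ∨
    (∃ (g : SL(2, ℤ)) (w : ℕ), 0 < w ∧ w ∣ N ∧ g⁻¹ * T ^ w * g ∈ Gamma0 N ∧
      ∀ f, ((N / w : ℕ) : ℤ) * v.ord f = ordInfMer N (g • embC N f)) := by
  rcases PD.ord_neg_or_existsUnique_fibre (transcendental_jF N) v with h | ⟨a, ha, -⟩
  · exact Or.inr (exists_cusp_of_pole N v h)
  · exact Or.inl (exists_point_of_ord_nonneg N v a ha)

/-! ### D3 (weak form): points and cusps give places -/

/-- Every point of `ℍ` gives a place. -/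
theorem exists_place_of_point (z : ℍ) :
    ∃ (v : Place ℂ (FC N)) (c : ℕ), 0 < c ∧
      ∀ f, f ≠ 0 → (c : ℤ) * v.ord f = MerFun.ordMer z (embC N f) := by
  have hw : IsAddVal ℂ (fun f : FC N => MerFun.ordMer z (embC N f)) := by
    have h := isAddVal_wFin (embData N) z (QuotientGroup.mk 1)
    have he : (fun f : FC N => MerFun.ordMer z (embC N f)) =
        wFin (embData N) z (QuotientGroup.mk 1) := by
      funext f
      rw [wFin_mk, inv_one, one_smul]
      rfl
    rw [he]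
    exact h
  have hnt : ∃ f : FC N, f ≠ 0 ∧ MerFun.ordMer z (embC N f) ≠ 0 := by
    refine ⟨jF N - algebraMap ℂ (FC N) (jFn z), ?_, ?_⟩
    · intro h0
      exact RH.transcendental_sub_const (transcendental_jF N) (jFn z) (h0 ▸ isAlgebraic_zero)
    · rw [map_sub, embC_jF, embC_const, Conj.const, ← map_sub, Bridge.ordMer_jHol_sub_const]
      split_ifs <;> norm_num
  obtain ⟨v, c, hc, h⟩ := hw.exists_place hnt
  exact ⟨v, c, hc, fun f hf => (h f hf).symm⟩

/-- Every cusp gives a place. -/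
theorem exists_place_of_cusp (g : SL(2, ℤ)) :
    ∃ (v : Place ℂ (FC N)) (c : ℕ), 0 < c ∧
      ∀ f, f ≠ 0 → (c : ℤ) * v.ord f = ordInfMer N (g • embC N f) := by
  have hN : 0 < N := Nat.pos_of_ne_zero (NeZero.ne N)
  have hw : IsAddVal ℂ (fun f : FC N => ordInfMer N (g • embC N f)) :=
    isAddVal_ordInfMer_comp hN (sigma (embData N) (QuotientGroup.mk g)) (fun c : ℂ => c)
      (fun f => isCuspMer_sigma N _ f) (fun c => sigma_const (embData N) _ c)
  have hnt : ∃ f : FC N, f ≠ 0 ∧ ordInfMer N (g • embC N f) ≠ 0 := by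
    refine ⟨jF N, ?_, ?_⟩
    · intro h0
      exact transcendental_jF N (h0 ▸ isAlgebraic_zero)
    · rw [embC_jF, MerFun.sl_smul_algebraMap, sl_smul_jHol, ordInfMer_jHol hN]
      have : (0 : ℤ) < N := by exact_mod_cast hN
      omega
  obtain ⟨v, c, hc, h⟩ := hw.exists_place hnt
  exact ⟨v, c, hc, fun f hf => (h f hf).symm⟩

end Fermat.Agent.Gateway.Dict.PlacesC
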