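/-
P-GATEWAY, WP-DICT piece [G3] (helper24): explicit representatives of the left cosets of
`Γ₀(N ℓ)` in `Γ₀(N)` for a prime `ℓ ∤ N`.

With `ℓ s - N q = 1` (Bezout), put
  `γ_b = [[N b + s ℓ, -(b + q)], [-N, 1]]`,   `γ_b⁻¹ = [[1, b + q], [N, N b + s ℓ]]`   (`b : ℤ`),
  `δ = [[ℓ, q], [N, s]] ∈ Γ₀(N)`.
Then `diag(ℓ, 1) * γ_b⁻¹ = δ * [[1, b], [0, ℓ]]` as integer matrices, and the cosets
`1 · Γ₀(N ℓ)`, `γ_b Γ₀(N ℓ)` (`b` mod `ℓ`) are pairwise distinct and exhaust `Γ₀(N)`.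
-/
import Mathlib

set_option autoImplicit false

noncomputable section

open CongruenceSubgroup MatrixGroups

namespace Fermat.Agent.Gateway.Dict.CosetsP1

theorem mem_Gamma0_iff_dvd {N : ℕ} {A : SL(2, ℤ)} : A ∈ Gamma0 N ↔ (N : ℤ) ∣ A.1 1 0 := by
  rw [Gamma0_mem, ZMod.intCast_zmod_eq_zero_iff_dvd]

variable (N ℓ : ℕ)

/-- Bezout coefficient `s` with `ℓ s - N q = 1`. -/
def sB : ℤ := Int.gcdA ℓ N

/-- Bezout coefficient `q` with `ℓ s - N q = 1`. -/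
def qB : ℤ := -Int.gcdB ℓ N

theorem bezout (h : Nat.Coprime ℓ N) : (ℓ : ℤ) * sB N ℓ - N * qB N ℓ = 1 := by
  have h1 := Int.gcd_eq_gcd_ab (ℓ : ℤ) (N : ℤ)
  rw [Int.gcd_natCast_natCast, h] at h1
  rw [sB, qB]
  push_cast at h1
  linarith

variable {N ℓ}

/-- The representative `γ_b = [[N b + s ℓ, -(b + q)], [-N, 1]]`. -/
def rep (h : Nat.Coprime ℓ N) (b : ℤ) : SL(2, ℤ) :=
  ⟨!![(N : ℤ) * b + sB N ℓ * ℓ, -(b + qB N ℓ); -(N : ℤ), 1], by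
    rw [Matrix.det_fin_two_of]
    have := bezout N ℓ h
    linarith⟩

/-- The inverse `γ_b⁻¹ = [[1, b + q], [N, N b + s ℓ]]`. -/
def repInv (h : Nat.Coprime ℓ N) (b : ℤ) : SL(2, ℤ) :=
  ⟨!![1, b + qB N ℓ; (N : ℤ), (N : ℤ) * b + sB N ℓ * ℓ], by
    rw [Matrix.det_fin_two_of]
    have := bezout N ℓ h
    linarith⟩

/-- The matrix `δ = [[ℓ, q], [N, s]] ∈ Γ₀(N)`. -/
def delta (h : Nat.Coprime ℓ N) : SL(2, ℤ) :=
  ⟨!![(ℓ : ℤ), qB N ℓ; (N : ℤ), sB N ℓ], by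
    rw [Matrix.det_fin_two_of]
    have := bezout N ℓ h
    linarith⟩

theorem coe_rep (h : Nat.Coprime ℓ N) (b : ℤ) :
    ((rep h b : SL(2, ℤ)) : Matrix (Fin 2) (Fin 2) ℤ)
      = !![(N : ℤ) * b + sB N ℓ * ℓ, -(b + qB N ℓ); -(N : ℤ), 1] := rfl

theorem coe_repInv (h : Nat.Coprime ℓ N) (b : ℤ) :
    ((repInv h b : SL(2, ℤ)) : Matrix (Fin 2) (Fin 2) ℤ)
      = !![1, b + qB N ℓ; (N : ℤ), (N : ℤ) * b + sB N ℓ * ℓ] := rfl

theorem coe_delta (h : Nat.Coprime ℓ N) :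
    ((delta h : SL(2, ℤ)) : Matrix (Fin 2) (Fin 2) ℤ)
      = !![(ℓ : ℤ), qB N ℓ; (N : ℤ), sB N ℓ] := rfl

theorem rep_inv (h : Nat.Coprime ℓ N) (b : ℤ) : (rep h b)⁻¹ = repInv h b := by
  rw [Matrix.SpecialLinearGroup.SL2_inv_expl]
  apply Subtype.ext
  simp only [coe_rep, coe_repInv]
  ext i j
  fin_cases i <;> fin_cases j <;> simp

theorem repInv_inv (h : Nat.Coprime ℓ N) (b : ℤ) : (repInv h b)⁻¹ = rep h b := by
  rw [← rep_inv, inv_inv]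

theorem delta_mem (h : Nat.Coprime ℓ N) : delta h ∈ Gamma0 N := by
  rw [mem_Gamma0_iff_dvd, coe_delta]
  simp

theorem rep_mem (h : Nat.Coprime ℓ N) (b : ℤ) : rep h b ∈ Gamma0 N := by
  rw [mem_Gamma0_iff_dvd, coe_rep]
  simp

theorem repInv_mem (h : Nat.Coprime ℓ N) (b : ℤ) : repInv h b ∈ Gamma0 N := by
  rw [mem_Gamma0_iff_dvd, coe_repInv]
  simp

/-- **The matrix identity** `diag(ℓ, 1) * γ_b⁻¹ = δ * [[1, b], [0, ℓ]]`. -/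
theorem diag_mul_rep_inv (h : Nat.Coprime ℓ N) (b : ℤ) :
    !![(ℓ : ℤ), 0; 0, 1] * ((rep h b)⁻¹ : SL(2, ℤ)).1
      = (delta h : SL(2, ℤ)).1 * !![1, b; 0, (ℓ : ℤ)] := by
  rw [rep_inv, coe_repInv, coe_delta]
  ext i j
  fin_cases i <;> fin_cases j <;> simp [Matrix.mul_apply, Fin.sum_univ_two] <;> ring

/-- `γ_b = T^(-b) γ_0`. -/
theorem rep_eq_T_zpow_mul (h : Nat.Coprime ℓ N) (b : ℤ) :
    rep h b = ModularGroup.T ^ (-b) * rep h 0 := by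
  apply Subtype.ext
  rw [Matrix.SpecialLinearGroup.coe_mul, ModularGroup.coe_T_zpow, coe_rep, coe_rep]
  ext i j
  fin_cases i <;> fin_cases j <;> simp [Matrix.mul_apply, Fin.sum_univ_two] <;> ring

/-! ### The cosets -/

/-- The subgroup `Γ₀(N ℓ)` of `Γ₀(N)`. -/
abbrev sub (N ℓ : ℕ) : Subgroup ↥(Gamma0 N) := (Gamma0 (N * ℓ)).subgroupOf (Gamma0 N)

/-- `γ_b` as an element of `Γ₀(N)`. -/
def repG (h : Nat.Coprime ℓ N) (b : ℤ) : ↥(Gamma0 N) := ⟨rep h b, rep_mem h b⟩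

/-- `δ` as an element of `Γ₀(N)`. -/
def deltaG (h : Nat.Coprime ℓ N) : ↥(Gamma0 N) := ⟨delta h, delta_mem h⟩

@[simp] theorem coe_repG (h : Nat.Coprime ℓ N) (b : ℤ) : ((repG h b : ↥(Gamma0 N)) : SL(2, ℤ)) = rep h b :=
  rfl

@[simp] theorem coe_deltaG (h : Nat.Coprime ℓ N) : ((deltaG h : ↥(Gamma0 N)) : SL(2, ℤ)) = delta h :=
  rfl

theorem mk_eq_mk_iff (g g' : ↥(Gamma0 N)) :
    (QuotientGroup.mk g : ↥(Gamma0 N) ⧸ sub N ℓ) = QuotientGroup.mk g' ↔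
      ((N * ℓ : ℕ) : ℤ) ∣ ((g : SL(2, ℤ))⁻¹ * (g' : SL(2, ℤ))).1 1 0 := by
  rw [QuotientGroup.eq, Subgroup.mem_subgroupOf, mem_Gamma0_iff_dvd]
  rfl

theorem lowerLeft_inv_mul (A B : SL(2, ℤ)) :
    (A⁻¹ * B).1 1 0 = A.1 0 0 * B.1 1 0 - A.1 1 0 * B.1 0 0 := by
  rw [Matrix.SpecialLinearGroup.coe_mul, Matrix.SpecialLinearGroup.coe_inv,
    Matrix.adjugate_fin_two, Matrix.mul_apply, Fin.sum_univ_two]
  simp
  ring

/-- `g Γ₀(Nℓ) = γ_b Γ₀(Nℓ)` iff `ℓ ∣ a + b c` where `g = [[a, *], [c, *]]`. -/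
theorem mk_eq_mk_repG_iff (h : Nat.Coprime ℓ N) (g : ↥(Gamma0 N)) (b : ℤ) :
    (QuotientGroup.mk g : ↥(Gamma0 N) ⧸ sub N ℓ) = QuotientGroup.mk (repG h b) ↔
      (ℓ : ℤ) ∣ (g : SL(2, ℤ)).1 0 0 + b * (g : SL(2, ℤ)).1 1 0 := by
  obtain ⟨c', hc'⟩ := mem_Gamma0_iff_dvd.mp g.2
  rw [mk_eq_mk_iff, lowerLeft_inv_mul, coe_repG, coe_rep, hc']
  simp only [Matrix.of_apply, Matrix.cons_val', Matrix.cons_val_zero, Matrix.cons_val_one,
    Matrix.cons_val_fin_one]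
  have e : (g : SL(2, ℤ)).1 0 0 * -(N : ℤ) - (N : ℤ) * c' * ((N : ℤ) * b + sB N ℓ * ℓ)
      = (N : ℤ) * -((g : SL(2, ℤ)).1 0 0 + b * ((N : ℤ) * c') + (ℓ : ℤ) * (c' * sB N ℓ)) := by
    ring
  rw [e]
  push_cast
  rcases Nat.eq_zero_or_pos N with hN | hN
  · subst hN
    have hl : ℓ = 1 := by simpa using h
    subst hl
    simp
  · have hN' : (N : ℤ) ≠ 0 := by exact_mod_cast hN.ne'
    rw [mul_dvd_mul_iff_left hN', dvd_neg]
    exact dvd_add_left (Dvd.intro _ rfl)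

/-- `g Γ₀(Nℓ) = Γ₀(Nℓ)` iff `ℓ ∣ c` where `g = [[*, *], [c, *]]`. -/
theorem mk_eq_mk_one_iff (h : Nat.Coprime ℓ N) (g : ↥(Gamma0 N)) :
    (QuotientGroup.mk g : ↥(Gamma0 N) ⧸ sub N ℓ) = QuotientGroup.mk 1 ↔
      (ℓ : ℤ) ∣ (g : SL(2, ℤ)).1 1 0 := by
  have hN := mem_Gamma0_iff_dvd.mp g.2
  rw [mk_eq_mk_iff, lowerLeft_inv_mul]
  simp only [OneMemClass.coe_one, Matrix.SpecialLinearGroup.coe_one, Matrix.one_apply_eq,
    ne_eq, one_ne_zero, not_false_eq_true, Matrix.one_apply_ne, mul_zero, mul_one, zero_sub,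
    dvd_neg]
  push_cast
  constructor
  · exact fun h1 => (dvd_mul_left _ _).trans h1
  · intro h1
    have hcop : IsCoprime (N : ℤ) (ℓ : ℤ) := by
      rw [Int.isCoprime_iff_gcd_eq_one, Int.gcd_natCast_natCast]
      exact h.symm
    exact hcop.mul_dvd hN h1

/-- The map `P¹(𝔽_ℓ) → Γ₀(N) / Γ₀(Nℓ)`: `∞ ↦ 1`, `b ↦ γ_b`. -/
def cosetMap (h : Nat.Coprime ℓ N) : OnePoint (ZMod ℓ) → ↥(Gamma0 N) ⧸ sub N ℓ
  | none => QuotientGroup.mk 1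
  | some b => QuotientGroup.mk (repG h (b.val : ℤ))

@[simp] theorem cosetMap_infty (h : Nat.Coprime ℓ N) :
    cosetMap h (OnePoint.infty : OnePoint (ZMod ℓ)) = QuotientGroup.mk 1 := rfl

@[simp] theorem cosetMap_coe (h : Nat.Coprime ℓ N) (b : ZMod ℓ) :
    cosetMap h (b : OnePoint (ZMod ℓ)) = QuotientGroup.mk (repG h (b.val : ℤ)) := rfl

/-- The coset of `γ_b` only depends on `b` mod `ℓ`. -/
theorem mk_repG_eq_iff (h : Nat.Coprime ℓ N) (b b' : ℤ) :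
    (QuotientGroup.mk (repG h b) : ↥(Gamma0 N) ⧸ sub N ℓ) = QuotientGroup.mk (repG h b') ↔
      (ℓ : ℤ) ∣ b - b' := by
  rw [mk_eq_mk_repG_iff, coe_repG, coe_rep]
  simp only [Matrix.of_apply, Matrix.cons_val', Matrix.cons_val_zero, Matrix.cons_val_one,
    Matrix.cons_val_fin_one]
  have e : (N : ℤ) * b + sB N ℓ * ℓ + b' * -(N : ℤ) = (N : ℤ) * (b - b') + ℓ * sB N ℓ := by ring
  rw [e, dvd_add_left (Dvd.intro _ rfl)]
  have hcop : IsCoprime (ℓ : ℤ) (N : ℤ) := by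
    rw [Int.isCoprime_iff_gcd_eq_one, Int.gcd_natCast_natCast]
    exact h
  exact ⟨fun h1 => hcop.dvd_of_dvd_mul_left h1, fun h1 => h1.mul_left _⟩

theorem mk_repG_ne_one (h : Nat.Coprime ℓ N) (hl : ℓ ≠ 1) (b : ℤ) :
    (QuotientGroup.mk (repG h b) : ↥(Gamma0 N) ⧸ sub N ℓ) ≠ QuotientGroup.mk 1 := by
  rw [Ne, mk_eq_mk_one_iff h, coe_repG, coe_rep]
  simp only [Matrix.of_apply, Matrix.cons_val', Matrix.cons_val_zero, Matrix.cons_val_one,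
    Matrix.cons_val_fin_one, dvd_neg]
  intro h1
  have h2 : ℓ ∣ N := by exact_mod_cast h1
  have h3 : ℓ ∣ Nat.gcd ℓ N := Nat.dvd_gcd dvd_rfl h2
  rw [h] at h3
  exact hl (Nat.dvd_one.mp h3)

theorem cosetMap_injective [NeZero ℓ] (h : Nat.Coprime ℓ N) (hl : ℓ ≠ 1) :
    Function.Injective (cosetMap (N := N) (ℓ := ℓ) h) := by
  intro x y hxy
  rcases x with _ | b <;> rcases y with _ | b'
  · rfl
  · exact absurd hxy.symm (mk_repG_ne_one h hl _)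
  · exact absurd hxy (mk_repG_ne_one h hl _)
  · change (QuotientGroup.mk (repG h (b.val : ℤ)) : ↥(Gamma0 N) ⧸ sub N ℓ)
      = QuotientGroup.mk (repG h (b'.val : ℤ)) at hxy
    rw [mk_repG_eq_iff h] at hxy
    have h2 : ((b.val : ℤ) : ZMod ℓ) = ((b'.val : ℤ) : ZMod ℓ) := by
      rw [ZMod.intCast_eq_intCast_iff_dvd_sub]
      rw [← dvd_neg] at hxy
      simpa using hxy
    rw [Int.cast_natCast, Int.cast_natCast, ZMod.natCast_zmod_val, ZMod.natCast_zmod_val] at h2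
    rw [h2]

theorem cosetMap_surjective (h : Nat.Coprime ℓ N) (hl : ℓ.Prime) :
    Function.Surjective (cosetMap (N := N) (ℓ := ℓ) h) := by
  have : Fact ℓ.Prime := ⟨hl⟩
  intro x
  induction x using QuotientGroup.induction_on with
  | H g =>
    by_cases hc : (ℓ : ℤ) ∣ (g : SL(2, ℤ)).1 1 0
    · exact ⟨OnePoint.infty, ((mk_eq_mk_one_iff h g).mpr hc).symm⟩
    · have hc' : (((g : SL(2, ℤ)).1 1 0 : ℤ) : ZMod ℓ) ≠ 0 := by
        rwa [Ne, ZMod.intCast_zmod_eq_zero_iff_dvd]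
      refine ⟨((-(((g : SL(2, ℤ)).1 0 0 : ℤ) : ZMod ℓ) / (((g : SL(2, ℤ)).1 1 0 : ℤ) : ZMod ℓ)
        : ZMod ℓ) : OnePoint (ZMod ℓ)), ?_⟩
      rw [cosetMap_coe, eq_comm, mk_eq_mk_repG_iff, ← ZMod.intCast_zmod_eq_zero_iff_dvd]
      push_cast
      rw [ZMod.natCast_val, ZMod.cast_id', id_eq, div_mul_cancel₀ _ hc']
      ring

theorem cosetMap_bijective (hl : ℓ.Prime) (hlN : ¬ ℓ ∣ N) :
    Function.Bijective (cosetMap (N := N) (ℓ := ℓ) ((Nat.Prime.coprime_iff_not_dvd hl).mpr hlN)) :=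
  have : NeZero ℓ := ⟨hl.ne_zero⟩
  ⟨cosetMap_injective _ hl.ne_one, cosetMap_surjective _ hl⟩

/-- **The coset representatives**: `P¹(𝔽_ℓ) ≃ Γ₀(N) / Γ₀(Nℓ)`, `∞ ↦ 1`, `b ↦ γ_b`. -/
def cosetEquiv (hl : ℓ.Prime) (hlN : ¬ ℓ ∣ N) : OnePoint (ZMod ℓ) ≃ ↥(Gamma0 N) ⧸ sub N ℓ :=
  Equiv.ofBijective _ (cosetMap_bijective hl hlN)

@[simp] theorem cosetEquiv_infty (hl : ℓ.Prime) (hlN : ¬ ℓ ∣ N) :
    cosetEquiv hl hlN (OnePoint.infty : OnePoint (ZMod ℓ)) = QuotientGroup.mk 1 := rfl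

@[simp] theorem cosetEquiv_coe (hl : ℓ.Prime) (hlN : ¬ ℓ ∣ N) (b : ZMod ℓ) :
    cosetEquiv hl hlN (b : OnePoint (ZMod ℓ))
      = QuotientGroup.mk (repG ((Nat.Prime.coprime_iff_not_dvd hl).mpr hlN) (b.val : ℤ)) := rfl

/-- The index is `ℓ + 1`; a `Fintype` structure on the quotient. -/
@[instance_reducible] def fintypeQuot (hl : ℓ.Prime) (hlN : ¬ ℓ ∣ N) : Fintype (↥(Gamma0 N) ⧸ sub N ℓ) :=
  have : NeZero ℓ := ⟨hl.ne_zero⟩
  Fintype.ofEquiv _ (cosetEquiv hl hlN)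

theorem card_quot (hl : ℓ.Prime) (hlN : ¬ ℓ ∣ N) [Fintype (↥(Gamma0 N) ⧸ sub N ℓ)] :
    Fintype.card (↥(Gamma0 N) ⧸ sub N ℓ) = ℓ + 1 := by
  have : NeZero ℓ := ⟨hl.ne_zero⟩
  rw [← Fintype.card_congr (cosetEquiv hl hlN)]
  change Fintype.card (Option (ZMod ℓ)) = ℓ + 1
  rw [Fintype.card_option, ZMod.card]

/-- **Products over the cosets**: `∏_c f c = f(1) * ∏_{b mod ℓ} f(γ_b)`. -/
theorem prod_quot {M : Type*} [CommMonoid M] (hl : ℓ.Prime) (hlN : ¬ ℓ ∣ N)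
    [Fintype (↥(Gamma0 N) ⧸ sub N ℓ)] [NeZero ℓ] (f : ↥(Gamma0 N) ⧸ sub N ℓ → M) :
    ∏ c, f c = f (QuotientGroup.mk 1) *
      ∏ b : ZMod ℓ, f (QuotientGroup.mk
        (repG ((Nat.Prime.coprime_iff_not_dvd hl).mpr hlN) (b.val : ℤ))) := by
  rw [← Equiv.prod_comp (cosetEquiv hl hlN) f]
  change ∏ x : Option (ZMod ℓ), f (cosetEquiv hl hlN x) = _
  rw [Fintype.prod_option]
  rfl

/-- Sums/products over `ZMod ℓ` through `val` are sums/products over `Finset.range ℓ`. -/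
theorem prod_zmod_val {M : Type*} [CommMonoid M] [NeZero ℓ] (g : ℕ → M) :
    ∏ b : ZMod ℓ, g b.val = ∏ b ∈ Finset.range ℓ, g b := by
  refine Finset.prod_nbij' (fun b => b.val) (fun n => (n : ZMod ℓ)) ?_ ?_ ?_ ?_ ?_
  · intro a _
    exact Finset.mem_range.mpr (ZMod.val_lt a)
  · intro n _
    exact Finset.mem_univ _
  · intro a _
    exact ZMod.natCast_zmod_val a
  · intro n hn
    exact ZMod.val_natCast_of_lt (Finset.mem_range.mp hn)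
  · intro a _
    rfl

/-- **Products over the cosets**, `Finset.range` form:
`∏_c f c = f(1) * ∏_{b < ℓ} f(γ_b)`. -/
theorem prod_quot_range {M : Type*} [CommMonoid M] (hl : ℓ.Prime) (hlN : ¬ ℓ ∣ N)
    [Fintype (↥(Gamma0 N) ⧸ sub N ℓ)] (f : ↥(Gamma0 N) ⧸ sub N ℓ → M) :
    ∏ c, f c = f (QuotientGroup.mk 1) *
      ∏ b ∈ Finset.range ℓ, f (QuotientGroup.mk
        (repG ((Nat.Prime.coprime_iff_not_dvd hl).mpr hlN) (b : ℤ))) := by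
  have : NeZero ℓ := ⟨hl.ne_zero⟩
  rw [prod_quot hl hlN, prod_zmod_val (fun n : ℕ => f (QuotientGroup.mk
    (repG ((Nat.Prime.coprime_iff_not_dvd hl).mpr hlN) (n : ℤ))))]

/-- The representatives as a function `P¹(𝔽_ℓ) → Γ₀(N)`: `∞ ↦ 1`, `b ↦ γ_b`. -/
def repFun (h : Nat.Coprime ℓ N) : OnePoint (ZMod ℓ) → ↥(Gamma0 N)
  | none => 1
  | some b => repG h (b.val : ℤ)

@[simp] theorem repFun_infty (h : Nat.Coprime ℓ N) :
    repFun h (OnePoint.infty : OnePoint (ZMod ℓ)) = 1 := rfl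

@[simp] theorem repFun_coe (h : Nat.Coprime ℓ N) (b : ZMod ℓ) :
    repFun h (b : OnePoint (ZMod ℓ)) = repG h (b.val : ℤ) := rfl

theorem mk_repFun (h : Nat.Coprime ℓ N) (x : OnePoint (ZMod ℓ)) :
    (QuotientGroup.mk (repFun h x) : ↥(Gamma0 N) ⧸ sub N ℓ) = cosetMap h x := by
  rcases x with _ | b <;> rfl

/-- The representatives `repFun` form a complete system of representatives of
`Γ₀(N) / Γ₀(N ℓ)` (the shape used by `NormAlpha.embC_norm_alpha_of_bijective'`). -/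
theorem repFun_bijective (hl : ℓ.Prime) (hlN : ¬ ℓ ∣ N) :
    Function.Bijective fun x : OnePoint (ZMod ℓ) =>
      (QuotientGroup.mk (repFun ((Nat.Prime.coprime_iff_not_dvd hl).mpr hlN) x) :
        ↥(Gamma0 N) ⧸ sub N ℓ) := by
  have e : (fun x : OnePoint (ZMod ℓ) =>
      (QuotientGroup.mk (repFun ((Nat.Prime.coprime_iff_not_dvd hl).mpr hlN) x) :
        ↥(Gamma0 N) ⧸ sub N ℓ)) = cosetMap ((Nat.Prime.coprime_iff_not_dvd hl).mpr hlN) :=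
    funext fun x => mk_repFun _ x
  rw [e]
  exact cosetMap_bijective hl hlN

/-- Products over the representatives: `∏_x F (repFun x) = F 1 * ∏_{b < ℓ} F γ_b`. -/
theorem prod_repFun {M : Type*} [CommMonoid M] [NeZero ℓ] (h : Nat.Coprime ℓ N)
    (F : ↥(Gamma0 N) → M) :
    ∏ x : OnePoint (ZMod ℓ), F (repFun h x)
      = F 1 * ∏ b ∈ Finset.range ℓ, F (repG h (b : ℤ)) := by
  change ∏ x : Option (ZMod ℓ), F (repFun h x) = _
  rw [Fintype.prod_option, ← prod_zmod_val (fun n : ℕ => F (repG h (n : ℤ)))]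
  rfl

end Fermat.Agent.Gateway.Dict.CosetsP1
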