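import Mathlib
import Fermat.Agent.S24.QExp
import Fermat.Agent.Gateway.Kummer.Twist

/-!
helper46 (P-GATEWAY, WP-DICT, piece [G4]-prep).  Real translations `z ↦ z + t` on the algebra
`PerFun` of holomorphic `1`-periodic functions of moderate growth, and their effect on Laurent
`q`-expansions: `qLaurent (f (z + t)) = twist (e^{2πit}) (qLaurent f)`, where `twist ζ` is the
substitution `q ↦ ζ q` (`Fermat.Agent.Gateway.Kummer.twist`).

This is the analogue of the section `Scale` of `S24/QExp.lean`.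
-/

set_option autoImplicit false

open Complex Filter Function
open UpperHalfPlane hiding I
open scoped Manifold MatrixGroups Topology Real

namespace Fermat.Agent.Gateway.Dict.QExpTranslate

open Fermat.Agent.S24 Fermat.Agent.S24.QExp Fermat.Agent.Gateway.Kummer

local notation "𝕢" => Periodic.qParam

/-- The unit `e^{2πit}` of `ℂ`. -/
noncomputable def zetaR (t : ℝ) : ℂˣ := Units.mk0 (Complex.exp (2 * π * I * t)) (Complex.exp_ne_zero _)

@[simp] theorem coe_zetaR (t : ℝ) : ((zetaR t : ℂˣ) : ℂ) = Complex.exp (2 * π * I * t) := rfl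

theorem norm_zetaR (t : ℝ) : ‖((zetaR t : ℂˣ) : ℂ)‖ = 1 := by
  rw [coe_zetaR, Complex.norm_exp]
  simp

variable {t : ℝ} {φ : ℍ → ℍ}

theorem im_translate (hφ : ∀ z, (φ z : ℂ) = z + t) (z : ℍ) : (φ z).im = z.im := by
  have := congrArg Complex.im (hφ z)
  simpa using this

theorem qH_translate (hφ : ∀ z, (φ z : ℂ) = z + t) (z : ℍ) :
    qH (φ z) = (zetaR t : ℂ) * qH z := by
  simp only [qH, Periodic.qParam, hφ, ofReal_one, div_one, coe_zetaR]
  rw [← Complex.exp_add]
  congr 1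
  ring

theorem tendsto_translate (hφ : ∀ z, (φ z : ℂ) = z + t) : Tendsto φ atImInfty atImInfty := by
  rw [atImInfty, tendsto_comap_iff]
  have : (UpperHalfPlane.im ∘ φ) = fun z => z.im := funext (im_translate hφ)
  rw [this]
  exact tendsto_comap

theorem mdiff_translate (hφ : ∀ z, (φ z : ℂ) = z + t) {f : ℍ → ℂ} (hf : MDiff f) :
    MDiff (f ∘ φ) := by
  rw [UpperHalfPlane.mdifferentiable_iff] at hf ⊢
  have hmaps : Set.MapsTo (fun w : ℂ => w + (t : ℂ)) {z | 0 < z.im} {z | 0 < z.im} := by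
    intro w hw
    simpa using hw
  have h1 : DifferentiableOn ℂ ((f ∘ ofComplex) ∘ fun w : ℂ => w + (t : ℂ)) {z | 0 < z.im} :=
    hf.comp (by fun_prop) hmaps
  refine h1.congr fun w hw => ?_
  have hw' : 0 < (w + (t : ℂ)).im := hmaps hw
  simp only [comp_apply]
  rw [ofComplex_apply_of_im_pos hw, ofComplex_apply_of_im_pos hw']
  congr 1
  ext
  simp [hφ]

theorem isPer_translate (hφ : ∀ z, (φ z : ℂ) = z + t) {f : ℍ → ℂ} (hf : IsPer 1 f) :
    IsPer 1 (f ∘ φ) := by
  intro z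
  simp only [comp_apply]
  rw [← hf (φ z)]
  congr 1
  ext
  simp [hφ]
  ring

theorem bdd_translate (hφ : ∀ z, (φ z : ℂ) = z + t) {f : ℍ → ℂ} (hf : IsBoundedAtImInfty f) :
    IsBoundedAtImInfty (f ∘ φ) :=
  Asymptotics.IsBigO.comp_tendsto hf (tendsto_translate hφ)

theorem Nice.translate (hφ : ∀ z, (φ z : ℂ) = z + t) {f : ℍ → ℂ} (hf : Nice f) :
    Nice (f ∘ φ) :=
  ⟨mdiff_translate hφ hf.mdiff, isPer_translate hφ hf.per, bdd_translate hφ hf.bdd⟩

/-- The power series `P(ζ X)`. -/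
noncomputable def psTwist (ζ : ℂ) (P : PowerSeries ℂ) : PowerSeries ℂ :=
  PowerSeries.mk fun n => ζ ^ n * P.coeff n

theorem Nice.qExpansion_translate (hφ : ∀ z, (φ z : ℂ) = z + t) {f : ℍ → ℂ} (hf : Nice f) :
    qExpansion 1 (f ∘ φ) = psTwist (zetaR t : ℂ) (qExpansion 1 f) := by
  refine (Nice.translate hφ hf).qExpansion_unique fun τ => ?_
  have h1 := hf.hasSum (φ τ)
  have h2 : (fun m : ℕ => (((zetaR t : ℂˣ) : ℂ) ^ m * (qExpansion 1 f).coeff m) • qH τ ^ m) =
      fun m : ℕ => (qExpansion 1 f).coeff m • qH (φ τ) ^ m := by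
    funext m
    rw [qH_translate hφ, mul_pow, smul_eq_mul, smul_eq_mul]
    ring
  rw [h2]
  exact h1

theorem twist_ofPowerSeries (ζ : ℂˣ) (P : PowerSeries ℂ) :
    twist ζ (HahnSeries.ofPowerSeries ℤ ℂ P) =
      HahnSeries.ofPowerSeries ℤ ℂ (psTwist (ζ : ℂ) P) := by
  ext k
  rw [twist_coeff]
  rcases le_or_gt 0 k with hk | hk
  · lift k to ℕ using hk
    rw [HahnSeries.ofPowerSeries_apply_coeff, HahnSeries.ofPowerSeries_apply_coeff, psTwist,
      PowerSeries.coeff_mk, zpow_natCast, Units.val_pow_eq_pow_val]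
  · rw [ModularCurve.ofPowerSeries_coeff_of_neg _ hk, ModularCurve.ofPowerSeries_coeff_of_neg _ hk,
      mul_zero]

theorem twist_single (ζ : ℂˣ) (k : ℤ) (c : ℂ) :
    twist ζ (HahnSeries.single k c) = HahnSeries.single k (((ζ ^ k : ℂˣ) : ℂ) * c) := by
  ext n
  rw [twist_coeff]
  by_cases h : n = k
  · subst h
    rw [HahnSeries.coeff_single_same, HahnSeries.coeff_single_same]
  · rw [HahnSeries.coeff_single_of_ne h, HahnSeries.coeff_single_of_ne h, mul_zero]

theorem QBdd.translate (hφ : ∀ z, (φ z : ℂ) = z + t) {f : ℍ → ℂ} {M : ℕ} (hM : QBdd M f) :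
    QBdd M (f ∘ φ) := by
  have h1 : IsBoundedAtImInfty (fun z => qH (φ z) ^ M * f (φ z)) := bdd_translate hφ hM
  have h2 : IsBoundedAtImInfty (fun _ : ℍ => (((zetaR t)⁻¹ : ℂˣ) : ℂ) ^ M) :=
    const_boundedAtFilter _ _
  refine (h2.mul h1).congr' (Eventually.of_forall fun z => ?_) (EventuallyEq.refl _ _)
  simp only [Pi.mul_apply, comp_apply, qH_translate hφ, mul_pow]
  rw [← mul_assoc, ← mul_assoc, ← mul_pow, ← Units.val_mul, inv_mul_cancel, Units.val_one, one_pow,
    one_mul]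

theorem ModGrowth.translate (hφ : ∀ z, (φ z : ℂ) = z + t) {f : ℍ → ℂ} (hf : ModGrowth f) :
    ModGrowth (f ∘ φ) := by
  rw [modGrowth_iff] at *
  obtain ⟨M, hM⟩ := hf
  exact ⟨M, QBdd.translate hφ hM⟩

theorem qLaurentFun_translate (hφ : ∀ z, (φ z : ℂ) = z + t) {f : ℍ → ℂ} (hf : MDiff f)
    (hp : IsPer 1 f) (hg : ModGrowth f) :
    qLaurentFun (f ∘ φ) = twist (zetaR t) (qLaurentFun f) := by
  obtain ⟨M, hM⟩ := modGrowth_iff.mp hg
  have e3 : (fun z => qH z ^ M * (f ∘ φ) z) =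
      (fun _ : ℍ => (((zetaR t)⁻¹ : ℂˣ) : ℂ) ^ M) * ((fun z => qH z ^ M * f z) ∘ φ) := by
    funext z
    simp only [Pi.mul_apply, comp_apply, qH_translate hφ, mul_pow]
    rw [← mul_assoc, ← mul_assoc, ← mul_pow, ← Units.val_mul, inv_mul_cancel, Units.val_one,
      one_pow, one_mul]
  have hn := hM.nice hf hp
  rw [qLaurentFun_eq hf hp hM,
    qLaurentFun_eq (mdiff_translate hφ hf) (isPer_translate hφ hp) (QBdd.translate hφ hM),
    qLaurentAux, qLaurentAux, map_mul, twist_single, twist_ofPowerSeries,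
    ← Nice.qExpansion_translate hφ hn, e3,
    (nice_const _).qExpansion_mul (Nice.translate hφ hn), qExpansion_const, map_mul,
    HahnSeries.ofPowerSeries_C, ← mul_assoc]
  congr 1
  rw [HahnSeries.C_apply, HahnSeries.single_mul_single, add_zero, mul_one, one_mul, zpow_neg,
    zpow_natCast, ← inv_pow, Units.val_pow_eq_pow_val]

/-- Precomposition with `z ↦ z + t` on `PerFun`. -/
noncomputable def translate (t : ℝ) (φ : ℍ → ℍ) (hφ : ∀ z, (φ z : ℂ) = z + t)
    (f : PerFun) : PerFun :=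
  PerFun.mk (fn f ∘ φ) (mdiff_translate hφ (fn_mdiff f)) (isPer_translate hφ (fn_isPer f))
    (ModGrowth.translate hφ (fn_modGrowth f))

@[simp] theorem fn_translate (hφ : ∀ z, (φ z : ℂ) = z + t) (f : PerFun) :
    fn (translate t φ hφ f) = fn f ∘ φ := rfl

theorem qLaurent_translate (hφ : ∀ z, (φ z : ℂ) = z + t) (f : PerFun) :
    qLaurent (translate t φ hφ f) = twist (zetaR t) (qLaurent f) :=
  qLaurentFun_translate hφ (fn_mdiff f) (fn_isPer f) (fn_modGrowth f)

theorem translate_ne_zero (hφ : ∀ z, (φ z : ℂ) = z + t) {f : PerFun} (hf : f ≠ 0) :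
    translate t φ hφ f ≠ 0 := by
  intro h0
  apply hf
  apply qLaurent_injective
  rw [map_zero]
  have h1 := qLaurent_translate hφ f
  rw [h0, map_zero] at h1
  have h2 : twist (zetaR t)⁻¹ (twist (zetaR t) (qLaurent f)) = qLaurent f := by
    ext n
    rw [twist_coeff, twist_coeff, ← mul_assoc, ← Units.val_mul, inv_zpow, inv_mul_cancel,
      Units.val_one, one_mul]
  rw [← h2, ← h1, map_zero]

end Fermat.Agent.Gateway.Dict.QExpTranslate
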