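import Mathlib
import Fermat.Agent.Gateway.Dict.QExpTranslate
import Fermat.Agent.Gateway.Dict.EmbedC
import Fermat.Agent.S24.JLevel

/-!
helper46 (P-GATEWAY, WP-DICT, piece [G4]-prep).  `q`-expansions at `∞` of meromorphic functions
on the upper half plane which are quotients of periodic holomorphic functions of moderate growth.

* `HasQ h s` : `h = a / b` with `a b ∈ PerFun`, `b ≠ 0`, and `s * qLaurent b = qLaurent a`.
* `HasQ.unique`, `hasQ_zero`, `hasQ_one`, `HasQ.mul`, `HasQ.prod`, `HasQ.inv`.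
* `hasQ_embC` : `embC N f` has `q`-expansion `f`.
* `HasQ.smul_scale` : `z ↦ h (d z)` has `q`-expansion `qExpand ℂ d s`.
* `HasQ.smul_translate` : `z ↦ h (z + t)` has `q`-expansion `twist (e^{2πit}) s`.
* `sl_smul_eq_glPos` : compatibility of the `SL(2,ℤ)`- and `GL(2,ℝ)⁺`-actions on `MerFun`.
* `transGL t : GL(2,ℝ)⁺` : the translation `z ↦ z + t`.
-/

set_option autoImplicit false

open ModularCurve
open UpperHalfPlane hiding I
open scoped MatrixGroups

namespace Fermat.Agent.Gateway.Dict.QExpMer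

open Fermat.Agent.S24 Fermat.Agent.S24.QExp Fermat.Agent.S24.JLevel
open Fermat.Agent.Gateway.Kummer Fermat.Agent.Gateway.Dict.QExpTranslate
open Fermat.Agent.Gateway.Dict.SetupC Fermat.Agent.Gateway.Dict.EmbedC

/-- `h : MerFun` has the `q`-expansion `s` at `∞`. -/
def HasQ (h : MerFun) (s : LaurentSeries ℂ) : Prop :=
  ∃ a b : PerFun, b ≠ 0 ∧
    h = algebraMap HolFun MerFun (a : HolFun) / algebraMap HolFun MerFun (b : HolFun) ∧
    s * qLaurent b = qLaurent a

theorem hasQ_embC (N : ℕ) [NeZero N] (f : FC N) : HasQ (embC N f) (f : LaurentSeries ℂ) :=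
  embC_frac N f

theorem algebraMap_perFun_ne_zero {b : PerFun} (hb : b ≠ 0) :
    algebraMap HolFun MerFun (b : HolFun) ≠ 0 := fun h0 =>
  hb (Subtype.ext (IsFractionRing.injective HolFun MerFun
    (by rw [h0, ZeroMemClass.coe_zero, map_zero])))

theorem qLaurent_ne_zero {b : PerFun} (hb : b ≠ 0) : qLaurent b ≠ 0 := fun h0 =>
  hb (qLaurent_injective (by rw [h0, map_zero]))

theorem hasQ_of_perFun (a : PerFun) : HasQ (algebraMap HolFun MerFun (a : HolFun)) (qLaurent a) :=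
  ⟨a, 1, one_ne_zero, by rw [OneMemClass.coe_one, map_one, div_one], by rw [map_one, mul_one]⟩

theorem hasQ_zero : HasQ 0 0 := by
  have := hasQ_of_perFun 0
  rwa [ZeroMemClass.coe_zero, map_zero, map_zero] at this

theorem hasQ_one : HasQ 1 1 := by
  have := hasQ_of_perFun 1
  rwa [OneMemClass.coe_one, map_one, map_one] at this

/-- The `q`-expansion is unique. -/
theorem HasQ.unique {h : MerFun} {s s' : LaurentSeries ℂ} (hs : HasQ h s) (hs' : HasQ h s') :
    s = s' := by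
  obtain ⟨a, b, hb, hab, hq⟩ := hs
  obtain ⟨a', b', hb', hab', hq'⟩ := hs'
  have hB := algebraMap_perFun_ne_zero hb
  have hB' := algebraMap_perFun_ne_zero hb'
  have h1 : (a : HolFun) * (b' : HolFun) = (a' : HolFun) * (b : HolFun) := by
    apply IsFractionRing.injective HolFun MerFun
    rw [map_mul, map_mul]
    have := hab.symm.trans hab'
    rwa [div_eq_div_iff hB hB'] at this
  have h2 : a * b' = a' * b := Subtype.ext h1
  have h3 : qLaurent a * qLaurent b' = qLaurent a' * qLaurent b := by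
    rw [← map_mul, ← map_mul, h2]
  rw [← hq, ← hq'] at h3
  have hqb := qLaurent_ne_zero hb
  have hqb' := qLaurent_ne_zero hb'
  have h4 : s * (qLaurent b * qLaurent b') = s' * (qLaurent b * qLaurent b') := by
    rw [← mul_assoc, h3]
    ring
  exact mul_right_cancel₀ (mul_ne_zero hqb hqb') h4

theorem HasQ.mul {h h' : MerFun} {s s' : LaurentSeries ℂ} (hs : HasQ h s) (hs' : HasQ h' s') :
    HasQ (h * h') (s * s') := by
  obtain ⟨a, b, hb, hab, hq⟩ := hs
  obtain ⟨a', b', hb', hab', hq'⟩ := hs'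
  refine ⟨a * a', b * b', mul_ne_zero hb hb', ?_, ?_⟩
  · rw [hab, hab', MulMemClass.coe_mul, MulMemClass.coe_mul, map_mul, map_mul, div_mul_div_comm]
  · rw [map_mul, map_mul, ← hq, ← hq']
    ring

theorem HasQ.inv {h : MerFun} {s : LaurentSeries ℂ} (hs : HasQ h s) : HasQ h⁻¹ s⁻¹ := by
  obtain ⟨a, b, hb, hab, hq⟩ := hs
  by_cases ha : a = 0
  · have h0 : h = 0 := by rw [hab, ha, ZeroMemClass.coe_zero, map_zero, zero_div]
    have s0 : s = 0 := by
      rw [ha, map_zero] at hq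
      exact (mul_eq_zero.mp hq).resolve_right (qLaurent_ne_zero hb)
    rw [h0, s0, inv_zero, inv_zero]
    exact hasQ_zero
  · refine ⟨b, a, ha, by rw [hab, inv_div], ?_⟩
    have hs0 : s ≠ 0 := by
      intro s0
      rw [s0, zero_mul] at hq
      exact qLaurent_ne_zero ha hq.symm
    rw [← hq, ← mul_assoc, inv_mul_cancel₀ hs0, one_mul]

theorem HasQ.prod {ι : Type*} (S : Finset ι) (h : ι → MerFun) (q : ι → LaurentSeries ℂ)
    (hq : ∀ i ∈ S, HasQ (h i) (q i)) : HasQ (∏ i ∈ S, h i) (∏ i ∈ S, q i) := by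
  classical
  induction S using Finset.induction_on with
  | empty => simpa using hasQ_one
  | insert i S hi ih =>
    rw [Finset.prod_insert hi, Finset.prod_insert hi]
    exact (hq i (Finset.mem_insert_self i S)).mul
      (ih fun j hj => hq j (Finset.mem_insert_of_mem hj))

/-! ### Scaling and translation -/

theorem smul_inv_perFun_scale {d : ℕ} [NeZero d] (g : GL(2, ℝ)⁺)
    (hg : ∀ z : ℍ, ((g • z : ℍ) : ℂ) = (d : ℂ) * z) (a : PerFun) :
    g⁻¹ • (a : HolFun) = ((scale d (fun z => g • z) hg a : PerFun) : HolFun) := by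
  apply HolFun.ext
  intro z
  rw [HolFun.smul_apply, inv_inv]
  rfl

theorem smul_inv_perFun_translate {t : ℝ} (g : GL(2, ℝ)⁺)
    (hg : ∀ z : ℍ, ((g • z : ℍ) : ℂ) = z + t) (a : PerFun) :
    g⁻¹ • (a : HolFun) = ((translate t (fun z => g • z) hg a : PerFun) : HolFun) := by
  apply HolFun.ext
  intro z
  rw [HolFun.smul_apply, inv_inv]
  rfl

theorem scale_ne_zero {d : ℕ} [NeZero d] {φ : ℍ → ℍ} (hφ : ∀ z, (φ z : ℂ) = (d : ℂ) * z)
    {f : PerFun} (hf : f ≠ 0) : scale d φ hφ f ≠ 0 := by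
  intro h0
  apply hf
  apply qLaurent_injective
  rw [map_zero]
  have h1 := qLaurent_scale hφ f
  rw [h0, map_zero] at h1
  exact qExpand_injective (R := ℂ) (N := d) (by rw [← h1, map_zero])

/-- `z ↦ h (d z)` has `q`-expansion `s(q^d)`. -/
theorem HasQ.smul_scale {h : MerFun} {s : LaurentSeries ℂ} (hs : HasQ h s) {d : ℕ} [NeZero d]
    (g : GL(2, ℝ)⁺) (hg : ∀ z : ℍ, ((g • z : ℍ) : ℂ) = (d : ℂ) * z) :
    HasQ (g⁻¹ • h) (qExpand ℂ d s) := by
  obtain ⟨a, b, hb, hab, hq⟩ := hs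
  refine ⟨scale d (fun z => g • z) hg a, scale d (fun z => g • z) hg b, scale_ne_zero hg hb, ?_, ?_⟩
  · rw [hab, smul_div₀', MerFun.smul_algebraMap, MerFun.smul_algebraMap,
      smul_inv_perFun_scale g hg, smul_inv_perFun_scale g hg]
  · rw [qLaurent_scale, qLaurent_scale, ← hq, map_mul]

/-- `z ↦ h (z + t)` has `q`-expansion `s(e^{2πit} q)`. -/
theorem HasQ.smul_translate {h : MerFun} {s : LaurentSeries ℂ} (hs : HasQ h s) {t : ℝ}
    (g : GL(2, ℝ)⁺) (hg : ∀ z : ℍ, ((g • z : ℍ) : ℂ) = z + t) :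
    HasQ (g⁻¹ • h) (twist (zetaR t) s) := by
  obtain ⟨a, b, hb, hab, hq⟩ := hs
  refine ⟨translate t (fun z => g • z) hg a, translate t (fun z => g • z) hg b,
    translate_ne_zero hg hb, ?_, ?_⟩
  · rw [hab, smul_div₀', MerFun.smul_algebraMap, MerFun.smul_algebraMap,
      smul_inv_perFun_translate g hg, smul_inv_perFun_translate g hg]
  · rw [qLaurent_translate, qLaurent_translate, ← hq, map_mul]

theorem HasQ.smul_diagGL {h : MerFun} {s : LaurentSeries ℂ} (hs : HasQ h s) (d : ℕ) [NeZero d] :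
    HasQ ((diagGL d)⁻¹ • h) (qExpand ℂ d s) :=
  hs.smul_scale (diagGL d) (coe_diagGL_smul d)

/-! ### Compatibility of the two actions on `MerFun` -/

/-- The `SL(2,ℤ)`-action on `MerFun` is the restriction of the `GL(2,ℝ)⁺`-action. -/
theorem sl_smul_eq_glPos (γ : SL(2, ℤ)) (h : MerFun) : γ • h = HolFun.slToGLPos γ • h := by
  obtain ⟨a, b, -, rfl⟩ := IsFractionRing.div_surjective (A := HolFun) h
  rw [smul_div₀', smul_div₀', MerFun.sl_smul_algebraMap, MerFun.sl_smul_algebraMap,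
    MerFun.smul_algebraMap, MerFun.smul_algebraMap, HolFun.sl_smul_def, HolFun.sl_smul_def]

/-! ### Translations as elements of `GL(2,ℝ)⁺` -/

/-- The matrix `[[1, t], [0, 1]]`. -/
noncomputable def transGL' (t : ℝ) : GL (Fin 2) ℝ :=
  Matrix.GeneralLinearGroup.mkOfDetNeZero !![(1 : ℝ), t; 0, 1] (by
    rw [Matrix.det_fin_two_of]
    norm_num)

theorem transGL'_val (t : ℝ) :
    ((transGL' t : GL (Fin 2) ℝ) : Matrix (Fin 2) (Fin 2) ℝ) = !![(1 : ℝ), t; 0, 1] := rfl

theorem det_transGL'_pos (t : ℝ) : 0 < (transGL' t : GL (Fin 2) ℝ).det.val := by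
  change 0 < ((transGL' t : GL (Fin 2) ℝ) : Matrix (Fin 2) (Fin 2) ℝ).det
  rw [transGL'_val, Matrix.det_fin_two_of]
  norm_num

/-- The translation `z ↦ z + t` as an element of `GL(2,ℝ)⁺`. -/
noncomputable def transGL (t : ℝ) : GL(2, ℝ)⁺ := ⟨transGL' t, det_transGL'_pos t⟩

theorem coe_transGL_smul (t : ℝ) (z : ℍ) : ((transGL t • z : ℍ) : ℂ) = z + t := by
  change (((transGL' t : GL (Fin 2) ℝ) • z : ℍ) : ℂ) = z + t
  rw [UpperHalfPlane.coe_smul_of_det_pos (det_transGL'_pos t)]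
  simp [UpperHalfPlane.num, UpperHalfPlane.denom, transGL'_val]

theorem HasQ.smul_transGL {h : MerFun} {s : LaurentSeries ℂ} (hs : HasQ h s) (t : ℝ) :
    HasQ ((transGL t)⁻¹ • h) (twist (zetaR t) s) :=
  hs.smul_translate (transGL t) (coe_transGL_smul t)

end Fermat.Agent.Gateway.Dict.QExpMer
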