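import Mathlib
import Fermat.Agent.Gateway.Dict.QExpMer

/-!
helper46 (P-GATEWAY, WP-DICT, piece [G4], analytic half).  If a meromorphic function `V` on `ℍ`
is the product `V(z) = U(ℓ z) * ∏_{b < ℓ} U((z + b) / ℓ)` and `U`, `V` have `q`-expansions
`u`, `v`, then `v(q^ℓ) = u(q^(ℓ²)) * ∏_{b < ℓ} u(ζ^b q)` with `ζ = e^{2πi/ℓ}`.

* `upperGL ℓ b : GL(2,ℝ)⁺` : the matrix `[[1, b], [0, ℓ]]`, acting by `z ↦ (z + b) / ℓ`.
* `qExpand_eq_of_prod` : the statement above.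
-/

set_option autoImplicit false

open ModularCurve
open UpperHalfPlane hiding I
open scoped MatrixGroups Real

namespace Fermat.Agent.Gateway.Dict.NormQExpAux

open Fermat.Agent.S24 Fermat.Agent.S24.QExp Fermat.Agent.S24.JLevel
open Fermat.Agent.Gateway.Kummer Fermat.Agent.Gateway.Dict.QExpTranslate
open Fermat.Agent.Gateway.Dict.QExpMer

variable (ℓ : ℕ) [NeZero ℓ]

/-- The matrix `[[1, b], [0, ℓ]]`. -/
noncomputable def upperGL' (b : ℝ) : GL (Fin 2) ℝ :=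
  Matrix.GeneralLinearGroup.mkOfDetNeZero !![(1 : ℝ), b; 0, (ℓ : ℝ)] (by
    rw [Matrix.det_fin_two_of]
    have : (ℓ : ℝ) ≠ 0 := by exact_mod_cast NeZero.ne ℓ
    simpa using this)

theorem upperGL'_val (b : ℝ) :
    ((upperGL' ℓ b : GL (Fin 2) ℝ) : Matrix (Fin 2) (Fin 2) ℝ) = !![(1 : ℝ), b; 0, (ℓ : ℝ)] := rfl

theorem det_upperGL'_pos (b : ℝ) : 0 < (upperGL' ℓ b : GL (Fin 2) ℝ).det.val := by
  change 0 < ((upperGL' ℓ b : GL (Fin 2) ℝ) : Matrix (Fin 2) (Fin 2) ℝ).det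
  rw [upperGL'_val, Matrix.det_fin_two_of]
  have : (0 : ℝ) < ℓ := by exact_mod_cast Nat.pos_of_ne_zero (NeZero.ne ℓ)
  simpa using this

/-- The matrix `[[1, b], [0, ℓ]]` as an element of `GL(2,ℝ)⁺`. -/
noncomputable def upperGL (b : ℝ) : GL(2, ℝ)⁺ := ⟨upperGL' ℓ b, det_upperGL'_pos ℓ b⟩

/-- `[[1, b], [0, ℓ]] • z = (z + b) / ℓ`. -/
theorem coe_upperGL_smul (b : ℝ) (z : ℍ) :
    ((upperGL ℓ b • z : ℍ) : ℂ) = ((z : ℂ) + b) / ℓ := by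
  change (((upperGL' ℓ b : GL (Fin 2) ℝ) • z : ℍ) : ℂ) = ((z : ℂ) + b) / ℓ
  rw [UpperHalfPlane.coe_smul_of_det_pos (det_upperGL'_pos ℓ b)]
  simp [UpperHalfPlane.num, UpperHalfPlane.denom, upperGL'_val]

theorem coe_upperGL_mul_diagGL_smul (b : ℝ) (z : ℍ) :
    (((upperGL ℓ b * diagGL ℓ) • z : ℍ) : ℂ) = (z : ℂ) + ((b / ℓ : ℝ) : ℂ) := by
  rw [mul_smul, coe_upperGL_smul, coe_diagGL_smul]
  have : (ℓ : ℂ) ≠ 0 := by exact_mod_cast NeZero.ne ℓ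
  push_cast
  field_simp

theorem coe_diagGL_mul_diagGL_smul (z : ℍ) :
    (((diagGL ℓ * diagGL ℓ) • z : ℍ) : ℂ) = ((ℓ * ℓ : ℕ) : ℂ) * z := by
  rw [mul_smul, coe_diagGL_smul, coe_diagGL_smul]
  push_cast
  ring

omit [NeZero ℓ] in
/-- `e^{2πi b/ℓ} = (e^{2πi/ℓ})^b`. -/
theorem zetaR_div (b : ℕ) : zetaR ((b : ℝ) / ℓ) = zetaR (1 / (ℓ : ℝ)) ^ b := by
  apply Units.ext
  rw [Units.val_pow_eq_pow_val, coe_zetaR, coe_zetaR, ← Complex.exp_nat_mul]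
  congr 1
  push_cast
  ring

/-- **The analytic half of the `q`-expansion norm formula.** -/
theorem qExpand_eq_of_prod {U V : MerFun} {u v : LaurentSeries ℂ} (hU : HasQ U u) (hV : HasQ V v)
    (hprod : V = ((diagGL ℓ)⁻¹ • U) * ∏ b ∈ Finset.range ℓ, (upperGL ℓ (b : ℝ))⁻¹ • U) :
    qExpand ℂ ℓ v = qExpand ℂ (ℓ * ℓ) u *
      ∏ b ∈ Finset.range ℓ, twist (zetaR (1 / (ℓ : ℝ)) ^ b) u := by
  have h1 : HasQ ((diagGL ℓ)⁻¹ • V) (qExpand ℂ ℓ v) := hV.smul_diagGL ℓ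
  have h2 : (diagGL ℓ)⁻¹ • V = ((diagGL ℓ * diagGL ℓ)⁻¹ • U) *
      ∏ b ∈ Finset.range ℓ, (upperGL ℓ (b : ℝ) * diagGL ℓ)⁻¹ • U := by
    rw [hprod, smul_mul', Finset.smul_prod', mul_inv_rev, mul_smul]
    congr 1
    refine Finset.prod_congr rfl fun b _ => ?_
    rw [mul_inv_rev, mul_smul]
  have h3 : HasQ ((diagGL ℓ * diagGL ℓ)⁻¹ • U) (qExpand ℂ (ℓ * ℓ) u) :=
    hU.smul_scale (diagGL ℓ * diagGL ℓ) (coe_diagGL_mul_diagGL_smul ℓ)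
  have h4 : ∀ b ∈ Finset.range ℓ, HasQ ((upperGL ℓ (b : ℝ) * diagGL ℓ)⁻¹ • U)
      (twist (zetaR (1 / (ℓ : ℝ)) ^ b) u) := by
    intro b _
    rw [← zetaR_div]
    exact hU.smul_translate (upperGL ℓ (b : ℝ) * diagGL ℓ) (coe_upperGL_mul_diagGL_smul ℓ b)
  have h5 := h3.mul (HasQ.prod (Finset.range ℓ) _ _ h4)
  rw [← h2] at h5
  exact h1.unique h5

end Fermat.Agent.Gateway.Dict.NormQExpAux
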