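import Mathlib
import Fermat.Agent.Gateway.Dict.NormQExpAux

/-!
helper46 (P-GATEWAY, WP-DICT, piece [G4], bridge).  From coset representatives to the explicit
conjugates: if `γ ∈ SL(2,ℤ)`, `δ ∈ Γ₀(N)` and `b` satisfy the integer matrix identity
`[[ℓ,0],[0,1]] * γ⁻¹ = δ * [[1,b],[0,ℓ]]`, and `U : MerFun` is `Γ₀(N)`-invariant, then
`γ • ((diagGL ℓ)⁻¹ • U) = (upperGL ℓ b)⁻¹ • U`, i.e. the conjugate of `z ↦ U(ℓ z)` by `γ` is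
`z ↦ U((z + b) / ℓ)`.
-/

set_option autoImplicit false

open ModularCurve
open UpperHalfPlane hiding I
open scoped MatrixGroups Real

namespace Fermat.Agent.Gateway.Dict.NormQExpBridge

open Fermat.Agent.S24 Fermat.Agent.S24.JLevel
open Fermat.Agent.Gateway.Dict.QExpMer Fermat.Agent.Gateway.Dict.NormQExpAux

variable (ℓ : ℕ) [NeZero ℓ]

theorem glPos_ext {g h : GL(2, ℝ)⁺}
    (H : ((g : GL (Fin 2) ℝ) : Matrix (Fin 2) (Fin 2) ℝ) =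
      ((h : GL (Fin 2) ℝ) : Matrix (Fin 2) (Fin 2) ℝ)) : g = h :=
  Subtype.ext (Units.ext H)

theorem coe_slToGLPos (γ : SL(2, ℤ)) :
    (((HolFun.slToGLPos γ : GL(2, ℝ)⁺) : GL (Fin 2) ℝ) : Matrix (Fin 2) (Fin 2) ℝ) =
      (γ : Matrix (Fin 2) (Fin 2) ℤ).map (Int.castRingHom ℝ) := rfl

theorem coe_diagGL_matrix :
    (((diagGL ℓ : GL(2, ℝ)⁺) : GL (Fin 2) ℝ) : Matrix (Fin 2) (Fin 2) ℝ) =
      !![(ℓ : ℝ), 0; 0, 1] := rfl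

theorem coe_upperGL_matrix (b : ℝ) :
    (((upperGL ℓ b : GL(2, ℝ)⁺) : GL (Fin 2) ℝ) : Matrix (Fin 2) (Fin 2) ℝ) =
      !![(1 : ℝ), b; 0, (ℓ : ℝ)] := rfl

/-- The integer matrix identity, transported to `GL(2,ℝ)⁺`. -/
theorem glPos_identity_of_int {γ δ : SL(2, ℤ)} {b : ℤ}
    (h : !![(ℓ : ℤ), 0; 0, 1] * ((γ⁻¹ : SL(2, ℤ)) : Matrix (Fin 2) (Fin 2) ℤ) =
      (δ : Matrix (Fin 2) (Fin 2) ℤ) * !![1, b; 0, (ℓ : ℤ)]) :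
    diagGL ℓ * HolFun.slToGLPos γ⁻¹ = HolFun.slToGLPos δ * upperGL ℓ (b : ℝ) := by
  apply glPos_ext
  have h1 := congrArg (fun M : Matrix (Fin 2) (Fin 2) ℤ => M.map (Int.castRingHom ℝ)) h
  simp only [Matrix.map_mul] at h1
  have e1 : (!![(ℓ : ℤ), 0; 0, 1] : Matrix (Fin 2) (Fin 2) ℤ).map (Int.castRingHom ℝ) =
      !![(ℓ : ℝ), 0; 0, 1] := by
    ext i j
    fin_cases i <;> fin_cases j <;> simp
  have e2 : (!![1, b; 0, (ℓ : ℤ)] : Matrix (Fin 2) (Fin 2) ℤ).map (Int.castRingHom ℝ) =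
      !![(1 : ℝ), (b : ℝ); 0, (ℓ : ℝ)] := by
    ext i j
    fin_cases i <;> fin_cases j <;> simp
  rw [e1, e2] at h1
  exact h1

/-- The conjugate of `z ↦ U(ℓ z)` by `γ` is `z ↦ U((z + b) / ℓ)`. -/
theorem smul_smul_eq_upperGL {N : ℕ} {U : MerFun}
    (hU : ∀ γ ∈ CongruenceSubgroup.Gamma0 N, γ • U = U) {γ δ : SL(2, ℤ)}
    (hδ : δ ∈ CongruenceSubgroup.Gamma0 N) {b : ℝ}
    (h : diagGL ℓ * HolFun.slToGLPos γ⁻¹ = HolFun.slToGLPos δ * upperGL ℓ b) :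
    γ • ((diagGL ℓ)⁻¹ • U) = (upperGL ℓ b)⁻¹ • U := by
  have h1 : HolFun.slToGLPos γ * (diagGL ℓ)⁻¹ = (diagGL ℓ * HolFun.slToGLPos γ⁻¹)⁻¹ := by
    rw [mul_inv_rev, map_inv, inv_inv]
  have h2 : (HolFun.slToGLPos δ)⁻¹ • U = U := by
    rw [← map_inv, ← sl_smul_eq_glPos]
    exact hU _ (inv_mem hδ)
  rw [sl_smul_eq_glPos, ← mul_smul, h1, h, mul_inv_rev, mul_smul, h2]

theorem smul_smul_eq_upperGL_of_int {N : ℕ} {U : MerFun}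
    (hU : ∀ γ ∈ CongruenceSubgroup.Gamma0 N, γ • U = U) {γ δ : SL(2, ℤ)}
    (hδ : δ ∈ CongruenceSubgroup.Gamma0 N) {b : ℤ}
    (h : !![(ℓ : ℤ), 0; 0, 1] * ((γ⁻¹ : SL(2, ℤ)) : Matrix (Fin 2) (Fin 2) ℤ) =
      (δ : Matrix (Fin 2) (Fin 2) ℤ) * !![1, b; 0, (ℓ : ℤ)]) :
    γ • ((diagGL ℓ)⁻¹ • U) = (upperGL ℓ (b : ℝ))⁻¹ • U :=
  smul_smul_eq_upperGL ℓ hU hδ (glPos_identity_of_int ℓ h)

end Fermat.Agent.Gateway.Dict.NormQExpBridge
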