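/-
P-GATEWAY, WP-DICT piece [G3b] (helper24): the coset representatives `γ_b` of
`Γ₀(N ℓ)` in `Γ₀(N)` (`Dict/CosetsP1.lean`) acting on meromorphic functions, on top of helper46's
`NormQExpBridge` (integer matrix identity ⇒ `γ • (diag(ℓ,1))⁻¹ • U = [[1,b],[0,ℓ]]⁻¹ • U`).

For a `Γ₀(N)`-invariant `U : MerFun` the product of `x • (z ↦ U(ℓ z))` over the representatives
`x = 1, γ_0, …, γ_{ℓ-1}` is `U(ℓ z) * ∏_{b < ℓ} U((z + b)/ℓ)`: exactly the hypothesis `hprod` of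
`NormQExpAux.qExpand_eq_of_prod`.
-/
import Fermat.Agent.Gateway.Dict.CosetsP1
import Fermat.Agent.Gateway.Dict.NormQExpBridge
import Fermat.Agent.Gateway.Dict.RangeAbs

set_option autoImplicit false

noncomputable section

open CongruenceSubgroup MatrixGroups UpperHalfPlane
open Fermat.Agent.S24 Fermat.Agent.S24.JLevel

namespace Fermat.Agent.Gateway.Dict.CosetsAct

open CosetsP1 NormQExpAux NormQExpBridge

variable {N ℓ : ℕ}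

/-- **The conjugates of `U(ℓ z)`**: for a `Γ₀(N)`-invariant meromorphic function `U`,
`γ_b • (z ↦ U (ℓ z)) = (z ↦ U ((z + b) / ℓ))`. -/
theorem rep_smul_diag_inv_smul [NeZero ℓ] (hc : Nat.Coprime ℓ N) (b : ℤ) (U : MerFun)
    (hU : ∀ γ ∈ Gamma0 N, γ • U = U) :
    rep hc b • ((diagGL ℓ)⁻¹ • U) = (upperGL ℓ (b : ℝ))⁻¹ • U :=
  smul_smul_eq_upperGL_of_int ℓ hU (delta_mem hc) (diag_mul_rep_inv hc b)

/-- **The product over the representatives** `1, γ_0, …, γ_{ℓ-1}` of `Γ₀(N) / Γ₀(N ℓ)` of the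
translates of `z ↦ U(ℓ z)`. -/
theorem prod_repFun_smul [NeZero ℓ] (hc : Nat.Coprime ℓ N) (U : MerFun)
    (hU : ∀ γ ∈ Gamma0 N, γ • U = U) :
    ∏ x : OnePoint (ZMod ℓ), ((repFun hc x : ↥(Gamma0 N)) : SL(2, ℤ)) • ((diagGL ℓ)⁻¹ • U)
      = ((diagGL ℓ)⁻¹ • U) * ∏ b ∈ Finset.range ℓ, (upperGL ℓ (b : ℝ))⁻¹ • U := by
  rw [prod_repFun hc (fun g : ↥(Gamma0 N) => (g : SL(2, ℤ)) • ((diagGL ℓ)⁻¹ • U))]
  rw [OneMemClass.coe_one, one_smul]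
  congr 1
  refine Finset.prod_congr rfl fun b _ => ?_
  rw [coe_repG]
  exact_mod_cast rep_smul_diag_inv_smul hc (b : ℤ) U hU

/-- Same with `RangeAbs.conj` over the quotient `Γ₀(N) / Γ₀(N ℓ)`. -/
theorem prod_conj_diag_inv_smul (hl : ℓ.Prime) (hlN : ¬ ℓ ∣ N) [NeZero ℓ]
    [Fintype (↥(Gamma0 N) ⧸ sub N ℓ)] (U : MerFun) (hU : ∀ γ ∈ Gamma0 N, γ • U = U)
    (hθ : ∀ γ ∈ sub N ℓ, γ • ((diagGL ℓ)⁻¹ • U) = (diagGL ℓ)⁻¹ • U) :
    ∏ c, RangeAbs.conj (sub N ℓ) ((diagGL ℓ)⁻¹ • U) hθ c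
      = ((diagGL ℓ)⁻¹ • U) * ∏ b ∈ Finset.range ℓ, (upperGL ℓ (b : ℝ))⁻¹ • U := by
  rw [prod_quot_range hl hlN, RangeAbs.conj_mk, one_smul]
  congr 1
  refine Finset.prod_congr rfl fun b _ => ?_
  rw [RangeAbs.conj_mk]
  exact_mod_cast rep_smul_diag_inv_smul ((Nat.Prime.coprime_iff_not_dvd hl).mpr hlN) (b : ℤ) U hU

end Fermat.Agent.Gateway.Dict.CosetsAct
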