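/-
P-GATEWAY, WP-DICT (helper19): lowering the level of a quotient of cusp functions.
If `x ∈ MerFun` is a quotient of cusp functions of level `M`, `N ∣ M` and `x` is invariant under
`T ^ N`, then `x` is a quotient of cusp functions of level `N`.
-/
import Fermat.Agent.S24.CuspOrdMer

set_option autoImplicit false

noncomputable section

open UpperHalfPlane
open scoped MatrixGroups

namespace Fermat.Agent.Gateway.Dict.CuspLevel

open Fermat.Agent.S24 Fermat.Agent.S24.CuspOrd ModularGroup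

/-- The product of the translates `(T ^ N) ^ i • b`, `i < k`. -/
def avgProd (N k : ℕ) (b : HolFun) : HolFun := ∏ i ∈ Finset.range k, (T ^ N) ^ i • b

theorem avgProd_succ' (N k : ℕ) (b : HolFun) :
    avgProd N (k + 1) b = (∏ i ∈ Finset.range k, (T ^ N) ^ (i + 1) • b) * b := by
  rw [avgProd, Finset.prod_range_succ', pow_zero, one_smul]

theorem avgProd_succ (N k : ℕ) (b : HolFun) :
    avgProd N (k + 1) b = (∏ i ∈ Finset.range k, (T ^ N) ^ i • b) * ((T ^ N) ^ k • b) := by
  rw [avgProd, Finset.prod_range_succ]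

theorem smul_avgProd (N k : ℕ) (b : HolFun) :
    T ^ N • avgProd N k b = ∏ i ∈ Finset.range k, (T ^ N) ^ (i + 1) • b := by
  rw [avgProd, Finset.smul_prod']
  refine Finset.prod_congr rfl fun i _ => ?_
  rw [← mul_smul, ← pow_succ']

/-- `avgProd N k b` is `T ^ N`-invariant when `b` is `T ^ (N k)`-invariant. -/
theorem smul_avgProd_eq (N k : ℕ) (b : HolFun) (hb : (T ^ N) ^ k • b = b) :
    T ^ N • avgProd N k b = avgProd N k b := by
  cases k with
  | zero => simp [avgProd]
  | succ k =>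
    rw [smul_avgProd, Finset.prod_range_succ, hb, avgProd_succ']

theorem avgProd_ne_zero (N k : ℕ) {b : HolFun} (hb : b ≠ 0) : avgProd N k b ≠ 0 := by
  rw [avgProd, Finset.prod_ne_zero_iff]
  intro i _
  exact sl_smul_ne_zero _ hb

theorem avgProd_mem {M : ℕ} (N k : ℕ) {b : HolFun} (hb : b ∈ cuspFnAlg M) :
    avgProd N k b ∈ cuspFnAlg M := by
  rw [avgProd]
  refine Subalgebra.prod_mem _ fun i _ => ?_
  have := T_zpow_smul_mem_cuspFnAlg hb ((N * i : ℕ) : ℤ)
  rwa [zpow_natCast, pow_mul] at this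

/-- **Lowering the level.** -/
theorem isCuspMer_of_dvd {N M : ℕ} (hM : 0 < M) (hNM : N ∣ M) {x : MerFun} (hx : IsCuspMer M x)
    (hT : T ^ N • x = x) : IsCuspMer N x := by
  rcases eq_or_ne x 0 with rfl | hx0
  · exact isCuspMer_zero N
  obtain ⟨a, b, ha, hb, ha0, hb0, hab⟩ := hx.exists_div hx0
  obtain ⟨k, rfl⟩ := hNM
  have hbper : (T ^ N) ^ k • b = b := by
    rw [← pow_mul]
    exact T_pow_smul_of_mem_cuspFnAlg hb
  cases k with
  | zero => simp at hM
  | succ k =>
    set b' : HolFun := avgProd N (k + 1) b with hb'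
    set a' : HolFun := a * ∏ i ∈ Finset.range k, (T ^ N) ^ (i + 1) • b with ha'
    have hb'0 : b' ≠ 0 := avgProd_ne_zero N (k + 1) hb0
    have hb'T : T ^ N • b' = b' := smul_avgProd_eq N (k + 1) b hbper
    have hb'mem : b' ∈ cuspFnAlg (N * (k + 1)) := avgProd_mem N (k + 1) hb
    have hrest : (∏ i ∈ Finset.range k, (T ^ N) ^ (i + 1) • b) ∈ cuspFnAlg (N * (k + 1)) := by
      refine Subalgebra.prod_mem _ fun i _ => ?_
      have := T_zpow_smul_mem_cuspFnAlg hb ((N * (i + 1) : ℕ) : ℤ)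
      rwa [zpow_natCast, pow_mul] at this
    have ha'mem : a' ∈ cuspFnAlg (N * (k + 1)) := (cuspFnAlg _).mul_mem ha hrest
    have hbb' : b' = (∏ i ∈ Finset.range k, (T ^ N) ^ (i + 1) • b) * b := avgProd_succ' N k b
    have hbalg : algebraMap HolFun MerFun b ≠ 0 := algebraMap_ne_zero hb0
    have hb'alg : algebraMap HolFun MerFun b' ≠ 0 := algebraMap_ne_zero hb'0
    -- `x = a' / b'`
    have hx' : x = algebraMap HolFun MerFun a' / algebraMap HolFun MerFun b' := by
      rw [hab, ha', hbb', map_mul, map_mul]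
      have hrest0 : algebraMap HolFun MerFun (∏ i ∈ Finset.range k, (T ^ N) ^ (i + 1) • b) ≠ 0 := by
        apply algebraMap_ne_zero
        rw [Finset.prod_ne_zero_iff]
        intro i _
        exact sl_smul_ne_zero _ hb0
      field_simp
    -- `a'` is `T ^ N`-invariant
    have ha'T : T ^ N • a' = a' := by
      apply algebraMap_injective
      have h1 : algebraMap HolFun MerFun a' = x * algebraMap HolFun MerFun b' := by
        rw [hx', div_mul_cancel₀ _ hb'alg]
      rw [← MerFun.sl_smul_algebraMap, h1, smul_mul', hT, MerFun.sl_smul_algebraMap, hb'T]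
    have ha'N : a' ∈ cuspFnAlg N :=
      ⟨a'.2, (T_pow_smul_eq_iff N a').1 ha'T, (mem_cuspFnAlg.1 ha'mem).growth⟩
    have hb'N : b' ∈ cuspFnAlg N :=
      ⟨b'.2, (T_pow_smul_eq_iff N b').1 hb'T, (mem_cuspFnAlg.1 hb'mem).growth⟩
    exact ⟨a', b', ha'N, hb'N, hb'0, hx'⟩

end Fermat.Agent.Gateway.Dict.CuspLevel
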