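import Mathlib
import Fermat.Prelude.Def_ModularCurve_HeckeOperator
import Fermat.Prelude.Thm_ModularCurve_coeffMap_qExpand
import Fermat.Agent.Gateway.Dict.EmbedC
import Fermat.Agent.Gateway.Dict.DegreeC

/-!
helper46 (P-GATEWAY, WP-DICT, piece [G1]).  Compatibility of the analytic embeddings
`embC N : FC N →+* MerFun` with the two degeneracy maps
`heckeAlphaBar ℂ N ℓ, heckeBetaBar ℂ N ℓ : FC N →ₐ[ℂ] FC (N * ℓ)`:

* `ringHom_ext_gen` : two ring homomorphisms out of `FC N` into a field which agree on the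
  constants and on the generators `gen N hd` are equal;
* `embC_heckeAlphaBar` : `embC (N * ℓ) (heckeAlphaBar ℂ N ℓ x) = embC N x`;
* `embC_heckeBetaBar` : `embC (N * ℓ) (heckeBetaBar ℂ N ℓ x) = (diagGL ℓ)⁻¹ • embC N x`
  (the function `z ↦ (embC N x)(ℓ z)`).
-/

set_option autoImplicit false

open ModularCurve IntermediateField
open UpperHalfPlane hiding I
open scoped MatrixGroups

namespace Fermat.Agent.Gateway.Dict.LevelCompat

open Fermat.Agent.S24 Fermat.Agent.S24.JLevel
open Fermat.Agent.Gateway.Dict.SetupC Fermat.Agent.Gateway.Dict.ConjAbs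
open Fermat.Agent.Gateway.Dict.EmbedC

/-! ### Extensionality for ring homomorphisms out of `FC N` -/

/-- Two ring homomorphisms out of `FC N` into a field which agree on the constants and on the
generators `j(d z)`, `d ∣ N`, are equal. -/
theorem ringHom_ext_gen {N : ℕ} {M : Type*} [Field M] (φ ψ : FC N →+* M)
    (hc : ∀ c : ℂ, φ (algebraMap ℂ (FC N) c) = ψ (algebraMap ℂ (FC N) c))
    (hg : ∀ (d : ℕ) [NeZero d] (hd : d ∣ N), φ (gen N hd) = ψ (gen N hd)) : φ = ψ := by
  let E : IntermediateField ℂ (FC N) :=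
    { RingHom.eqLocusField φ ψ with algebraMap_mem' := hc }
  have hE : ∀ x, x ∈ E ↔ φ x = ψ x := fun _ => Iff.rfl
  have hle : IntermediateField.adjoin ℂ (EmbedL.genSetFL ℂ N) ≤ E := by
    rw [IntermediateField.adjoin_le_iff]
    rintro x ⟨d, hd0, hd, rfl⟩
    exact (hE _).mpr (hg d hd)
  rw [DegreeC.adjoin_genSetFL] at hle
  exact RingHom.ext fun x => (hE x).mp (hle (IntermediateField.mem_top))

/-! ### The degeneracy maps on generators -/

variable (N ℓ : ℕ) [NeZero N] [NeZero ℓ]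

omit [NeZero N] [NeZero ℓ] in
theorem dvd_mul_of_dvd {d : ℕ} (hd : d ∣ N) : d ∣ N * ℓ := Dvd.dvd.mul_right hd ℓ

omit [NeZero N] [NeZero ℓ] in
theorem mul_dvd_mul_of_dvd {d : ℕ} (hd : d ∣ N) : ℓ * d ∣ N * ℓ := by
  rw [mul_comm N ℓ]
  exact Nat.mul_dvd_mul_left ℓ hd

theorem heckeAlphaBar_gen {d : ℕ} [NeZero d] (hd : d ∣ N) :
    heckeAlphaBar ℂ N ℓ (gen N hd) = gen (N * ℓ) (dvd_mul_of_dvd N ℓ hd) :=
  Subtype.ext (coe_heckeAlphaBar N ℓ _)

theorem qExpand_jC (d : ℕ) [NeZero d] : qExpand ℂ ℓ (jC d) = jC (ℓ * d) := by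
  rw [jC, jC, coeffEmb, ← coeffMap_qExpand, qExpand_qExpand]

theorem heckeBetaBar_gen {d : ℕ} [NeZero d] (hd : d ∣ N) :
    heckeBetaBar ℂ N ℓ (gen N hd) = gen (N * ℓ) (mul_dvd_mul_of_dvd N ℓ hd) :=
  Subtype.ext (by rw [coe_heckeBetaBar, coe_gen, coe_gen, qExpand_jC])

/-! ### The scaled `j`-functions -/

theorem smul_jd (d : ℕ) [NeZero d] : (diagGL ℓ)⁻¹ • jd d = jd (ℓ * d) := by
  apply HolFun.ext
  intro z
  rw [HolFun.smul_apply, inv_inv, jd_apply']
  refine (jd_apply_of_coe (ℓ * d) (fun z => scaleH d (diagGL ℓ • z)) (fun z => ?_) z).symm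
  rw [coe_scaleH, coe_diagGL_smul]
  push_cast
  ring

theorem smul_const (g : GL(2, ℝ)⁺) (c : ℂ) : g • Conj.const c = Conj.const c := by
  rw [Conj.const, MerFun.smul_algebraMap, HolFun.smul_algebraMap]

/-! ### Compatibility of the embeddings -/

/-- **[G1], `α`.** The embedding at level `N * ℓ` restricts to the embedding at level `N`. -/
theorem embC_heckeAlphaBar (x : FC N) :
    embC (N * ℓ) (heckeAlphaBar ℂ N ℓ x) = embC N x := by
  have h := ringHom_ext_gen ((embC (N * ℓ)).comp (heckeAlphaBar ℂ N ℓ).toRingHom) (embC N)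
    (fun c => by
      rw [RingHom.comp_apply, AlgHom.toRingHom_eq_coe, RingHom.coe_coe, AlgHom.commutes,
        embC_const, embC_const])
    (fun d _ hd => by
      rw [RingHom.comp_apply, AlgHom.toRingHom_eq_coe, RingHom.coe_coe, heckeAlphaBar_gen,
        embC_gen, embC_gen])
  exact DFunLike.congr_fun h x

/-- **[G1], `β`.** The embedding at level `N * ℓ` composed with `β : f(z) ↦ f(ℓ z)` is the
embedding at level `N` composed with the action of `diag(ℓ, 1)⁻¹`. -/
theorem embC_heckeBetaBar (x : FC N) :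
    embC (N * ℓ) (heckeBetaBar ℂ N ℓ x) = (diagGL ℓ)⁻¹ • embC N x := by
  have h := ringHom_ext_gen ((embC (N * ℓ)).comp (heckeBetaBar ℂ N ℓ).toRingHom)
    ((MulSemiringAction.toRingHom GL(2, ℝ)⁺ MerFun (diagGL ℓ)⁻¹).comp (embC N))
    (fun c => by
      rw [RingHom.comp_apply, AlgHom.toRingHom_eq_coe, RingHom.coe_coe, AlgHom.commutes,
        RingHom.comp_apply, MulSemiringAction.toRingHom_apply, embC_const, embC_const,
        smul_const])
    (fun d _ hd => by
      rw [RingHom.comp_apply, AlgHom.toRingHom_eq_coe, RingHom.coe_coe, heckeBetaBar_gen,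
        RingHom.comp_apply, MulSemiringAction.toRingHom_apply, embC_gen, embC_gen,
        MerFun.smul_algebraMap, smul_jd])
  exact DFunLike.congr_fun h x

/-- Pointwise form of `embC_heckeBetaBar` on holomorphic values: if `embC N x = θ` is holomorphic
then `embC (N * ℓ) (β x)` is the holomorphic function `z ↦ θ (ℓ z)`. -/
theorem embC_heckeBetaBar_of_holFun (x : FC N) {θ : HolFun}
    (h : embC N x = algebraMap HolFun MerFun θ) :
    embC (N * ℓ) (heckeBetaBar ℂ N ℓ x) = algebraMap HolFun MerFun ((diagGL ℓ)⁻¹ • θ) := by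
  rw [embC_heckeBetaBar, h, MerFun.smul_algebraMap]

theorem smul_holFun_apply (θ : HolFun) (z : ℍ) :
    (((diagGL ℓ)⁻¹ • θ : HolFun) : ℍ → ℂ) z = (θ : ℍ → ℂ) (scaleH ℓ z) := by
  rw [HolFun.smul_apply, inv_inv]
  rfl

end Fermat.Agent.Gateway.Dict.LevelCompat
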