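/-
P-GATEWAY, WP-DICT (helper19), piece [G2] = D5 of the blueprint: the norm along
`heckeAlphaBar ℂ N ℓ : FC N → FC (N * ℓ)` is the product of the conjugates over the cosets
`Γ₀(N) ⧸ Γ₀(N ℓ)`.

* `AbsNorm`: an abstract version for a group `G` acting on a field `M`, an embedding
  `φ : F →+* M` whose image is exactly fixed by `Γ ≤ G`, and a base field `E0` whose image is the
  set of `G`-invariants of a suitable subring `S`;
* `finiteAlong_alpha`, `finrankAlong_alpha`, `embC_norm_alpha`: the specialisation to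
  `G = Γ₀(N)`, `Γ = Γ₀(N ℓ) ∩ Γ₀(N)`, `φ = embC (N ℓ)`.
-/
import Fermat.Agent.Gateway.Dict.RangeC
import Fermat.Agent.Gateway.Dict.LevelCompat
import Fermat.Agent.Gateway.Dict.CuspLevel
import Fermat.Agent.Gateway.Kummer.Basic

set_option autoImplicit false
set_option linter.style.haveILetI false

noncomputable section

open UpperHalfPlane CongruenceSubgroup IntermediateField Polynomial ModularCurve AlgebraicCurve
open scoped MatrixGroups

namespace Fermat.Agent.Gateway.Dict.NormAlpha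

open Fermat.Agent.S24 Fermat.Agent.S24.MerFun Fermat.Agent.S24.CuspOrd SetupC ConjAbs EmbedC

/-! ### Abstract form -/

section AbsNorm

variable {G E0 F M : Type*} [Group G] [Field E0] [Field F] [Field M] [Algebra E0 F]
  [MulSemiringAction G M] (Γ : Subgroup G)
  (φ : F →+* M) (hfix : ∀ γ ∈ Γ, ∀ f, γ • φ f = φ f)

/-- The conjugate embeddings `f ↦ g • φ f`, indexed by the left cosets `g Γ`. -/
def sig (c : G ⧸ Γ) : F →+* M :=
  Quotient.liftOn' c (fun g => (MulSemiringAction.toRingHom G M g).comp φ) (fun a b hab => by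
    have h : a⁻¹ * b ∈ Γ := QuotientGroup.leftRel_apply.mp hab
    ext f
    show a • φ f = b • φ f
    calc a • φ f = a • ((a⁻¹ * b) • φ f) := by rw [hfix _ h]
      _ = b • φ f := by rw [← mul_smul, mul_inv_cancel_left])

@[simp] theorem sig_mk (g : G) (f : F) : sig Γ φ hfix (QuotientGroup.mk g) f = g • φ f := rfl

theorem sig_eq_conj (c : G ⧸ Γ) (f : F) :
    sig Γ φ hfix c f = RangeAbs.conj Γ (φ f) (fun γ hγ => hfix γ hγ f) c := by
  induction c using QuotientGroup.induction_on with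
  | H g => rfl

theorem sig_injective (hstab : ∀ γ : G, (∀ f, γ • φ f = φ f) → γ ∈ Γ) :
    Function.Injective (sig Γ φ hfix) := by
  intro b b' h
  induction b using QuotientGroup.induction_on with
  | H a =>
  induction b' using QuotientGroup.induction_on with
  | H c =>
    rw [QuotientGroup.eq]
    refine hstab _ fun f => ?_
    have hx := DFunLike.congr_fun h f
    rw [sig_mk, sig_mk] at hx
    rw [mul_smul, ← hx, ← mul_smul, inv_mul_cancel, one_smul]

/-- **Abstract degree and norm.** -/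
theorem finrank_and_norm_abs [CharZero E0] [Fintype (G ⧸ Γ)]
    (hstab : ∀ γ : G, (∀ f, γ • φ f = φ f) → γ ∈ Γ)
    (hbase : ∀ (g : G) (e : E0), g • φ (algebraMap E0 F e) = φ (algebraMap E0 F e))
    (S : Subring M) (hS : ∀ (g : G) (f : F), g • φ f ∈ S)
    (hrange : ∀ x ∈ S, (∀ g : G, g • x = x) → ∃ e : E0, φ (algebraMap E0 F e) = x) :
    FiniteDimensional E0 F ∧ Module.finrank E0 F = Fintype.card (G ⧸ Γ) ∧
      ∀ f : F, φ (algebraMap E0 F (Algebra.norm E0 f)) =
        ∏ c : G ⧸ Γ, RangeAbs.conj Γ (φ f) (fun γ hγ => hfix γ hγ f) c := by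
  have hagree : ∀ (b b' : G ⧸ Γ) (e : E0),
      sig Γ φ hfix b (algebraMap E0 F e) = sig Γ φ hfix b' (algebraMap E0 F e) := by
    intro b b' e
    induction b using QuotientGroup.induction_on with
    | H a =>
    induction b' using QuotientGroup.induction_on with
    | H c => rw [sig_mk, sig_mk, hbase, hbase]
  have hdeg : ∀ a ∈ (Set.univ : Set F), ∃ p : E0[X], p ≠ 0 ∧
      p.natDegree ≤ Fintype.card (G ⧸ Γ) ∧ aeval a p = 0 := by
    intro a _
    have hfa : ∀ γ ∈ Γ, γ • φ a = φ a := fun γ hγ => hfix γ hγ a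
    set p : M[X] := RangeAbs.prodPoly Γ (φ a) hfa with hp
    have hcoeff : ∀ i : ℕ, p.coeff i ∈ Set.range (φ.comp (algebraMap E0 F)) := by
      intro i
      obtain ⟨e, he⟩ := hrange (p.coeff i)
        (RangeAbs.coeff_prodPoly_mem Γ (φ a) hfa S (fun g => hS g a) i)
        (fun g => RangeAbs.smul_coeff_prodPoly Γ (φ a) hfa g i)
      exact ⟨e, he⟩
    have hlift : p ∈ Polynomial.lifts (φ.comp (algebraMap E0 F)) :=
      (Polynomial.lifts_iff_coeff_lifts p).mpr hcoeff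
    have hmonic : p.Monic := RangeAbs.prodPoly_monic Γ (φ a) hfa
    obtain ⟨q, hq, hqd, hqm⟩ := Polynomial.lifts_and_natDegree_eq_and_monic hlift hmonic
    refine ⟨q, hqm.ne_zero, ?_, ?_⟩
    · rw [hqd, hp, RangeAbs.prodPoly_natDegree]
    · apply φ.injective
      rw [map_zero, aeval_def, Polynomial.hom_eval₂, Polynomial.eval₂_eq_eval_map, hq, hp]
      exact RangeAbs.prodPoly_eval_self Γ (φ a) hfa
  obtain ⟨h1, h2, h3⟩ := NormProd.finrank_eq_card_and_norm_eq_prod_of_charZero (E0 := E0)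
    (F := F) (M := M) (sig Γ φ hfix) (sig_injective Γ φ hfix hstab) hagree Set.univ
    (fun x => ⟨x, Set.mem_univ x, 1, one_ne_zero, by rw [map_one, div_one]⟩) hdeg
  refine ⟨h1, h2, fun f => ?_⟩
  have h := h3 (QuotientGroup.mk 1) f
  rw [sig_mk, one_smul] at h
  rw [h]
  exact Finset.prod_congr rfl fun c _ => sig_eq_conj Γ φ hfix c f

end AbsNorm

/-! ### Abstract form, along an algebra homomorphism -/

section AbsAlong

variable {K F F' M G : Type*} [Field K] [Field F] [Field F'] [Algebra K F] [Algebra K F']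
  [Field M] [Group G] [MulSemiringAction G M] [CharZero F]

/-- **Abstract degree and norm along `ψ`.** -/
theorem finrank_and_norm_along (ψ : F →ₐ[K] F') (Γ : Subgroup G) [Fintype (G ⧸ Γ)]
    (φ : F' →+* M) (φ0 : F →+* M) (hψ : ∀ e, φ (ψ e) = φ0 e)
    (hfix : ∀ γ ∈ Γ, ∀ f, γ • φ f = φ f)
    (hstab : ∀ γ : G, (∀ f, γ • φ f = φ f) → γ ∈ Γ)
    (hbase : ∀ (g : G) (e : F), g • φ0 e = φ0 e)
    (S : Subring M) (hS : ∀ (g : G) (f : F'), g • φ f ∈ S)
    (hrange : ∀ x ∈ S, (∀ g : G, g • x = x) → x ∈ φ0.range) :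
    FiniteAlong K ψ ∧ finrankAlong K ψ = Fintype.card (G ⧸ Γ) ∧
      ∀ f : F', φ0 (Kummer.normAlong ψ f) =
        ∏ c : G ⧸ Γ, RangeAbs.conj Γ (φ f) (fun γ hγ => hfix γ hγ f) c := by
  letI := algebraAlong ψ
  have halg : ∀ e : F, φ (algebraMap F F' e) = φ0 e := hψ
  obtain ⟨h1, h2, h3⟩ := finrank_and_norm_abs (E0 := F) (F := F') Γ φ hfix hstab
    (fun g e => by rw [halg, hbase]) S hS
    (fun x hx hinv => by
      obtain ⟨e, he⟩ := hrange x hx hinv
      exact ⟨e, by rw [halg, he]⟩)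
  refine ⟨h1, h2, fun f => ?_⟩
  rw [← h3 f, halg]
  rfl

end AbsAlong

/-! ### The subfield of elements all of whose translates are quotients of cusp functions -/

/-- The subfield of `MerFun` of elements all of whose `SL(2,ℤ)`-translates are quotients of cusp
functions of level `M`. -/
def cuspAllField (M : ℕ) : Subfield MerFun where
  carrier := {h | ∀ g : SL(2, ℤ), IsCuspMer M (g • h)}
  mul_mem' {x y} hx hy := fun g => by rw [smul_mul']; exact (hx g).mul (hy g)
  one_mem' := fun g => by rw [smul_one]; exact isCuspMer_one M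
  add_mem' {x y} hx hy := fun g => by rw [smul_add]; exact (hx g).add (hy g)
  zero_mem' := fun g => by rw [smul_zero]; exact isCuspMer_zero M
  neg_mem' {x} hx := fun g => by rw [smul_neg]; exact (hx g).neg
  inv_mem' x hx := fun g => by rw [smul_inv'']; exact (hx g).inv

theorem mem_cuspAllField {M : ℕ} {h : MerFun} :
    h ∈ cuspAllField M ↔ ∀ g : SL(2, ℤ), IsCuspMer M (g • h) := Iff.rfl

theorem smul_mem_cuspAllField {M : ℕ} {h : MerFun} (hh : h ∈ cuspAllField M) (g : SL(2, ℤ)) :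
    g • h ∈ cuspAllField M := fun g' => by
  rw [← mul_smul]
  exact hh (g' * g)

theorem embC_mem_cuspAllField (M : ℕ) [NeZero M] (f : FC M) : embC M f ∈ cuspAllField M :=
  fun g => isCuspMer_smul_embC M f g

/-! ### The norm along `α` -/

variable (N ℓ : ℕ) [NeZero N] [NeZero ℓ]

/-- `Γ₀(N ℓ)` as a subgroup of `Γ₀(N)`. -/
abbrev Gam : Subgroup ↥(Gamma0 N) := (Gamma0 (N * ℓ)).subgroupOf (Gamma0 N)

omit [NeZero N] [NeZero ℓ] in
theorem mem_Gam {γ : ↥(Gamma0 N)} : γ ∈ Gam N ℓ ↔ (γ : SL(2, ℤ)) ∈ Gamma0 (N * ℓ) :=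
  Subgroup.mem_subgroupOf

omit [NeZero N] [NeZero ℓ] in
theorem coe_smul_merFun (γ : ↥(Gamma0 N)) (x : MerFun) : γ • x = (γ : SL(2, ℤ)) • x := rfl

/-- The embedding at level `N ℓ` is fixed by `Γ₀(N ℓ) ∩ Γ₀(N)`. -/
theorem hfix_alpha : ∀ γ ∈ Gam N ℓ, ∀ f : FC (N * ℓ), γ • embC (N * ℓ) f = embC (N * ℓ) f :=
  fun _ hγ f => embC_fixed (N * ℓ) ((mem_Gam N ℓ).mp hγ) f

theorem hfix_alpha' (f : FC (N * ℓ)) : ∀ γ ∈ Gam N ℓ, γ • embC (N * ℓ) f = embC (N * ℓ) f :=
  fun γ hγ => hfix_alpha N ℓ γ hγ f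

/-- A `Γ₀(N)`-invariant element all of whose translates are quotients of cusp functions of level
`N ℓ` lies in the range of `embC N`. -/
theorem mem_range_embC_of_invariant {x : MerFun} (hx : x ∈ cuspAllField (N * ℓ))
    (hinv : ∀ γ ∈ Gamma0 N, γ • x = x) : x ∈ (embC N).range := by
  rw [RangeC.mem_range_embC_iff]
  refine ⟨hinv, fun g => ?_⟩
  have hpos : 0 < N * ℓ := Nat.pos_of_ne_zero (NeZero.ne (N * ℓ))
  refine CuspLevel.isCuspMer_of_dvd hpos (dvd_mul_right N ℓ) (hx g) ?_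
  have h := hinv _ (JD.conj_T_pow_mem_Gamma0 N g)
  rw [zpow_natCast] at h
  calc ModularGroup.T ^ N • g • x = g • ((g⁻¹ * ModularGroup.T ^ N * g) • x) := by
        rw [← mul_smul, ← mul_smul, mul_assoc, mul_inv_cancel_left]
    _ = g • x := by rw [h]

section WithFintype

variable [Fintype (↥(Gamma0 N) ⧸ Gam N ℓ)]

/-- **D5.** Degree and norm along `α = heckeAlphaBar ℂ N ℓ`. -/
theorem finrank_and_norm_alpha :
    FiniteAlong ℂ (heckeAlphaBar ℂ N ℓ) ∧
      finrankAlong ℂ (heckeAlphaBar ℂ N ℓ) = Fintype.card (↥(Gamma0 N) ⧸ Gam N ℓ) ∧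
      ∀ f : FC (N * ℓ), embC N (Kummer.normAlong (heckeAlphaBar ℂ N ℓ) f) =
        ∏ c : ↥(Gamma0 N) ⧸ Gam N ℓ,
          RangeAbs.conj (Gam N ℓ) (embC (N * ℓ) f) (hfix_alpha' N ℓ f) c :=
  finrank_and_norm_along (heckeAlphaBar ℂ N ℓ) (Gam N ℓ) (embC (N * ℓ)) (embC N)
    (fun e => LevelCompat.embC_heckeAlphaBar N ℓ e) (hfix_alpha N ℓ)
    (fun γ h => (mem_Gam N ℓ).mpr (embC_stab (N * ℓ) γ h))
    (fun g e => by rw [coe_smul_merFun, embC_fixed N g.2])
    (cuspAllField (N * ℓ)).toSubring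
    (fun g f => smul_mem_cuspAllField (embC_mem_cuspAllField (N * ℓ) f) g)
    (fun _ hx hinv => mem_range_embC_of_invariant N ℓ hx (fun γ hγ => hinv ⟨γ, hγ⟩))

theorem finiteAlong_alpha : FiniteAlong ℂ (heckeAlphaBar ℂ N ℓ) :=
  (finrank_and_norm_alpha N ℓ).1

theorem finrankAlong_alpha :
    finrankAlong ℂ (heckeAlphaBar ℂ N ℓ) = Fintype.card (↥(Gamma0 N) ⧸ Gam N ℓ) :=
  (finrank_and_norm_alpha N ℓ).2.1

/-- **D5, norm.** -/
theorem embC_norm_alpha (f : FC (N * ℓ)) :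
    embC N (Kummer.normAlong (heckeAlphaBar ℂ N ℓ) f) =
      ∏ c : ↥(Gamma0 N) ⧸ Gam N ℓ,
        RangeAbs.conj (Gam N ℓ) (embC (N * ℓ) f) (hfix_alpha' N ℓ f) c :=
  (finrank_and_norm_alpha N ℓ).2.2 f

/-- Version with explicit coset representatives: if `r : X → Γ₀(N)` induces a bijection
`X ≃ Γ₀(N) ⧸ Γ₀(N ℓ)`, the norm is the product of the translates by the `r x`. -/
theorem embC_norm_alpha_of_bijective {X : Type*} [Fintype X] (r : X → ↥(Gamma0 N))
    (hr : Function.Bijective fun x => (QuotientGroup.mk (r x) : ↥(Gamma0 N) ⧸ Gam N ℓ))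
    (f : FC (N * ℓ)) :
    embC N (Kummer.normAlong (heckeAlphaBar ℂ N ℓ) f) =
      ∏ x : X, ((r x : ↥(Gamma0 N)) : SL(2, ℤ)) • embC (N * ℓ) f := by
  rw [embC_norm_alpha]
  exact (Fintype.prod_bijective _ hr _ _ fun x => rfl).symm

end WithFintype

/-! ### Versions without a `Fintype` hypothesis -/

instance finite_quotient_Gam : Finite (↥(Gamma0 N) ⧸ Gam N ℓ) :=
  Subgroup.finite_quotient_of_finiteIndex

theorem finiteAlong_alpha' : FiniteAlong ℂ (heckeAlphaBar ℂ N ℓ) :=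
  haveI : Fintype (↥(Gamma0 N) ⧸ Gam N ℓ) := Fintype.ofFinite _
  finiteAlong_alpha N ℓ

/-- The degree of `α` is the index of `Γ₀(N ℓ)` in `Γ₀(N)`. -/
theorem finrankAlong_alpha_eq_relIndex :
    finrankAlong ℂ (heckeAlphaBar ℂ N ℓ) = (Gamma0 (N * ℓ)).relIndex (Gamma0 N) := by
  haveI : Fintype (↥(Gamma0 N) ⧸ Gam N ℓ) := Fintype.ofFinite _
  rw [finrankAlong_alpha N ℓ, Subgroup.relIndex, Subgroup.index, Nat.card_eq_fintype_card]

/-- Version with explicit coset representatives, without a `Fintype` instance on the quotient. -/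
theorem embC_norm_alpha_of_bijective' {X : Type*} [Fintype X] (r : X → ↥(Gamma0 N))
    (hr : Function.Bijective fun x => (QuotientGroup.mk (r x) : ↥(Gamma0 N) ⧸ Gam N ℓ))
    (f : FC (N * ℓ)) :
    embC N (Kummer.normAlong (heckeAlphaBar ℂ N ℓ) f) =
      ∏ x : X, ((r x : ↥(Gamma0 N)) : SL(2, ℤ)) • embC (N * ℓ) f :=
  haveI : Fintype (↥(Gamma0 N) ⧸ Gam N ℓ) := Fintype.ofFinite _
  embC_norm_alpha_of_bijective N ℓ r hr f

end Fermat.Agent.Gateway.Dict.NormAlpha
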