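import Mathlib
import Fermat.Agent.Gateway.Dict.NormAlpha
import Fermat.Agent.Gateway.Dict.NormQExpBridge
import Fermat.Agent.Gateway.Kummer.HeckeRed

/-!
helper46 (P-GATEWAY, WP-DICT, piece [G4]).  The `q`-expansion norm formula (C1) over `ℂ`:
for `u` in the function field `FC N` of `X₀(N)` over `ℂ`, and `ℓ` with explicit coset
representatives of `Γ₀(N ℓ)` in `Γ₀(N)` of the classical shape,
`(Norm_α (β u))(q^ℓ) = u(q^(ℓ²)) * ∏_{b<ℓ} u(ζ^b q)`, `ζ = e^{2πi/ℓ}`.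

* `embC_heckeFun_of_reps` : the identity in `MerFun`,
  `embC N (heckeFun u) (z) = U(ℓ z) * ∏_{b<ℓ} U((z + b)/ℓ)` with `U = embC N u`.
* `normQExpFormula_of_reps` : `Kummer.NormQExpFormula ℂ N ℓ (zetaR (1/ℓ))` from the coset data.
-/

set_option autoImplicit false

open ModularCurve CongruenceSubgroup
open UpperHalfPlane hiding I
open scoped MatrixGroups Real

namespace Fermat.Agent.Gateway.Dict.NormQExp

open Fermat.Agent.S24 Fermat.Agent.S24.JLevel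
open Fermat.Agent.Gateway.Kummer Fermat.Agent.Gateway.Dict.QExpTranslate
open Fermat.Agent.Gateway.Dict.QExpMer Fermat.Agent.Gateway.Dict.NormQExpAux
open Fermat.Agent.Gateway.Dict.NormQExpBridge Fermat.Agent.Gateway.Dict.NormAlpha
open Fermat.Agent.Gateway.Dict.SetupC Fermat.Agent.Gateway.Dict.EmbedC

variable (N ℓ : ℕ) [NeZero N] [NeZero ℓ]

/-- **D5 in explicit form.** Given coset representatives `1, γ_b` (`b < ℓ`) of `Γ₀(N ℓ)` in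
`Γ₀(N)` with `diag(ℓ,1) γ_b⁻¹ = δ_b [[1,b],[0,ℓ]]`, `δ_b ∈ Γ₀(N)`, the analytic function attached
to `Norm_α (β u)` is `z ↦ U(ℓ z) ∏_{b<ℓ} U((z+b)/ℓ)`, `U = embC N u`. -/
theorem embC_heckeFun_of_reps (r : Option (Fin ℓ) → ↥(Gamma0 N))
    (hr : Function.Bijective fun x => (QuotientGroup.mk (r x) : ↥(Gamma0 N) ⧸ Gam N ℓ))
    (hnone : r none = 1) (δ : Fin ℓ → SL(2, ℤ)) (hδ : ∀ b, δ b ∈ Gamma0 N)
    (hmat : ∀ b : Fin ℓ, !![(ℓ : ℤ), 0; 0, 1] *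
        ((((r (some b) : ↥(Gamma0 N)) : SL(2, ℤ))⁻¹ : SL(2, ℤ)) : Matrix (Fin 2) (Fin 2) ℤ) =
      (δ b : Matrix (Fin 2) (Fin 2) ℤ) * !![1, ((b : ℕ) : ℤ); 0, (ℓ : ℤ)])
    (u : FC N) :
    embC N (heckeFun ℂ N ℓ u) = ((diagGL ℓ)⁻¹ • embC N u) *
      ∏ b ∈ Finset.range ℓ, (upperGL ℓ (b : ℝ))⁻¹ • embC N u := by
  have hU : ∀ γ ∈ Gamma0 N, γ • embC N u = embC N u := fun γ hγ => embC_fixed N hγ u
  rw [heckeFun, embC_norm_alpha_of_bijective' N ℓ r hr, Fintype.prod_option, hnone,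
    LevelCompat.embC_heckeBetaBar]
  congr 1
  · rw [Subgroup.coe_one, one_smul]
  · rw [← Fin.prod_univ_eq_prod_range (fun b : ℕ => (upperGL ℓ (b : ℝ))⁻¹ • embC N u) ℓ]
    refine Finset.prod_congr rfl fun b _ => ?_
    have := smul_smul_eq_upperGL_of_int ℓ hU (hδ b) (hmat b)
    rw [this, Int.cast_natCast]

/-- **(C1) over `ℂ`**, from the coset data. -/
theorem normQExpFormula_of_reps (r : Option (Fin ℓ) → ↥(Gamma0 N))
    (hr : Function.Bijective fun x => (QuotientGroup.mk (r x) : ↥(Gamma0 N) ⧸ Gam N ℓ))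
    (hnone : r none = 1) (δ : Fin ℓ → SL(2, ℤ)) (hδ : ∀ b, δ b ∈ Gamma0 N)
    (hmat : ∀ b : Fin ℓ, !![(ℓ : ℤ), 0; 0, 1] *
        ((((r (some b) : ↥(Gamma0 N)) : SL(2, ℤ))⁻¹ : SL(2, ℤ)) : Matrix (Fin 2) (Fin 2) ℤ) =
      (δ b : Matrix (Fin 2) (Fin 2) ℤ) * !![1, ((b : ℕ) : ℤ); 0, (ℓ : ℤ)]) :
    NormQExpFormula ℂ N ℓ (zetaR (1 / (ℓ : ℝ))) := by
  intro u
  exact qExpand_eq_of_prod ℓ (hasQ_embC N u) (hasQ_embC N (heckeFun ℂ N ℓ u))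
    (embC_heckeFun_of_reps N ℓ r hr hnone δ hδ hmat u)

end Fermat.Agent.Gateway.Dict.NormQExp
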