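/-
P-GATEWAY, WP-DICT piece [G3c] (helper24): the coset representatives of `Dict/CosetsP1.lean`
in the `Option (Fin ℓ)` shape consumed by helper46's `NormQExp.normQExpFormula_of_reps`, and the
resulting unconditional statements: D5 in explicit form and (C1) over `ℂ`.
-/
import Fermat.Agent.Gateway.Dict.CosetsP1
import Fermat.Agent.Gateway.Dict.NormQExp

set_option autoImplicit false

noncomputable section

open CongruenceSubgroup MatrixGroups UpperHalfPlane ModularCurve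
open Fermat.Agent.S24 Fermat.Agent.S24.JLevel

namespace Fermat.Agent.Gateway.Dict.CosetsFin

open CosetsP1 NormQExpAux NormQExp NormAlpha SetupC EmbedC
open Fermat.Agent.Gateway.Kummer Fermat.Agent.Gateway.Dict.QExpTranslate

variable {N ℓ : ℕ}

/-- The representatives as a function `Option (Fin ℓ) → Γ₀(N)`: `none ↦ 1`, `b ↦ γ_b`. -/
def repFin (h : Nat.Coprime ℓ N) : Option (Fin ℓ) → ↥(Gamma0 N)
  | none => 1
  | some b => repG h ((b : ℕ) : ℤ)

@[simp] theorem repFin_none (h : Nat.Coprime ℓ N) : repFin h (none : Option (Fin ℓ)) = 1 := rfl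

@[simp] theorem repFin_some (h : Nat.Coprime ℓ N) (b : Fin ℓ) :
    repFin h (some b) = repG h ((b : ℕ) : ℤ) := rfl

theorem repFin_bijective (hl : ℓ.Prime) (hlN : ¬ ℓ ∣ N) :
    Function.Bijective fun x : Option (Fin ℓ) =>
      (QuotientGroup.mk (repFin ((Nat.Prime.coprime_iff_not_dvd hl).mpr hlN) x) :
        ↥(Gamma0 N) ⧸ sub N ℓ) := by
  have hc : Nat.Coprime ℓ N := (Nat.Prime.coprime_iff_not_dvd hl).mpr hlN
  have : NeZero ℓ := ⟨hl.ne_zero⟩
  constructor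
  · intro x y hxy
    rcases x with _ | b <;> rcases y with _ | b'
    · rfl
    · exact absurd hxy.symm (mk_repG_ne_one hc hl.ne_one _)
    · exact absurd hxy (mk_repG_ne_one hc hl.ne_one _)
    · change (QuotientGroup.mk (repG hc ((b : ℕ) : ℤ)) : ↥(Gamma0 N) ⧸ sub N ℓ)
        = QuotientGroup.mk (repG hc ((b' : ℕ) : ℤ)) at hxy
      rw [mk_repG_eq_iff hc] at hxy
      have h1 : ((b : ℕ) : ℤ) ≡ ((b' : ℕ) : ℤ) [ZMOD (ℓ : ℤ)] :=
        (Int.modEq_iff_dvd.mpr (by rw [← dvd_neg]; simpa using hxy))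
      have h2 : (b : ℕ) ≡ (b' : ℕ) [MOD ℓ] := Int.natCast_modEq_iff.mp h1
      have h3 : (b : ℕ) = (b' : ℕ) := Nat.ModEq.eq_of_lt_of_lt h2 b.2 b'.2
      rw [Fin.ext h3]
  · intro c
    obtain ⟨x, hx⟩ := cosetMap_surjective hc hl c
    rcases x with _ | b
    · exact ⟨none, hx⟩
    · refine ⟨some ⟨b.val, ZMod.val_lt b⟩, ?_⟩
      exact hx

theorem hmat_repFin (h : Nat.Coprime ℓ N) (b : Fin ℓ) :
    !![(ℓ : ℤ), 0; 0, 1] *
        ((((repFin h (some b) : ↥(Gamma0 N)) : SL(2, ℤ))⁻¹ : SL(2, ℤ)) : Matrix (Fin 2) (Fin 2) ℤ) =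
      (delta h : Matrix (Fin 2) (Fin 2) ℤ) * !![1, ((b : ℕ) : ℤ); 0, (ℓ : ℤ)] :=
  diag_mul_rep_inv h _

variable (N ℓ) [NeZero N] [NeZero ℓ]

/-- **D5 in explicit form**, unconditional: for a prime `ℓ ∤ N` and `u` in the function field of
`X₀(N)` over `ℂ`, the analytic function attached to `Norm_α (β u)` is
`z ↦ U(ℓ z) ∏_{b<ℓ} U((z+b)/ℓ)`, `U = embC N u`. -/
theorem embC_heckeFun (hl : ℓ.Prime) (hlN : ¬ ℓ ∣ N) (u : FC N) :
    embC N (heckeFun ℂ N ℓ u) = ((diagGL ℓ)⁻¹ • embC N u) *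
      ∏ b ∈ Finset.range ℓ, (upperGL ℓ (b : ℝ))⁻¹ • embC N u := by
  have hc : Nat.Coprime ℓ N := (Nat.Prime.coprime_iff_not_dvd hl).mpr hlN
  exact embC_heckeFun_of_reps N ℓ (repFin hc) (repFin_bijective hl hlN) rfl (fun _ => delta hc)
    (fun _ => delta_mem hc) (hmat_repFin hc) u

/-- **(C1) over `ℂ`**, unconditional: the `q`-expansion norm formula
`(Norm_α (β u))(q^ℓ) = u(q^(ℓ²)) * ∏_{b<ℓ} u(ζ^b q)`, `ζ = e^{2πi/ℓ}`, for a prime `ℓ ∤ N`. -/
theorem normQExpFormula (hl : ℓ.Prime) (hlN : ¬ ℓ ∣ N) :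
    NormQExpFormula ℂ N ℓ (zetaR (1 / (ℓ : ℝ))) := by
  have hc : Nat.Coprime ℓ N := (Nat.Prime.coprime_iff_not_dvd hl).mpr hlN
  exact normQExpFormula_of_reps N ℓ (repFin hc) (repFin_bijective hl hlN) rfl (fun _ => delta hc)
    (fun _ => delta_mem hc) (hmat_repFin hc)

end Fermat.Agent.Gateway.Dict.CosetsFin
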