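/-
P-GATEWAY, WP-DICT (helper19), piece [E]: an `SL(2,ℤ)`-invariant meromorphic function on `ℍ`
which is meromorphic at the cusp is a rational function of `j`.

`exists_ratfunc_of_invariant_aux` takes the two analytic facts about cusp functions
(`CuspBound.lean`: no zeros high up; a holomorphic quotient of cusp functions has moderate growth)
as hypotheses.
-/
import Fermat.Agent.Gateway.Dict.HolOfOrd
import Fermat.Agent.S24.CuspOrdMer
import Fermat.Agent.S24.SymmFn
import Fermat.Agent.S24.Bridge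
import Fermat.Agent.S24.Conj
import Fermat.Agent.S24.JFun.Surj

set_option autoImplicit false

open UpperHalfPlane Complex Filter
open scoped Manifold MatrixGroups Topology Modular

namespace Fermat.Agent.Gateway.Dict.MerInvJ

open Fermat.Agent.S24 Fermat.Agent.S24.MerFun Fermat.Agent.S24.CuspOrd

/-! ### Polynomials in `j` -/

theorem aeval_jHol_apply (Q : Polynomial ℂ) (z : ℍ) :
    ((Polynomial.aeval jHol Q : HolFun) : ℍ → ℂ) z = Q.eval (jFn z) := by
  induction Q using Polynomial.induction_on' with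
  | add p q hp hq => simp [hp, hq]
  | monomial n a => simp [Polynomial.aeval_monomial, jHol_apply]

theorem sl_smul_aeval_jHol (γ : SL(2, ℤ)) (Q : Polynomial ℂ) :
    γ • (Polynomial.aeval jHol Q : HolFun) = Polynomial.aeval jHol Q := by
  ext z
  rw [HolFun.sl_smul_apply, aeval_jHol_apply, aeval_jHol_apply, jFn_smul]

theorem aeval_jHol_mem_cuspFnAlg (N : ℕ) (Q : Polynomial ℂ) :
    (Polynomial.aeval jHol Q : HolFun) ∈ cuspFnAlg N := by
  have h := Polynomial.aeval_subalgebra_coe Q (cuspFnAlg N)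
    (⟨jHol, jHol_mem_cuspFnAlg N⟩ : cuspFnAlg N)
  rw [← h]
  exact Subtype.property _

theorem aeval_jHol_ne_zero {Q : Polynomial ℂ} (hQ : Q ≠ 0) :
    (Polynomial.aeval jHol Q : HolFun) ≠ 0 := by
  intro h0
  apply hQ
  apply Polynomial.funext
  intro c
  obtain ⟨z, rfl⟩ := JFun.jFn_surjective c
  rw [← aeval_jHol_apply, h0]
  simp

/-! ### Finiteness of the zeros in a truncated fundamental domain -/

theorem half_le_im_of_mem_fd {z : ℍ} (hz : z ∈ 𝒟) : 1 / 2 ≤ z.im := by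
  have h := ModularGroup.three_le_four_mul_im_sq_of_mem_fd hz
  have hpos := z.im_pos
  nlinarith

/-- A nonzero holomorphic function has finitely many zeros in the part `Im z ≤ Y` of the
standard fundamental domain. -/
theorem finite_zeros_fd {b : HolFun} (hb : b ≠ 0) (Y : ℝ) :
    {z : ℍ | z ∈ 𝒟 ∧ z.im ≤ Y ∧ (b : ℍ → ℂ) z = 0}.Finite := by
  by_contra hinf
  have hinf' : {z : ℍ | z ∈ 𝒟 ∧ z.im ≤ Y ∧ (b : ℍ → ℂ) z = 0}.Infinite := hinf
  set S : Set ℍ := {z : ℍ | z ∈ 𝒟 ∧ z.im ≤ Y ∧ (b : ℍ → ℂ) z = 0} with hS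
  have hinj : Function.Injective (fun z : ℍ => (z : ℂ)) := fun _ _ h => UpperHalfPlane.ext h
  have himg : ((fun z : ℍ => (z : ℂ)) '' S).Infinite := hinf'.image hinj.injOn
  set K : Set ℂ := Set.Icc (-(1 / 2) : ℝ) (1 / 2) ×ℂ Set.Icc (1 / 2 : ℝ) Y with hK
  have hKc : IsCompact K := isCompact_Icc.reProdIm isCompact_Icc
  have hsub : (fun z : ℍ => (z : ℂ)) '' S ⊆ K := by
    rintro w ⟨z, ⟨hz1, hz2, -⟩, rfl⟩
    rw [hK, mem_reProdIm]
    refine ⟨⟨?_, ?_⟩, half_le_im_of_mem_fd hz1, hz2⟩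
    · have := (abs_le.mp hz1.2).1
      simpa using this
    · have := (abs_le.mp hz1.2).2
      simpa using this
  obtain ⟨w₀, hw₀K, hacc⟩ := himg.exists_accPt_of_subset_isCompact hKc hsub
  have hw₀im : 0 < w₀.im := by
    rw [hK, mem_reProdIm] at hw₀K
    linarith [hw₀K.2.1]
  set τ₀ : ℍ := ⟨w₀, hw₀im⟩ with hτ₀
  rw [accPt_iff_frequently_nhdsNE] at hacc
  have hev := Bridge.eventually_ne_zero τ₀ hb
  have hfr : ∃ᶠ y in 𝓝[≠] (τ₀ : ℂ), (b : ℍ → ℂ) (ofComplex y) = 0 := by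
    refine hacc.mono ?_
    rintro y ⟨z, ⟨-, -, hz⟩, rfl⟩
    simpa using hz
  exact (hfr.and_eventually hev).exists.elim fun y hy => hy.2 hy.1

/-! ### Clearing the poles -/

/-- `j - c` as a holomorphic function. -/
noncomputable def lin (c : ℂ) : HolFun := jHol - algebraMap ℂ HolFun c

theorem lin_ne_zero (c : ℂ) : lin c ≠ 0 := by
  obtain ⟨z, rfl⟩ := JFun.jFn_surjective c
  exact Bridge.jHol_sub_const_ne_zero z

theorem one_le_ordMer_lin (τ : ℍ) :
    1 ≤ ordMer τ (algebraMap HolFun MerFun (lin (jFn τ))) := by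
  rw [lin, Bridge.ordMer_jHol_sub_const]
  split_ifs <;> norm_num

theorem algebraMap_lin_ne_zero (c : ℂ) : algebraMap HolFun MerFun (lin c) ≠ 0 :=
  algebraMap_ne_zero (lin_ne_zero c)

/-- The polynomial clearing the poles. -/
noncomputable def clearPoly (S : Finset ℍ) (k : ℍ → ℕ) : Polynomial ℂ :=
  ∏ s ∈ S, (Polynomial.X - Polynomial.C (jFn s)) ^ k s

theorem clearPoly_ne_zero (S : Finset ℍ) (k : ℍ → ℕ) : clearPoly S k ≠ 0 := by
  rw [clearPoly, Finset.prod_ne_zero_iff]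
  intro s _
  exact pow_ne_zero _ (Polynomial.X_sub_C_ne_zero _)

theorem algebraMap_aeval_clearPoly (S : Finset ℍ) (k : ℍ → ℕ) :
    algebraMap HolFun MerFun (Polynomial.aeval jHol (clearPoly S k)) =
      ∏ s ∈ S, (algebraMap HolFun MerFun (lin (jFn s))) ^ k s := by
  rw [clearPoly, map_prod, map_prod]
  refine Finset.prod_congr rfl fun s _ => ?_
  rw [map_pow, map_pow, map_sub, Polynomial.aeval_X, Polynomial.aeval_C, lin]

theorem le_ordMer_clearPoly (S : Finset ℍ) (k : ℍ → ℕ) (τ : ℍ) (hτ : τ ∈ S) :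
    (k τ : ℤ) ≤ ordMer τ (algebraMap HolFun MerFun (Polynomial.aeval jHol (clearPoly S k))) := by
  rw [algebraMap_aeval_clearPoly, Conj.ordMer_prod τ S _
    (fun s _ => pow_ne_zero _ (algebraMap_lin_ne_zero _))]
  have hnonneg : ∀ s ∈ S, 0 ≤ ordMer τ ((algebraMap HolFun MerFun (lin (jFn s))) ^ k s) := by
    intro s _
    rw [ordMer_pow]
    exact mul_nonneg (Int.natCast_nonneg _) (ordMer_algebraMap_nonneg τ _)
  refine le_trans ?_ (Finset.single_le_sum hnonneg hτ)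
  rw [ordMer_pow]
  have h1 := one_le_ordMer_lin τ
  have h2 : (0 : ℤ) ≤ k τ := Int.natCast_nonneg _
  nlinarith

/-! ### The main theorem -/

/-- **Meromorphic invariants are rational functions of `j`** (modulo the two analytic facts about
cusp functions `hA`, `hB`). -/
theorem exists_ratfunc_of_invariant_aux {N : ℕ} (h : MerFun)
    (hinv : ∀ γ : SL(2, ℤ), γ • h = h) (hcusp : IsCuspMer N h)
    (hA : ∀ b : ℍ → ℂ, IsCuspFn N b → b ≠ 0 → ∃ Y : ℝ, ∀ z : ℍ, Y ≤ z.im → b z ≠ 0)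
    (hB : ∀ f a b : ℍ → ℂ, MDiff f → IsCuspFn N a → IsCuspFn N b → b ≠ 0 →
      (∀ z, f z * b z = a z) → ModGrowth f) :
    ∃ P Q : Polynomial ℂ, Q ≠ 0 ∧
      h * algebraMap HolFun MerFun (Polynomial.aeval jHol Q) =
        algebraMap HolFun MerFun (Polynomial.aeval jHol P) := by
  classical
  by_cases h0 : h = 0
  · exact ⟨0, 1, one_ne_zero, by rw [h0, zero_mul, map_zero, map_zero]⟩
  obtain ⟨a, b, ha, hb, ha0, hb0, hab⟩ := hcusp.exists_div h0
  obtain ⟨Y, hY⟩ := hA (b : ℍ → ℂ) hb (holFun_ne_zero_iff.1 hb0)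
  set S : Finset ℍ := (finite_zeros_fd hb0 Y).toFinset with hS
  set k : ℍ → ℕ := fun s => (HolFun.ordAt s).nat b with hk
  set Q := clearPoly S k with hQ
  have hQ0 : Q ≠ 0 := clearPoly_ne_zero S k
  set QJ : HolFun := Polynomial.aeval jHol Q with hQJ
  have hQJ0 : QJ ≠ 0 := aeval_jHol_ne_zero hQ0
  have hQJ0' : algebraMap HolFun MerFun QJ ≠ 0 := algebraMap_ne_zero hQJ0
  set H : MerFun := h * algebraMap HolFun MerFun QJ with hH
  have hHinv : ∀ γ : SL(2, ℤ), γ • H = H := by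
    intro γ
    rw [hH, smul_mul', hinv γ, MerFun.sl_smul_algebraMap, hQJ, sl_smul_aeval_jHol]
  -- nonnegativity of the orders in the fundamental domain
  have hfd : ∀ τ : ℍ, τ ∈ 𝒟 → 0 ≤ ordMer τ H := by
    intro τ hτ
    rw [hH, ordMer_mul τ h0 hQJ0', hab, ordMer_div_holFun τ ha0 hb0]
    by_cases hbτ : (b : ℍ → ℂ) τ = 0
    · have hτim : τ.im ≤ Y := by
        by_contra hlt
        exact hY τ (not_le.mp hlt).le hbτ
      have hτS : τ ∈ S := by
        rw [hS, Set.Finite.mem_toFinset]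
        exact ⟨hτ, hτim, hbτ⟩
      have h1 := le_ordMer_clearPoly S k τ hτS
      have h2 : (0 : ℤ) ≤ ((HolFun.ordAt τ).nat a : ℤ) := Int.natCast_nonneg _
      have h3 : (k τ : ℤ) = ((HolFun.ordAt τ).nat b : ℤ) := rfl
      rw [← hQ, ← hQJ] at h1
      linarith
    · have h1 : (HolFun.ordAt τ).nat b = 0 := by
        have : HolFun.ordAt τ b = 0 := (HolFun.ordAt_eq_zero_iff τ b).mpr hbτ
        simp [OrdFn.nat, this]
      have h2 : (0 : ℤ) ≤ ((HolFun.ordAt τ).nat a : ℤ) := Int.natCast_nonneg _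
      have h3 := ordMer_algebraMap_nonneg τ QJ
      rw [h1]
      push_cast
      linarith
  -- everywhere
  have hall : ∀ τ : ℍ, 0 ≤ ordMer τ H := by
    intro τ
    obtain ⟨γ, hγ⟩ := ModularGroup.exists_smul_mem_fd τ
    have h1 := ordMer_sl_smul γ⁻¹ H τ
    rw [hHinv, inv_inv] at h1
    rw [h1]
    exact hfd _ hγ
  obtain ⟨f, hf⟩ := HolOfOrd.exists_holFun_of_ordMer_nonneg H hall
  -- invariance of `f`
  have hfinv : ∀ γ : SL(2, ℤ), γ • f = f := by
    intro γ
    apply algebraMap_injective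
    rw [← MerFun.sl_smul_algebraMap, hf, hHinv]
  -- `f * b = a * QJ`
  have hb0' : algebraMap HolFun MerFun b ≠ 0 := algebraMap_ne_zero hb0
  have hfb : f * b = a * QJ := by
    apply algebraMap_injective
    rw [map_mul, map_mul, hf, hH, hab]
    field_simp
  -- growth
  have hgrowth : ModGrowth (f : ℍ → ℂ) := by
    refine hB (f : ℍ → ℂ) ((a * QJ : HolFun) : ℍ → ℂ) (b : ℍ → ℂ) f.2 ?_ hb
      (holFun_ne_zero_iff.1 hb0) ?_
    · exact (cuspFnAlg N).mul_mem ha (aeval_jHol_mem_cuspFnAlg N Q)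
    · intro z
      have := congrArg (fun g : HolFun => (g : ℍ → ℂ) z) hfb
      simpa using this
  have hfg : f ∈ SymmFn.growthAlg := by
    intro γ
    rw [hfinv γ]
    exact hgrowth
  obtain ⟨P, hP⟩ := SymmFn.exists_polynomial_of_invariant hfg hfinv
  exact ⟨P, Q, hQ0, by rw [← hP, hf]⟩

end Fermat.Agent.Gateway.Dict.MerInvJ
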