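import Mathlib
import Fermat.Agent.Gateway.Dict.NormQExp
import Fermat.Agent.Gateway.Theta.HeckeCore

/-!
helper46 (P-GATEWAY, WP-DICT, D5 in the shape consumed by WP-HK3).  The product
`∏_{b<ℓ}` of `NormQExp.embC_heckeFun_of_reps` is the Hecke product
`ThetaHecke.heckeProd ℓ h = ∏ x : OnePoint (ZMod ℓ), (heckeRepPos ℓ x)⁻¹ • h` of helper20.

* `heckeProd_eq` : `heckeProd ℓ h = ((diagGL ℓ)⁻¹ • h) * ∏ b ∈ range ℓ, (upperGL ℓ b)⁻¹ • h`.
* `embC_heckeFun_eq_heckeProd_of_reps` : `embC N (heckeFun ℂ N ℓ u) = heckeProd ℓ (embC N u)`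
  from the coset data.
-/

set_option autoImplicit false

open ModularCurve CongruenceSubgroup
open UpperHalfPlane hiding I
open scoped MatrixGroups Real OnePoint
open P2MW.S_ModularForm_heckeT_slash_eq_self_of_mem_Gamma0.ModularForm.HeckeSlashInvariance

namespace Fermat.Agent.Gateway.Dict.NormProd

open Fermat.Agent.S24 Fermat.Agent.S24.JLevel
open Fermat.Agent.Gateway.Kummer Fermat.Agent.Gateway.ThetaHecke
open Fermat.Agent.Gateway.Dict.NormQExpAux Fermat.Agent.Gateway.Dict.NormQExpBridge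
open Fermat.Agent.Gateway.Dict.NormAlpha Fermat.Agent.Gateway.Dict.NormQExp
open Fermat.Agent.Gateway.Dict.SetupC Fermat.Agent.Gateway.Dict.EmbedC

variable (ℓ : ℕ) [NeZero ℓ] [Fact ℓ.Prime]

omit [Fact ℓ.Prime] in
theorem heckeRepPos_infty : heckeRepPos ℓ ∞ = diagGL ℓ := by
  apply glPos_ext
  rw [coe_heckeRepPos, heckeRep_infty, ModularForm.val_heckeDiagMatrix (NeZero.ne ℓ),
    coe_diagGL_matrix]

omit [Fact ℓ.Prime] in
theorem heckeRepPos_coe (j : ZMod ℓ) : heckeRepPos ℓ (j : OnePoint (ZMod ℓ)) =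
    upperGL ℓ ((j.val : ℕ) : ℝ) := by
  apply glPos_ext
  rw [coe_heckeRepPos, heckeRep_coe, ModularForm.val_heckeMatrix (NeZero.ne ℓ),
    coe_upperGL_matrix]

theorem prod_zmod_val {M : Type*} [CommMonoid M] (F : ℕ → M) :
    ∏ j : ZMod ℓ, F j.val = ∏ b ∈ Finset.range ℓ, F b := by
  obtain ⟨n, rfl⟩ := Nat.exists_eq_succ_of_ne_zero (NeZero.ne ℓ)
  exact Fin.prod_univ_eq_prod_range F (n + 1)

/-- The Hecke product in terms of `diagGL` and `upperGL`. -/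
theorem heckeProd_eq (h : MerFun) :
    heckeProd ℓ h = ((diagGL ℓ)⁻¹ • h) *
      ∏ b ∈ Finset.range ℓ, (upperGL ℓ (b : ℝ))⁻¹ • h := by
  rw [heckeProd, ← prod_zmod_val ℓ (fun b : ℕ => (upperGL ℓ (b : ℝ))⁻¹ • h)]
  have h1 : ∏ x : OnePoint (ZMod ℓ), (heckeRepPos ℓ x)⁻¹ • h =
      ((heckeRepPos ℓ ∞)⁻¹ • h) * ∏ j : ZMod ℓ, (heckeRepPos ℓ (j : OnePoint (ZMod ℓ)))⁻¹ • h :=
    Fintype.prod_option (fun x : OnePoint (ZMod ℓ) => (heckeRepPos ℓ x)⁻¹ • h)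
  rw [h1, heckeRepPos_infty]
  congr 1
  exact Finset.prod_congr rfl fun j _ => by rw [heckeRepPos_coe]

variable (N : ℕ) [NeZero N]

/-- **D5 in the shape of WP-HK3**, from the coset data. -/
theorem embC_heckeFun_eq_heckeProd_of_reps (r : Option (Fin ℓ) → ↥(Gamma0 N))
    (hr : Function.Bijective fun x => (QuotientGroup.mk (r x) : ↥(Gamma0 N) ⧸ Gam N ℓ))
    (hnone : r none = 1) (δ : Fin ℓ → SL(2, ℤ)) (hδ : ∀ b, δ b ∈ Gamma0 N)
    (hmat : ∀ b : Fin ℓ, !![(ℓ : ℤ), 0; 0, 1] *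
        ((((r (some b) : ↥(Gamma0 N)) : SL(2, ℤ))⁻¹ : SL(2, ℤ)) : Matrix (Fin 2) (Fin 2) ℤ) =
      (δ b : Matrix (Fin 2) (Fin 2) ℤ) * !![1, ((b : ℕ) : ℤ); 0, (ℓ : ℤ)])
    (u : FC N) :
    embC N (heckeFun ℂ N ℓ u) = heckeProd ℓ (embC N u) := by
  rw [heckeProd_eq, embC_heckeFun_of_reps N ℓ r hr hnone δ hδ hmat u]

end Fermat.Agent.Gateway.Dict.NormProd
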