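import Mathlib
import Fermat.Agent.Gateway.Dict.EmbedC
import Fermat.Agent.S24.AddVal
import Fermat.Agent.S24.Bridge
import Fermat.Agent.S24.CuspOrdMer
import Fermat.Agent.S24.JFun.Surj

/-!
helper46 (P-GATEWAY, WP-DICT, piece [D] of note 310, weak form of D3).  Every point `z : ℍ` and
every cusp `g • ∞` gives a place of the function field `FC N` of `X₀(N)` over `ℂ`, whose order
function is (a positive multiple away from) the analytic order of `embC N f` at `z`, resp. the
order at `∞` of `g • embC N f`.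

* `isAddVal_ordMer_embC`, `isAddVal_ordInfMer_smul_embC` : the analytic orders are valuations.
* `exists_place_of_point`, `exists_place_of_cusp` : the places.
-/

set_option autoImplicit false

open ModularCurve
open UpperHalfPlane hiding I
open scoped MatrixGroups

namespace Fermat.Agent.Gateway.Dict.PlaceOfPoint

open Fermat.Agent.S24 Fermat.Agent.S24.CuspOrd
open Fermat.Agent.Gateway.Dict.SetupC Fermat.Agent.Gateway.Dict.ConjAbs
open Fermat.Agent.Gateway.Dict.EmbedC

variable (N : ℕ) [NeZero N]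

/-- The twisted embedding `f ↦ g • embC N f`. -/
noncomputable def twC (g : SL(2, ℤ)) : FC N →+* MerFun := tw (embData N) g

@[simp] theorem twC_apply (g : SL(2, ℤ)) (f : FC N) : twC N g f = g • embC N f := rfl

theorem twC_const (g : SL(2, ℤ)) (c : ℂ) :
    twC N g (algebraMap ℂ (FC N) c) = Conj.const c := by
  rw [twC_apply, embC_const, Conj.sl_smul_const]

theorem twC_jF (g : SL(2, ℤ)) : twC N g (jF N) = algebraMap HolFun MerFun jHol := by
  rw [twC_apply, embC_jF, MerFun.sl_smul_algebraMap, sl_smul_jHol]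

/-- The order at `z` of `embC N f` is a valuation of `FC N` trivial on `ℂ`. -/
theorem isAddVal_ordMer_embC (z : ℍ) :
    IsAddVal ℂ (fun f : FC N => MerFun.ordMer z (embC N f)) where
  map_mul f g hf hg := by
    show MerFun.ordMer z (embC N (f * g)) = _
    rw [map_mul, MerFun.ordMer_mul z ((map_ne_zero (embC N)).2 hf) ((map_ne_zero (embC N)).2 hg)]
  map_add f g hf hg hfg := by
    show _ ≤ MerFun.ordMer z (embC N (f + g))
    rw [map_add]
    exact MerFun.ordMer_add_ge z ((map_ne_zero (embC N)).2 hf) ((map_ne_zero (embC N)).2 hg)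
      (by rw [← map_add]; exact (map_ne_zero (embC N)).2 hfg)
  map_const c _ := by
    show MerFun.ordMer z (embC N (algebraMap ℂ (FC N) c)) = 0
    rw [embC_const, Conj.ordMer_const]

/-- The order at `∞` of `g • embC N f` is a valuation of `FC N` trivial on `ℂ`. -/
theorem isAddVal_ordInfMer_smul_embC (g : SL(2, ℤ)) :
    IsAddVal ℂ (fun f : FC N => ordInfMer N (g • embC N f)) :=
  isAddVal_ordInfMer_comp (Nat.pos_of_neZero N) (twC N g) (fun c => c)
    (fun f => isCuspMer_smul_embC N f g) (fun c => twC_const N g c)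

/-- `embC` of `j - j(z)`. -/
theorem embC_jF_sub_const (c : ℂ) :
    embC N (jF N - algebraMap ℂ (FC N) c) =
      algebraMap HolFun MerFun (jHol - algebraMap ℂ HolFun c) := by
  rw [map_sub, embC_jF, embC_const, Conj.const, ← map_sub]

theorem jF_sub_const_ne_zero (c : ℂ) : jF N - algebraMap ℂ (FC N) c ≠ 0 := by
  intro h0
  obtain ⟨τ, hτ⟩ := JFun.jFn_surjective (c + 1)
  have h1 := embC_jF_sub_const N c
  rw [h0, map_zero] at h1
  have h2 : (jHol - algebraMap ℂ HolFun c : HolFun) = 0 :=
    IsFractionRing.injective HolFun MerFun (by rw [← h1, map_zero])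
  have h3 : ((jHol - algebraMap ℂ HolFun c : HolFun) : ℍ → ℂ) τ = 0 := by rw [h2]; rfl
  simp only [HolFun.coe_sub_apply, jHol_apply, HolFun.coe_algebraMap] at h3
  rw [hτ] at h3
  simp at h3

/-- **[D], points.** Every point `z` of the upper half plane gives a place `v` of `FC N` such
that the order of `embC N f` at `z` is a fixed positive multiple of `v.ord f`. -/
theorem exists_place_of_point (z : ℍ) :
    ∃ (v : AlgebraicCurve.Place ℂ (FC N)) (c : ℕ), 0 < c ∧
      ∀ f : FC N, f ≠ 0 → (c : ℤ) * v.ord f = MerFun.ordMer z (embC N f) := by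
  have hnt : ∃ f : FC N, f ≠ 0 ∧ MerFun.ordMer z (embC N f) ≠ 0 := by
    refine ⟨jF N - algebraMap ℂ (FC N) (jFn z), jF_sub_const_ne_zero N _, ?_⟩
    rw [embC_jF_sub_const, Bridge.ordMer_jHol_sub_const]
    split_ifs <;> norm_num
  obtain ⟨v, c, hc, h⟩ := (isAddVal_ordMer_embC N z).exists_place hnt
  exact ⟨v, c, hc, fun f hf => (h f hf).symm⟩

/-- **[D], cusps.** Every cusp `g • ∞` gives a place `v` of `FC N` such that the order at `∞`
(in the parameter `q_N`) of `g • embC N f` is a fixed positive multiple of `v.ord f`. -/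
theorem exists_place_of_cusp (g : SL(2, ℤ)) :
    ∃ (v : AlgebraicCurve.Place ℂ (FC N)) (c : ℕ), 0 < c ∧
      ∀ f : FC N, f ≠ 0 → (c : ℤ) * v.ord f = ordInfMer N (g • embC N f) := by
  have hN : 0 < N := Nat.pos_of_neZero N
  have hj0 : jF N ≠ 0 := by
    have := jF_sub_const_ne_zero N 0
    rwa [map_zero, sub_zero] at this
  have hnt : ∃ f : FC N, f ≠ 0 ∧ ordInfMer N (g • embC N f) ≠ 0 := by
    refine ⟨(jF N)⁻¹, inv_ne_zero hj0, ?_⟩
    have h1 : g • embC N (jF N)⁻¹ = (algebraMap HolFun MerFun jHol)⁻¹ := by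
      rw [← twC_apply, map_inv₀, twC_jF]
    rw [h1, ordInfMer_jHol_inv hN]
    exact_mod_cast hN.ne'
  obtain ⟨v, c, hc, h⟩ := (isAddVal_ordInfMer_smul_embC N g).exists_place hnt
  exact ⟨v, c, hc, fun f hf => (h f hf).symm⟩

end Fermat.Agent.Gateway.Dict.PlaceOfPoint
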