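/-
P-GATEWAY, WP-DICT (helper19): the dictionary input `Theta.DictInput N (FC N)` consumed by
helper6's `Gateway/Theta` (A1), assembled from the pieces of `Gateway/Dict`:

* `emb = embC N`, with `emb_const`, `emb_fixed`, `isCuspMer` from `EmbedC`;
* `point`, `cusp` from `PlaceOfPoint` (weak D3);
* `range` from `RangeC.mem_range_embC_iff` (D1);
* `const_of_ord`: a nonzero element of `FC N` with trivial divisor is constant, from
  `HasPrincipalDivisors ℂ (FC N)`, `deg = 1` and `point`.
-/
import Fermat.Agent.Gateway.Dict.RangeC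
import Fermat.Agent.Gateway.Dict.PlaceOfPoint
import Fermat.Agent.Gateway.Dict.HolOfOrd
import Fermat.Agent.Gateway.Hecke.Inputs
import Fermat.Agent.Gateway.Theta.Char
import Fermat.Agent.S24.ZP.PlaceBasics

set_option autoImplicit false
set_option linter.unusedSectionVars false

noncomputable section

open UpperHalfPlane CongruenceSubgroup AlgebraicCurve
open scoped MatrixGroups

namespace Fermat.Agent.Gateway.Dict.ThetaInput

open Fermat.Agent.S24 Fermat.Agent.S24.MerFun Fermat.Agent.S24.CuspOrd SetupC EmbedC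

variable (N : ℕ) [NeZero N]

/-- A holomorphic function vanishing at `τ` has positive order at `τ`. -/
theorem ordMer_pos_of_apply_eq_zero {θ : HolFun} (hθ : θ ≠ 0) {τ : ℍ}
    (h0 : (θ : ℍ → ℂ) τ = 0) : 0 < ordMer τ (algebraMap HolFun MerFun θ) := by
  rw [ordMer_algebraMap τ hθ]
  have h1 : HolFun.ordAt τ θ ≠ 0 := fun h => (HolFun.ordAt_eq_zero_iff τ θ).mp h h0
  have h2 : HolFun.ordAt τ θ ≠ ⊤ := (HolFun.ordAt τ).ne_top hθ
  obtain ⟨n, hn⟩ := ENat.ne_top_iff_exists.mp h2
  have hn0 : n ≠ 0 := by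
    rintro rfl
    exact h1 hn.symm
  have : (HolFun.ordAt τ).nat θ = n := by
    rw [OrdFn.nat, ← hn]
    rfl
  rw [this]
  exact_mod_cast Nat.pos_of_ne_zero hn0

/-- The orders of `f - c` are nonnegative where those of `f` are. -/
theorem ord_sub_const_nonneg (v : Place ℂ (FC N)) {f : FC N} (hf : 0 ≤ v.ord f) (c : ℂ) :
    0 ≤ v.ord (f - algebraMap ℂ (FC N) c) := by
  rcases eq_or_ne (f - algebraMap ℂ (FC N) c) 0 with h | h
  · rw [h, Place.ord_zero]
  rcases eq_or_ne c 0 with rfl | hc
  · rwa [map_zero, sub_zero]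
  have hc0 : -algebraMap ℂ (FC N) c ≠ 0 := by
    rw [neg_ne_zero, Ne, map_eq_zero_iff _ (algebraMap ℂ (FC N)).injective]
    exact hc
  have hcord : v.ord (-algebraMap ℂ (FC N) c) = 0 := by
    rw [← map_neg]
    exact ZP.ord_algebraMap v _
  rcases eq_or_ne f 0 with rfl | hf0
  · rw [zero_sub, hcord]
  have := ZP.ord_add_ge v hf0 hc0 (by rwa [← sub_eq_add_neg])
  rw [hcord, ← sub_eq_add_neg] at this
  exact le_trans (le_min hf le_rfl) this

/-- **A function without zeros and poles is constant.** -/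
theorem const_of_ord (f : FC N) (hf : f ≠ 0) (hord : ∀ v : Place ℂ (FC N), v.ord f = 0) :
    ∃ c : ℂ, f = algebraMap ℂ (FC N) c := by
  -- `embC N f` is holomorphic
  have hnonneg : ∀ τ : ℍ, 0 ≤ ordMer τ (embC N f) := by
    intro τ
    obtain ⟨v, c, -, hv⟩ := PlaceOfPoint.exists_place_of_point N τ
    rw [← hv f hf, hord v, mul_zero]
  obtain ⟨θ, hθ⟩ := HolOfOrd.exists_holFun_of_ordMer_nonneg _ hnonneg
  set c : ℂ := (θ : ℍ → ℂ) I with hc
  by_contra hne
  have hfc : f - algebraMap ℂ (FC N) c ≠ 0 := sub_ne_zero.mpr fun h => hne ⟨c, h⟩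
  -- the divisor of `f - c` is effective of degree zero
  have hge : ∀ v : Place ℂ (FC N), 0 ≤ v.ord (f - algebraMap ℂ (FC N) c) := fun v =>
    ord_sub_const_nonneg N v (by rw [hord v]) c
  obtain ⟨D, hD, hdeg⟩ :=
    (Hecke.hasPrincipalDivisors_full ℂ N).exists_divisor (f - algebraMap ℂ (FC N) c) hfc
  -- but `f - c` has a zero at the place attached to `I`
  obtain ⟨v0, c0, hc0, hv0⟩ := PlaceOfPoint.exists_place_of_point N I
  have hemb : embC N (f - algebraMap ℂ (FC N) c) =
      algebraMap HolFun MerFun (θ - algebraMap ℂ HolFun c) := by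
    rw [map_sub, map_sub, embC_const, hθ]
    rfl
  have hθc : θ - algebraMap ℂ HolFun c ≠ 0 := by
    intro h
    rw [h, map_zero] at hemb
    exact hfc ((embC N).injective (by rw [hemb, map_zero]))
  have hzero : ((θ - algebraMap ℂ HolFun c : HolFun) : ℍ → ℂ) I = 0 := by
    show (θ : ℍ → ℂ) I - c = 0
    rw [hc, sub_self]
  have hpos : 0 < v0.ord (f - algebraMap ℂ (FC N) c) := by
    have h1 := hv0 _ hfc
    rw [hemb] at h1
    have h2 := ordMer_pos_of_apply_eq_zero hθc hzero
    rw [← h1] at h2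
    have hc0' : (0 : ℤ) < (c0 : ℤ) := by exact_mod_cast hc0
    rcases lt_or_ge 0 (v0.ord (f - algebraMap ℂ (FC N) c)) with h3 | h3
    · exact h3
    · exact absurd (mul_nonpos_of_nonneg_of_nonpos hc0'.le h3) (not_le.mpr h2)
  -- compute the degree
  have hsum : Divisor.degree D = ∑ v ∈ D.support, D v := by
    show (Finsupp.liftAddHom fun v : Place ℂ (FC N) => AddMonoidHom.mulRight (v.deg : ℤ)) D = _
    rw [Finsupp.liftAddHom_apply, Finsupp.sum]
    refine Finset.sum_congr rfl fun v _ => ?_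
    rw [AddMonoidHom.mulRight_apply, Hecke.deg_eq_one_full ℂ N v, Nat.cast_one, mul_one]
  have hv0mem : v0 ∈ D.support := by
    rw [Finsupp.mem_support_iff, hD v0]
    exact hpos.ne'
  have hle : D v0 ≤ ∑ v ∈ D.support, D v :=
    Finset.single_le_sum (f := fun v => D v) (fun v _ => by rw [hD v]; exact hge v) hv0mem
  rw [← hsum, hdeg, hD v0] at hle
  exact absurd hle (not_le.mpr hpos)

/-- **The dictionary input of `Gateway/Theta`.** -/
def dictInput : Theta.DictInput N (FC N) where
  emb := embC N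
  emb_const c := embC_const N c
  emb_fixed _ hγ f := embC_fixed N hγ f
  isCuspMer f g := isCuspMer_smul_embC N f g
  point z := PlaceOfPoint.exists_place_of_point N z
  cusp g := PlaceOfPoint.exists_place_of_cusp N g
  range h h1 h2 := (RangeC.mem_range_embC_iff N h).mpr ⟨h1, h2⟩
  const_of_ord := const_of_ord N

@[simp] theorem dictInput_emb : (dictInput N).emb = embC N := rfl

end Fermat.Agent.Gateway.Dict.ThetaInput
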