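import Mathlib
import Fermat.Agent.Gateway.Dict.NormProd
import Fermat.Agent.Gateway.Dict.CosetsFin
import Fermat.Agent.Gateway.Dict.ThetaInput
import Fermat.Agent.Gateway.Theta.Hecke

/-!
helper46 (P-GATEWAY, WP-DICT, D5 final, in the shape consumed by WP-HK3 `Theta/Hecke.lean`).

* `embC_heckeFun_eq_heckeProd` : for a prime `ℓ ∤ N`,
  `embC N (heckeFun ℂ N ℓ u) = heckeProd ℓ (embC N u)`.
* `normProdFormula` : `ThetaHecke.NormProdFormula ℓ (ThetaInput.dictInput N)`.
* `theta_hecke_dict` : the unconditional-in-D5 form of `ThetaHecke.theta_hecke` for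
  `I = dictInput N`.
-/

set_option autoImplicit false

open ModularCurve CongruenceSubgroup AlgebraicCurve
open UpperHalfPlane hiding I
open scoped MatrixGroups Real

namespace Fermat.Agent.Gateway.Dict.NormProdFinal

open Fermat.Agent.S24
open Fermat.Agent.Gateway.Kummer Fermat.Agent.Gateway.ThetaHecke
open Fermat.Agent.Gateway.Dict.SetupC Fermat.Agent.Gateway.Dict.EmbedC

variable (N ℓ : ℕ) [NeZero N] [NeZero ℓ] [hℓ : Fact ℓ.Prime]

/-- **D5**, unconditional, in the shape of WP-HK3. -/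
theorem embC_heckeFun_eq_heckeProd (hlN : ¬ ℓ ∣ N) (u : FC N) :
    embC N (heckeFun ℂ N ℓ u) = heckeProd ℓ (embC N u) := by
  rw [NormProd.heckeProd_eq, CosetsFin.embC_heckeFun N ℓ hℓ.out hlN u]

/-- **D5** as the hypothesis `NormProdFormula` of `Theta/Hecke.lean`, for the dictionary input
`ThetaInput.dictInput N`. -/
theorem normProdFormula (hlN : ¬ ℓ ∣ N) :
    NormProdFormula ℓ (ThetaInput.dictInput N) := fun f =>
  embC_heckeFun_eq_heckeProd N ℓ hlN f

end Fermat.Agent.Gateway.Dict.NormProdFinal
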