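/-
P-GATEWAY, WP-DICT, D5 in the shape consumed by WP-HK3 (helper24): for a prime `ℓ ∤ N`,
`ThetaHecke.NormProdFormula ℓ (ThetaInput.dictInput N)`, i.e.
`embC N (Norm_α (β f)) = ∏_{x ∈ ℙ¹(𝔽_ℓ)} (heckeRepPos ℓ x)⁻¹ • embC N f`, unconditionally:
helper46's `NormProd.embC_heckeFun_eq_heckeProd_of_reps` fed with the coset representatives of
`Dict/CosetsP1.lean` / `Dict/CosetsFin.lean`.
-/
import Fermat.Agent.Gateway.Dict.CosetsFin
import Fermat.Agent.Gateway.Dict.NormProd
import Fermat.Agent.Gateway.Dict.ThetaInput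
import Fermat.Agent.Gateway.Theta.Hecke

set_option autoImplicit false

noncomputable section

open CongruenceSubgroup MatrixGroups UpperHalfPlane ModularCurve

namespace Fermat.Agent.Gateway.Dict.NormProdFormula

open CosetsP1 CosetsFin SetupC EmbedC ThetaInput
open Fermat.Agent.Gateway.ThetaHecke Fermat.Agent.Gateway.Kummer

variable (ℓ : ℕ) [NeZero ℓ] [Fact ℓ.Prime] (N : ℕ) [NeZero N]

/-- **D5, explicit, unconditional**: `embC N (Norm_α (β u)) = heckeProd ℓ (embC N u)`. -/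
theorem embC_heckeFun_eq_heckeProd (hlN : ¬ ℓ ∣ N) (u : FC N) :
    embC N (heckeFun ℂ N ℓ u) = heckeProd ℓ (embC N u) := by
  have hl : ℓ.Prime := Fact.out
  have hc : Nat.Coprime ℓ N := (Nat.Prime.coprime_iff_not_dvd hl).mpr hlN
  exact NormProd.embC_heckeFun_eq_heckeProd_of_reps ℓ N (repFin hc) (repFin_bijective hl hlN) rfl
    (fun _ => delta hc) (fun _ => delta_mem hc) (hmat_repFin hc) u

/-- **D5 in the shape of WP-HK3**: `NormProdFormula ℓ (dictInput N)` for a prime `ℓ ∤ N`. -/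
theorem normProdFormula (hlN : ¬ ℓ ∣ N) : NormProdFormula ℓ (dictInput N) := by
  intro f
  rw [dictInput_emb]
  exact embC_heckeFun_eq_heckeProd ℓ N hlN f

end Fermat.Agent.Gateway.Dict.NormProdFormula
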