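import Mathlib
import Fermat.Agent.Gateway.Dict.CosetsFin
import Fermat.Agent.Gateway.Hecke.NormBaseChange
import Fermat.Agent.Gateway.BaseChange.Modular

/-!
helper46 (P-GATEWAY): **(C1) over `ℚ̄`**.  The `q`-expansion norm formula
`Kummer.NormQExpFormula Kbar N ℓ ζ` for a prime `ℓ ∤ N` and a suitable primitive `ℓ`-th root of
unity `ζ ∈ ℚ̄`, obtained from the analytic statement over `ℂ` (`CosetsFin.normQExpFormula`,
WP-DICT [G1]-[G4]) by the base change theorem `NormBC.normQExpFormula_of_baseChange` ([G5]).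

* `exists_zeta` : there is a primitive `ℓ`-th root of unity `ζ ∈ ℚ̄` mapping to `e^{2πi/ℓ}` under
  the fixed embedding `S24.Setup.iota : ℚ̄ → ℂ`.
* `exists_normQExpFormula_Kbar` : `∃ ζ : Kbarˣ, IsPrimitiveRoot ζ ℓ ∧ NormQExpFormula Kbar N ℓ ζ`.
-/

set_option autoImplicit false

open ModularCurve
open scoped Real

namespace Fermat.Agent.Gateway.Dict.NormQExpQbar

open Fermat.Agent.S24 Fermat.Agent.S24.Setup
open Fermat.Agent.Gateway.Kummer Fermat.Agent.Gateway.Dict.QExpTranslate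
open Fermat.Agent.Gateway.BaseChange.Modular

attribute [local instance] algKbarC

/-- `e^{2πi/ℓ}` is a primitive `ℓ`-th root of unity. -/
theorem isPrimitiveRoot_zetaR (ℓ : ℕ) [NeZero ℓ] :
    IsPrimitiveRoot ((zetaR (1 / (ℓ : ℝ)) : ℂˣ) : ℂ) ℓ := by
  have h := Complex.isPrimitiveRoot_exp ℓ (NeZero.ne ℓ)
  have e : (2 * π * Complex.I * ((1 / (ℓ : ℝ) : ℝ) : ℂ)) = 2 * π * Complex.I / ℓ := by
    push_cast
    ring
  rw [coe_zetaR, e]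
  exact h

/-- A primitive `ℓ`-th root of unity of `ℚ̄` mapping to `e^{2πi/ℓ}`. -/
theorem exists_zeta (ℓ : ℕ) [NeZero ℓ] :
    ∃ ζ : Kbarˣ, IsPrimitiveRoot ζ ℓ ∧
      Units.map (algebraMap Kbar ℂ : Kbar →* ℂ) ζ = zetaR (1 / (ℓ : ℝ)) := by
  have : NeZero ((ℓ : ℕ) : ℚ) := ⟨by exact_mod_cast NeZero.ne ℓ⟩
  obtain ⟨η, hη⟩ := HasEnoughRootsOfUnity.exists_primitiveRoot Kbar ℓ
  have hιη : IsPrimitiveRoot (algebraMap Kbar ℂ η) ℓ :=
    hη.map_of_injective (algebraMap Kbar ℂ).injective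
  have hz := isPrimitiveRoot_zetaR ℓ
  obtain ⟨i, -, hi⟩ := hιη.eq_pow_of_pow_eq_one hz.pow_eq_one
  have hηu : IsUnit η := hη.isUnit (NeZero.ne ℓ)
  obtain ⟨ηu, rfl⟩ := hηu
  refine ⟨ηu ^ i, ?_, ?_⟩
  · rw [← IsPrimitiveRoot.coe_units_iff, Units.val_pow_eq_pow_val]
    have h1 : IsPrimitiveRoot (algebraMap Kbar ℂ ((ηu : Kbar) ^ i)) ℓ := by
      rw [map_pow, hi]
      exact hz
    exact IsPrimitiveRoot.of_map_of_injective h1 (algebraMap Kbar ℂ).injective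
  · apply Units.ext
    rw [Units.coe_map, Units.val_pow_eq_pow_val, MonoidHom.coe_coe, map_pow]
    exact hi

variable (N ℓ : ℕ) [NeZero N] [NeZero ℓ]

/-- **(C1) over `ℚ̄`** for the root of unity of `exists_zeta`. -/
theorem normQExpFormula_Kbar (hl : ℓ.Prime) (hlN : ¬ ℓ ∣ N) (ζ : Kbarˣ)
    (hζ : Units.map (algebraMap Kbar ℂ : Kbar →* ℂ) ζ = zetaR (1 / (ℓ : ℝ))) :
    NormQExpFormula Kbar N ℓ ζ := by
  apply Fermat.Agent.Gateway.Hecke.NormBC.normQExpFormula_of_baseChange Kbar ℂ N ℓ ζ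
  rw [hζ]
  exact CosetsFin.normQExpFormula N ℓ hl hlN

/-- **(C1) over `ℚ̄`**: for a prime `ℓ ∤ N` there is a primitive `ℓ`-th root of unity `ζ ∈ ℚ̄`
with `(Norm_α (β u))(q^ℓ) = u(q^(ℓ²)) * ∏_{b<ℓ} u(ζ^b q)` for all `u ∈ ℚ̄(X₀(N))`. -/
theorem exists_normQExpFormula_Kbar (hl : ℓ.Prime) (hlN : ¬ ℓ ∣ N) :
    ∃ ζ : Kbarˣ, IsPrimitiveRoot ζ ℓ ∧ NormQExpFormula Kbar N ℓ ζ := by
  obtain ⟨ζ, hprim, hζ⟩ := exists_zeta ℓ
  exact ⟨ζ, hprim, normQExpFormula_Kbar N ℓ hl hlN ζ hζ⟩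

end Fermat.Agent.Gateway.Dict.NormQExpQbar
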